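/-
MAZUR project, node **[MZ-J]**, TRACK B (helper1's #3128), cell **[B-ATP]** = step (c) (helper23).
Prefix `mzj_bp_`.

For the Frey curve `E`, a Galois-stable line `N ⊂ E[p]` and ANY place `A ∣ p` of `ℚ̄`:
`N = E[p] ∩ E₁(A)` (kernel of reduction).  Good and bad `p` alike.

Proof = the first branch of S13's `as_main`: the dichotomy `la_at_p` gives `E[p] ∩ E₁(A) = N` or
`N ∩ E₁(A) = 0`; in the second case the inertia group of `A` fixes `N` pointwise
(`ap_sub_inKerRed`), the inertia groups at all `ℓ ≠ p` do so as well (`as_odd`, `as_two`), hence by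
Minkowski (`g1_eq_top'`) `N` consists of rational points of order `p`: excluded by
`l2_no_rational_torsion`.

* `mzj_bp_not_fixed` : no stable line is fixed pointwise by an inertia group at `p`;
* `mzj_bp_core`      : `x ∈ L ↔ InKerRed A x` for `x ∈ E[p]` (S13 vocabulary `asV P`);
* `mzj_bp_main`      : the same for a subgroup `N` of the points of ANY `W' = P.freyCurve`
  (apply with `W' := P.freyCurveInt.map (Int.castRingHom ℚ)`, i.e. in `s58_E P.freyCurveInt`).
-/
import Mathlib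
import Fermat.Agent.S13.Wiring

set_option autoImplicit false
set_option linter.unusedSectionVars false
set_option linter.unusedVariables false
set_option linter.style.haveILetI false

namespace Fermat.Agent.MZ

open WeierstrassCurve WeierstrassCurve.Affine WeierstrassCurve.Affine.Point
open Fermat.Agent.S05 Fermat.Agent.S13

local notation "Qb" => AlgebraicClosure ℚ
local notation "Gq" => (AlgebraicClosure ℚ ≃ₐ[ℚ] AlgebraicClosure ℚ)

/-- Instance-path repair: `ℚ̄` is algebraic over `ℚ`. -/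
local instance mzj_bp_isAlgebraic : Algebra.IsAlgebraic ℚ (AlgebraicClosure ℚ) :=
  AlgebraicClosure.isAlgebraic ℚ

/-- the Frey curve has no rational point of order `p`. -/
theorem mzj_bp_no_rational (P : FreyPackage) (x y : ℚ)
    (h : (asE P).Nonsingular (algebraMap ℚ Qb x) (algebraMap ℚ Qb y))
    (hT : P.p • (Point.some _ _ h : (asE P).Point) = 0) : False := by
  obtain ⟨A, hA⟩ := g1_exists_liesOver 2 Nat.prime_two
  exact l2_no_rational_torsion P A hA (fun T hT hpT => wr_noTorsion_two A hA T hT hpT) x y h hT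

/-- **no Galois-stable line of the Frey curve is fixed pointwise by an inertia group at `p`.** -/
theorem mzj_bp_not_fixed {P : FreyPackage} (L : AddSubgroup (asV P)) (hL0 : L ≠ ⊥) (hL1 : L ≠ ⊤)
    (hstab : ∀ σ : Gq, ∀ l ∈ L, σ • l ∈ L) (A₀ : ValuationSubring Qb)
    (hA₀ : A₀.LiesOverPrime P.p) (hp1 : A₀.inertiaSubgroupIn ℚ ≤ glH1 (G := Gq) L) : False := by
  have := as_finite P
  classical
  haveI : Fintype (asV P) := Fintype.ofFinite _
  let coords : asV P → Finset Qb := fun x =>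
    match (x : (asE P).Point) with
    | .zero => ∅
    | .some a b _ => {a, b}
  let s : Finset Qb := Finset.univ.biUnion coords
  have hs : ∀ σ : Gq, (∀ z ∈ s, σ z = z) → ∀ x : asV P, σ • x = x := by
    intro σ hσ x
    apply Subtype.ext
    rw [as_coe_smul]
    have hx : ∀ z ∈ coords x, σ z = z := fun z hz =>
      hσ z (Finset.mem_biUnion.mpr ⟨x, Finset.mem_univ x, hz⟩)
    rcases hxe : (x : (asE P).Point) with _ | ⟨a, b, hab⟩
    · exact ga_smul_zero σ
    · have hc : coords x = {a, b} := by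
        show (match (x : (asE P).Point) with
          | .zero => ∅
          | .some a b _ => {a, b}) = ({a, b} : Finset Qb)
        rw [hxe]
      rw [hc] at hx
      exact ga_smul_some_of_fixed σ hab (hx a (by simp)) (hx b (by simp))
  have hopen1 : IsOpen ((glH1 (G := Gq) L : Subgroup Gq) : Set Gq) :=
    g1_isOpen_of_finset s _ (fun σ hσ l _ => hs σ hσ l)
  have haway : ∀ ℓ : ℕ, ℓ.Prime → ℓ ≠ P.p → ∃ A : ValuationSubring Qb, A.LiesOverPrime ℓ ∧
      A.inertiaSubgroupIn ℚ ≤ glH1 (G := Gq) L ⊓ glH2 hstab := by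
    intro ℓ hℓ hℓp
    obtain ⟨A, hA⟩ := g1_exists_liesOver ℓ hℓ
    refine ⟨A, hA, ?_⟩
    by_cases hℓ2 : ℓ = 2
    · subst hℓ2
      exact as_two L hL0 hL1 hstab (fun A hA σ hσ T => l2_sub_mem_E0 P A hA hσ T)
        (fun A hA σ hσ x y h hT hx => l2_fixed_of_E0 P A hA hσ
          (fun T hT hpT => wr_noTorsion_two A hA T hT hpT) h hT hx) A hA
    · exact as_odd L hL0 hL1 hstab hℓ hℓ2 hℓp A hA
  have htop : glH1 (G := Gq) L = ⊤ := by
    haveI := glH1_normal hstab
    refine g1_eq_top' _ hopen1 (fun ℓ hℓ => ?_)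
    by_cases hℓp : ℓ = P.p
    · subst hℓp; exact ⟨A₀, hA₀, hp1⟩
    · obtain ⟨A, hA, hle⟩ := haway ℓ hℓ hℓp
      exact ⟨A, hA, hle.trans inf_le_left⟩
  obtain ⟨⟨l, hl⟩, hl0'⟩ := (AddSubgroup.ne_bot_iff_exists_ne_zero).mp hL0
  have hl0 : l ≠ 0 := fun h => hl0' (Subtype.ext h)
  have hfixl : ∀ σ : Gq, σ • (l : (asE P).Point) = l := by
    intro σ
    have : σ ∈ glH1 (G := Gq) L := htop ▸ Subgroup.mem_top σ
    exact congrArg Subtype.val (this l hl)
  have hpl := as_nsmul_eq_zero P l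
  rcases hle : (l : (asE P).Point) with _ | ⟨a, b, hab⟩
  · exact hl0 (Subtype.ext hle)
  · rw [hle] at hfixl hpl
    have hab' : ∀ σ : Gq, σ a = a ∧ σ b = b := by
      intro σ
      have := hfixl σ
      rw [Fermat.Agent.S05.smul_some σ hab] at this
      have h' := Point.some.inj this
      exact h'
    obtain ⟨a₀, ha₀⟩ := g1_mem_range_of_fixed a (fun σ => (hab' σ).1)
    obtain ⟨b₀, hb₀⟩ := g1_mem_range_of_fixed b (fun σ => (hab' σ).2)
    subst ha₀ hb₀
    exact mzj_bp_no_rational P a₀ b₀ hab hpl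

/-- **[B-ATP] core (S13 vocabulary)**: a Galois-stable line `L ⊂ E[p]` of the Frey curve IS the
kernel of reduction in `E[p]` at every place `A ∣ p`. -/
theorem mzj_bp_core {P : FreyPackage} (L : AddSubgroup (asV P)) (hL0 : L ≠ ⊥) (hL1 : L ≠ ⊤)
    (hstab : ∀ σ : Gq, ∀ l ∈ L, σ • l ∈ L) (A : ValuationSubring Qb)
    (hA : A.LiesOverPrime P.p) (x : asV P) :
    x ∈ L ↔ InKerRed A (x : (asE P).Point) := by
  have := as_finite P
  have hW : IntegralModel (asE P) A := freyL_integralModel P A hA P.pp (as_p_ne_two P)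
  -- `F ≠ ⊤` (Vieta)
  have hF : asF A hW ≠ ⊤ := by
    intro htop
    set S : Set (asE P).Point := {T | ∃ l ∈ L, (l : (asE P).Point) = T} with hS
    have c1 : ∃ T ∈ S, T ≠ 0 := by
      obtain ⟨⟨l, hl⟩, hl0⟩ := (AddSubgroup.ne_bot_iff_exists_ne_zero).mp hL0
      refine ⟨l, ⟨l, hl, rfl⟩, fun h => hl0 (Subtype.ext (Subtype.ext h))⟩
    have c2 : ∀ T ∈ S, P.p • T = 0 := by
      rintro _ ⟨l, _, rfl⟩; exact as_nsmul_eq_zero P l
    have c3 : ∀ T ∈ S, -T ∈ S := by
      rintro _ ⟨l, hl, rfl⟩; exact ⟨-l, L.neg_mem hl, rfl⟩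
    have c4 : ∀ σ : Gq, ∀ T ∈ S, σ • T ∈ S := by
      rintro σ _ ⟨l, hl, rfl⟩; exact ⟨σ • l, hstab σ l hl, rfl⟩
    have c5 : ∃ T : (asE P).Point, P.p • T = 0 ∧ T ∉ S := by
      obtain ⟨x, -, hx⟩ := SetLike.exists_of_lt (lt_top_iff_ne_top.mpr hL1)
      refine ⟨x, as_nsmul_eq_zero P x, ?_⟩
      rintro ⟨l, hl, hlx⟩
      exact hx ((Subtype.ext hlx : l = x) ▸ hl)
    obtain ⟨T, hT, -, hTk⟩ := lp_exists_not_inKerRed P A hA S ⟨0, L.zero_mem, rfl⟩ c1 c2 c3 c4 c5
    have : (⟨T, as_mem_of_nsmul P hT⟩ : asV P) ∈ asF A hW := htop ▸ AddSubgroup.mem_top _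
    exact hTk this
  have hmove : ∀ σ ∈ A.inertiaSubgroupIn ℚ, ∀ x : asV P, σ • x - x ∈ asF A hW := by
    intro σ hσ x
    exact ap_sub_inKerRed P P.pp (as_p_ne_two P) A hA σ hσ x (as_nsmul_eq_zero P x)
  rcases la_at_p P.pp (as_card P) hL0 hL1 hF with ⟨-, hFL⟩ | hbot
  · rw [← hFL]
    exact Iff.rfl
  · exfalso
    apply mzj_bp_not_fixed L hL0 hL1 hstab A hA
    intro σ hσ l hl
    have h3 : σ • l - l ∈ L ⊓ asF A hW := ⟨L.sub_mem (hstab σ l hl) hl, hmove σ hσ l⟩
    rw [hbot, AddSubgroup.mem_bot, sub_eq_zero] at h3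
    exact h3

/-- **[B-ATP]**, step (c) of Track B: for any model `W'` of the Frey curve over `ℚ`
(`W' = P.freyCurve`, e.g. `W' = P.freyCurveInt.map (Int.castRingHom ℚ)`), a Galois-stable subgroup
`N` of order `p` of `W'(ℚ̄)` is exactly `W'[p] ∩ E₁(A)`, for every place `A ∣ p`. -/
theorem mzj_bp_main (P : FreyPackage) (W' : Affine ℚ) (hW' : W' = P.freyCurve)
    (N : AddSubgroup (W'⁄Qb).Point) (hNp : ∀ x ∈ N, P.p • x = 0) (hcN : Nat.card N = P.p)
    (hN : ∀ σ : Gq, ∀ x ∈ N, σ • x ∈ N) (A : ValuationSubring Qb) (hA : A.LiesOverPrime P.p)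
    (x : (W'⁄Qb).Point) (hx : P.p • x = 0) : x ∈ N ↔ InKerRed A x := by
  subst hW'
  have hfin := as_finite P
  have hfinN : Finite N := Nat.finite_of_card_ne_zero (by rw [hcN]; exact P.pp.ne_zero)
  set L : AddSubgroup (asV P) := N.comap (asV P).toAddSubgroup.subtype with hLdef
  have hmemL : ∀ z : asV P, z ∈ L ↔ (z : (asE P).Point) ∈ N := fun z => Iff.rfl
  have hL0 : L ≠ ⊥ := by
    intro hbot
    have hall : ∀ z ∈ N, z = 0 := by
      intro z hz
      have h1 : (⟨z, as_mem_of_nsmul P (hNp z hz)⟩ : asV P) ∈ L := hz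
      rw [hbot, AddSubgroup.mem_bot] at h1
      exact congrArg Subtype.val h1
    have hsub : Subsingleton N :=
      ⟨fun a b => Subtype.ext ((hall a a.2).trans (hall b b.2).symm)⟩
    have : Nat.card N = 1 := Nat.card_unique
    rw [hcN] at this
    exact P.pp.one_lt.ne' this
  have hL1 : L ≠ ⊤ := by
    intro htop
    have hle : Nat.card (asV P) ≤ Nat.card N :=
      Nat.card_le_card_of_injective
        (fun z => (⟨(z : (asE P).Point), (hmemL z).mp (htop ▸ AddSubgroup.mem_top z)⟩ : N))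
        (fun a b h => Subtype.ext (by simpa using congrArg Subtype.val h))
    rw [as_card P, hcN] at hle
    nlinarith [P.pp.two_le]
  have hstab : ∀ σ : Gq, ∀ l ∈ L, σ • l ∈ L := fun σ l hl => hN σ _ hl
  exact mzj_bp_core L hL0 hL1 hstab A hA ⟨x, as_mem_of_nsmul P hx⟩

end Fermat.Agent.MZ
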