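/-
MAZUR project, node **[MZ-J]**, TRACK B (owner helper1).  Prefix `mzj_tb_`.

S12 WITHOUT ANY QUOTIENT CURVE: the mirrored S15 (`MZ/J/Mirror.lean`) applied to the Frey curve
itself with the cofixed line `N`, the `2`-torsion identity and a parity argument (finding #3128).

THE SEAMS OF TRACK B.  `W = P.freyCurveInt`; the `2`-torsion `x`-coordinates of this model are
`E₁ = 0`, `E₂ = a^p / 4`, `E₃ = - b^p / 4`; for a point `Q` of order `p`,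
`R e = ∏_{k=1}^{p-1} (e - x(k • Q))`.

* `mzj_tb_Mirror_stmt`  (S15*), closed form of `mzj_mr_S15star`;
* `mzj_tb_PM1_stmt`     [B-PM1] helper11: `N ⊄ E⁰` at a multiplicative `ℓ ≠ p` ⟹ `p ∣ ℓ ∓ 1`;
* `mzj_tb_AtP_stmt`     [B-ATP] helper23: at `A ∣ p` the cofixed line lies in the kernel of reduction;
* `mzj_tb_Unit_stmt`    [B-UNIT] helper4: the local valuations of the `R E_i`;
* `mzj_tb_Ident_stmt`   [B-ID] helper13 (+ helper2) / [B-ID-Q] helper3: the `2`-torsion identity over `ℚ̄`;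
* `mzj_tb_End_stmt`     [B-END] helper26: rationality + parity.
`MZ/J/TB/Top.lean` derives the frozen S12 from them and from `MZ/J/Base.lean` (helper24).
-/
import Mathlib
import Fermat.Agent.MZ.J.Seams
import Fermat.Agent.MZ.J.Ds.Defs
import Fermat.Prelude.Def_FLTPrelim_CofixedLine

set_option autoImplicit false

namespace Fermat.Agent.MZ

open WeierstrassCurve WeierstrassCurve.Affine Fermat.Agent.S58

/-- `R e = ∏_{k=1}^{p-1} (e - x(k • Q))` on a Weierstrass curve over `ℚ̄`. -/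
noncomputable def mzj_tb_R (W' : WeierstrassCurve.Affine s58_Qb) (p : ℕ) (Q : W'.Point)
    (e : s58_Qb) : s58_Qb :=
  ∏ k ∈ Finset.Ico 1 p, (e - mzj_ds_x W' (k • Q))

/-- **(S15\*)**, closed form: the mirrored S15 (`mzj_mr_S15star` with the five seams supplied). -/
def mzj_tb_Mirror_stmt : Prop :=
  ∀ {p : ℕ} (_ : p.Prime) (_ : p ∉ ({2, 3, 5, 7, 13} : Finset ℕ))
    (W : WeierstrassCurve ℤ) (_ : W.Δ ≠ 0)
    (Q : s58_E W)
    (_ : ∀ σ : s58_G, ∃ k : ℕ, σ • Q = k • Q)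
    (_ : addOrderOf Q = p)
    (_ : (2 : ℤ) ∣ W.Δ) (_ : ¬ (2 : ℤ) ∣ W.c₄)
    (_ : ∀ A : ValuationSubring s58_Qb, A.LiesOverPrime 2 → W.InZeroComponentAt A Q)
    (_ : (3 : ℤ) ∣ W.Δ) (_ : ¬ (3 : ℤ) ∣ W.c₄)
    (_ : ∀ A : ValuationSubring s58_Qb, A.LiesOverPrime 3 → W.InZeroComponentAt A Q)
    {ℓ : ℕ} (_ : ℓ.Prime) (_ : ℓ ≠ p) (_ : (ℓ : ℤ) ∣ W.Δ) (_ : ¬ (ℓ : ℤ) ∣ W.c₄)
    (_ : ¬ ℓ ∣ p - 1)
    (A : ValuationSubring s58_Qb) (_ : A.LiesOverPrime ℓ),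
    W.InZeroComponentAt A Q

/-- **[B-PM1]**: a cofixed line that is not contained in the identity component at a multiplicative
prime `ℓ ≠ p` forces `ℓ ≡ ±1 mod p`. -/
def mzj_tb_PM1_stmt : Prop :=
  ∀ (W : WeierstrassCurve ℤ), W.Δ ≠ 0 → ∀ {p : ℕ}, p.Prime → 5 ≤ p →
    ∀ N : AddSubgroup (s58_E W), Nat.card N = p →
      (∀ (σ : s58_G) (x : s58_E W), p • x = 0 → σ • x - x ∈ N) →
      ∀ {ℓ : ℕ}, ℓ.Prime → ℓ ≠ p → (ℓ : ℤ) ∣ W.Δ → ¬ (ℓ : ℤ) ∣ W.c₄ →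
        ∀ A : ValuationSubring s58_Qb, A.LiesOverPrime ℓ →
          ∀ Q ∈ N, ¬ W.InZeroComponentAt A Q → p ∣ ℓ - 1 ∨ p ∣ ℓ + 1

/-- **[B-GOOD]**: a cofixed line of order `p` at a prime `ℓ ≠ p` of good reduction forces
`p ≤ 2 ℓ + 1` (helper11's `mzj_ec_bound` at `n = 1` + existence of a Frobenius). -/
def mzj_tb_Good_stmt : Prop :=
  ∀ (W : WeierstrassCurve ℤ), W.Δ ≠ 0 → ∀ {p : ℕ}, p.Prime → p ≠ 2 →
    ∀ N : AddSubgroup (s58_E W), Nat.card N = p →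
      (∀ (σ : s58_G) (x : s58_E W), p • x = 0 → σ • x - x ∈ N) →
      ∀ {ℓ : ℕ}, ℓ.Prime → ℓ ≠ p → ¬ (ℓ : ℤ) ∣ W.Δ → p ≤ 2 * ℓ + 1

/-- **[B-ATP]**: on the Frey curve, a cofixed line lies in the kernel of reduction at every place
over `p` (good or multiplicative `p`). -/
def mzj_tb_AtP_stmt : Prop :=
  ∀ (P : FreyPackage) (N : AddSubgroup (s58_E P.freyCurveInt)), Nat.card N = P.p →
    mzj_Stable N →
    (∀ (σ : s58_G) (x : s58_E P.freyCurveInt), P.p • x = 0 → σ • x - x ∈ N) →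
    ∀ A : ValuationSubring s58_Qb, A.LiesOverPrime P.p →
      ∀ x ∈ N, Fermat.Agent.S05.InKerRed A x

/-- the `x`-coordinate `E₂ = a^p / 4` of the second `2`-torsion point of the Frey model -/
noncomputable def mzj_tb_E2 (P : FreyPackage) : s58_Qb := ((P.a : s58_Qb) ^ P.p) / 4

/-- the `x`-coordinate `E₃ = - b^p / 4` of the third `2`-torsion point of the Frey model -/
noncomputable def mzj_tb_E3 (P : FreyPackage) : s58_Qb := -((P.b : s58_Qb) ^ P.p) / 4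

/-- **[B-UNIT]**: the local valuations of `R E₁`, `R E₂`, `R E₃` at a place `A ∣ ℓ`, for a point `Q`
of order `p` which lies in the identity component at `A` if `ℓ ≠ p` is a bad prime, and in the
kernel of reduction if `ℓ = p`. -/
def mzj_tb_Unit_stmt : Prop :=
  ∀ (P : FreyPackage) (Q : s58_E P.freyCurveInt), addOrderOf Q = P.p →
    ∀ {ℓ : ℕ}, ℓ.Prime → ∀ A : ValuationSubring s58_Qb, A.LiesOverPrime ℓ →
      (ℓ ≠ P.p → (ℓ : ℤ) ∣ P.freyCurveInt.Δ → P.freyCurveInt.InZeroComponentAt A Q) →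
      (ℓ = P.p → Fermat.Agent.S05.InKerRed A Q) →
      A.valuation (mzj_tb_R _ P.p Q 0) = A.valuation (mzj_tb_R _ P.p Q (mzj_tb_E3 P)) ∧
      A.valuation (mzj_tb_R _ P.p Q (mzj_tb_E2 P) * 4 ^ (P.p - 1)) =
        A.valuation (mzj_tb_R _ P.p Q (mzj_tb_E3 P))

/-- **[B-ID]**: the `2`-torsion identity over `ℚ̄`, general Weierstrass form: for a point `Q` of odd
prime order `p` and the three roots `E₁, E₂, E₃` of the `2`-division polynomial,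
`(E₂ - E₁)^p R(E₃)² + (E₃ - E₂)^p R(E₁)² + (E₁ - E₃)^p R(E₂)² = 0`. -/
def mzj_tb_Ident_stmt : Prop :=
  ∀ (W' : WeierstrassCurve.Affine s58_Qb), W'.Δ ≠ 0 → ∀ {p : ℕ}, p.Prime → p ≠ 2 →
    ∀ Q : W'.Point, addOrderOf Q = p →
    ∀ E₁ E₂ E₃ : s58_Qb,
      4 * E₁ ^ 3 + W'.b₂ * E₁ ^ 2 + 2 * W'.b₄ * E₁ + W'.b₆ = 0 →
      4 * E₂ ^ 3 + W'.b₂ * E₂ ^ 2 + 2 * W'.b₄ * E₂ + W'.b₆ = 0 →
      4 * E₃ ^ 3 + W'.b₂ * E₃ ^ 2 + 2 * W'.b₄ * E₃ + W'.b₆ = 0 →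
      E₁ ≠ E₂ → E₁ ≠ E₃ → E₂ ≠ E₃ →
      (E₂ - E₁) ^ p * mzj_tb_R W' p Q E₃ ^ 2 + (E₃ - E₂) ^ p * mzj_tb_R W' p Q E₁ ^ 2 +
        (E₁ - E₃) ^ p * mzj_tb_R W' p Q E₂ ^ 2 = 0

/-- **[B-END]**: rationality + parity.  Three nonzero `G_ℚ`-invariant numbers with
`v(R₁) = v(R₃)`, `v(R₂ 4^(p-1)) = v(R₃)` at every place over every prime cannot satisfy
`a^p R₃² + b^p R₂² = (a + b)^p R₁²` with `a` odd and `32 ∣ b`. -/
def mzj_tb_End_stmt : Prop :=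
  ∀ (p : ℕ), Odd p → 3 ≤ p → ∀ (a b : ℤ), Odd a → (32 : ℤ) ∣ b →
    ∀ R1 R2 R3 : s58_Qb, R1 ≠ 0 → R2 ≠ 0 → R3 ≠ 0 →
      (∀ σ : s58_G, σ R1 = R1) → (∀ σ : s58_G, σ R2 = R2) → (∀ σ : s58_G, σ R3 = R3) →
      (∀ ℓ : ℕ, ℓ.Prime → ∀ A : ValuationSubring s58_Qb, A.LiesOverPrime ℓ →
        A.valuation R1 = A.valuation R3 ∧ A.valuation (R2 * 4 ^ (p - 1)) = A.valuation R3) →
      (a : s58_Qb) ^ p * R3 ^ 2 + (b : s58_Qb) ^ p * R2 ^ 2 = ((a : s58_Qb) + b) ^ p * R1 ^ 2 →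
      False

end Fermat.Agent.MZ
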