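/-
MAZUR project, node **[MZ-J]**, TRACK B, seam **[B-ATP]** (helper23).  Prefix `mzj_bp_`.

`mzj_bp_stmt : mzj_tb_AtP_stmt` (the Prop of `MZ/J/TB/Seams.lean`, verbatim) from
`mzj_bp_main` (`MZ/J/TB/AtP.lean`) and helper24's `mzj_bs_map : P.freyCurveInt.map _ = P.freyCurve`.
-/
import Mathlib
import Fermat.Agent.MZ.J.TB.AtP
import Fermat.Agent.MZ.J.TB.Seams
import Fermat.Agent.MZ.J.Base

set_option autoImplicit false

namespace Fermat.Agent.MZ

open WeierstrassCurve WeierstrassCurve.Affine Fermat.Agent.S58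

/-- **[B-ATP]**, seam form. -/
theorem mzj_bp_stmt : mzj_tb_AtP_stmt := by
  intro P N hcN hst _ A hA x hx
  have hfin : Finite N := Nat.finite_of_card_ne_zero (by rw [hcN]; exact P.pp.ne_zero)
  have hNp : ∀ z ∈ N, P.p • z = 0 := by
    intro z hz
    have h1 : Nat.card N • (⟨z, hz⟩ : N) = 0 := card_nsmul_eq_zero'
    rw [hcN] at h1
    have := congrArg Subtype.val h1
    simpa using this
  exact (mzj_bp_main P (s58_WQ P.freyCurveInt) (mzj_bs_map P) N hNp hcN hst A hA x (hNp x hx)).mp hx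

end Fermat.Agent.MZ
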