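/-
MAZUR project, node [MZ-J], TRACK B (helper1's #3128), cell [B-END] = steps (e) + (g), ABSTRACT.

* `mzj_be_pm_one`  : a rational number which is a unit at every place of `ℚ̄` is `±1`;
* `mzj_be_fixed_pm_one` : the same for a `G_ℚ`-fixed element of `ℚ̄`;
* `mzj_be_parity`  : `a` odd, `32 ∣ b`, `b ≠ 0`, `p ≥ 3` odd:
                     `16^(p-1) a^p + b^p = 16^(p-1) (a+b)^p` is impossible (`2`-adic valuations);
* `mzj_be_end`     : `R₁ R₂ R₃ ∈ ℚ̄ˣ` with `R₁² = R₃²`, `16^(p-1) R₂² = R₃²` and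
                     `a^p R₃² + b^p R₂² = (a+b)^p R₁²` ⟹ `False`;
* `mzj_be_main`    : the same from the valuation-theoretic hypotheses: `R_i` Galois-fixed, and at every
                     place `v(R₁) = v(R₃)`, `v(R₂ · 4^(p-1)) = v(R₃)`.
Prefix `mzj_be_`.
-/
import Mathlib
import Fermat.Agent.S13.Global.UnramifiedOne

set_option autoImplicit false

namespace Fermat.Agent.MZ

open Fermat.Agent.S13

local notation "Qb" => AlgebraicClosure ℚ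
local notation "GQ" => (AlgebraicClosure ℚ ≃ₐ[ℚ] AlgebraicClosure ℚ)

/-! ### Valuations of integers at a place over `ℓ` -/

theorem mzj_be_val_int_le_one (A : ValuationSubring Qb) (n : ℤ) : A.valuation ((n : ℤ) : Qb) ≤ 1 :=
  (A.valuation_le_one_iff _).mpr (intCast_mem A n)

theorem mzj_be_val_int_lt_one {ℓ : ℕ} (A : ValuationSubring Qb) (hA : A.LiesOverPrime ℓ) {n : ℤ}
    (h : (ℓ : ℤ) ∣ n) : A.valuation ((n : ℤ) : Qb) < 1 := by
  obtain ⟨m, rfl⟩ := h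
  have h1 : A.valuation ((ℓ : ℕ) : Qb) < 1 := A.mem_nonunits_iff.mp hA
  have h2 := mzj_be_val_int_le_one A m
  push_cast
  rw [map_mul]
  calc A.valuation ((ℓ : ℕ) : Qb) * A.valuation ((m : ℤ) : Qb)
      ≤ A.valuation ((ℓ : ℕ) : Qb) * 1 := by gcongr
    _ < 1 := by rwa [mul_one]

theorem mzj_be_val_int_eq_one {ℓ : ℕ} (hℓ : ℓ.Prime) (A : ValuationSubring Qb)
    (hA : A.LiesOverPrime ℓ) {n : ℤ} (h : ¬ (ℓ : ℤ) ∣ n) : A.valuation ((n : ℤ) : Qb) = 1 := by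
  have hcop : IsCoprime n (ℓ : ℤ) := by
    have hp : Prime (ℓ : ℤ) := Nat.prime_iff_prime_int.mp hℓ
    exact ((hp.coprime_iff_not_dvd).mpr h).symm
  obtain ⟨u, v, huv⟩ := hcop
  refine le_antisymm (mzj_be_val_int_le_one A n) ?_
  by_contra hlt
  push Not at hlt
  have h1 : A.valuation (((u * n : ℤ) : Qb)) < 1 := by
    push_cast
    rw [map_mul]
    calc A.valuation ((u : ℤ) : Qb) * A.valuation ((n : ℤ) : Qb)
        ≤ 1 * A.valuation ((n : ℤ) : Qb) := by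
          gcongr
          exact mzj_be_val_int_le_one A u
      _ < 1 := by rwa [one_mul]
  have h2 : A.valuation (((v * (ℓ : ℤ) : ℤ) : Qb)) < 1 :=
    mzj_be_val_int_lt_one A hA (Dvd.intro_left v rfl)
  have h3 : A.valuation (((u * n + v * (ℓ : ℤ) : ℤ) : Qb)) < 1 := by
    rw [Int.cast_add]
    exact lt_of_le_of_lt (A.valuation.map_add _ _) (max_lt h1 h2)
  rw [huv, Int.cast_one, map_one] at h3
  exact lt_irrefl _ h3

/-- **A rational number which is a unit at every place is `±1`.** -/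
theorem mzj_be_pm_one (r : ℚ)
    (h : ∀ ℓ : ℕ, ℓ.Prime → ∀ A : ValuationSubring Qb, A.LiesOverPrime ℓ →
      A.valuation (algebraMap ℚ Qb r) = 1) : r = 1 ∨ r = -1 := by
  have hr0 : r ≠ 0 := by
    rintro rfl
    obtain ⟨A, hA⟩ := g1_exists_liesOver 2 Nat.prime_two
    have := h 2 Nat.prime_two A hA
    rw [map_zero, map_zero] at this
    exact zero_ne_one this
  have hnum0 : r.num ≠ 0 := Rat.num_ne_zero.mpr hr0
  have hrepr : algebraMap ℚ Qb r = ((r.num : ℤ) : Qb) / ((r.den : ℤ) : Qb) := by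
    conv_lhs => rw [← Rat.num_div_den r]
    rw [map_div₀]
    simp
  have key : ∀ ℓ : ℕ, ℓ.Prime → ¬ (ℓ : ℤ) ∣ r.num ∧ ¬ (ℓ : ℤ) ∣ (r.den : ℤ) := by
    intro ℓ hℓ
    obtain ⟨A, hA⟩ := g1_exists_liesOver ℓ hℓ
    have hv := h ℓ hℓ A hA
    rw [hrepr, map_div₀] at hv
    have hden0 : A.valuation ((r.den : ℤ) : Qb) ≠ 0 := by
      rw [ne_eq, map_eq_zero]
      exact_mod_cast r.den_ne_zero
    have hveq : A.valuation ((r.num : ℤ) : Qb) = A.valuation ((r.den : ℤ) : Qb) := by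
      rwa [div_eq_one_iff_eq hden0] at hv
    constructor
    · intro hd
      have h1 := mzj_be_val_int_lt_one A hA hd
      have h2 : ¬ (ℓ : ℤ) ∣ (r.den : ℤ) := by
        intro hd2
        have h3 : (ℓ : ℤ) ∣ Int.gcd r.num (r.den : ℤ) := Int.dvd_coe_gcd hd hd2
        have h4 : Int.gcd r.num (r.den : ℤ) = 1 := by
          have := r.reduced
          simpa [Nat.Coprime, Int.gcd] using this
        rw [h4] at h3
        have : (ℓ : ℤ) = 1 ∨ (ℓ : ℤ) = -1 := Int.isUnit_iff.mp (isUnit_of_dvd_one h3)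
        rcases this with h5 | h5
        · exact hℓ.one_lt.ne' (by exact_mod_cast h5)
        · omega
      rw [hveq, mzj_be_val_int_eq_one hℓ A hA h2] at h1
      exact lt_irrefl _ h1
    · intro hd
      have h1 := mzj_be_val_int_lt_one A hA hd
      have h2 : ¬ (ℓ : ℤ) ∣ r.num := by
        intro hd2
        have h3 : (ℓ : ℤ) ∣ Int.gcd r.num (r.den : ℤ) := Int.dvd_coe_gcd hd2 hd
        have h4 : Int.gcd r.num (r.den : ℤ) = 1 := by
          have := r.reduced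
          simpa [Nat.Coprime, Int.gcd] using this
        rw [h4] at h3
        have : (ℓ : ℤ) = 1 ∨ (ℓ : ℤ) = -1 := Int.isUnit_iff.mp (isUnit_of_dvd_one h3)
        rcases this with h5 | h5
        · exact hℓ.one_lt.ne' (by exact_mod_cast h5)
        · omega
      rw [← hveq, mzj_be_val_int_eq_one hℓ A hA h2] at h1
      exact lt_irrefl _ h1
  have hden : r.den = 1 := by
    by_contra hne
    obtain ⟨ℓ, hℓ, hd⟩ := Nat.exists_prime_and_dvd hne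
    exact (key ℓ hℓ).2 (by exact_mod_cast hd)
  have hnum : r.num.natAbs = 1 := by
    by_contra hne
    obtain ⟨ℓ, hℓ, hd⟩ := Nat.exists_prime_and_dvd hne
    exact (key ℓ hℓ).1 (Int.natCast_dvd.mpr hd)
  rcases Int.natAbs_eq r.num with h1 | h1
  · left
    rw [← Rat.num_div_den r, hden, h1, hnum]
    norm_num
  · right
    rw [← Rat.num_div_den r, hden, h1, hnum]
    norm_num

/-- the same for a Galois-fixed element of `ℚ̄`. -/
theorem mzj_be_fixed_pm_one (x : Qb) (hfix : ∀ σ : GQ, σ x = x)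
    (h : ∀ ℓ : ℕ, ℓ.Prime → ∀ A : ValuationSubring Qb, A.LiesOverPrime ℓ → A.valuation x = 1) :
    x = 1 ∨ x = -1 := by
  obtain ⟨r, rfl⟩ := g1_mem_range_of_fixed x hfix
  rcases mzj_be_pm_one r h with h1 | h1
  · left; rw [h1, map_one]
  · right; rw [h1, map_neg, map_one]

/-! ### The parity endgame -/

/-- `a` odd, `32 ∣ b ≠ 0`, `p ≥ 3` odd: `16^(p-1) a^p + b^p = 16^(p-1) (a + b)^p` is impossible. -/
theorem mzj_be_parity {p : ℕ} (hp3 : 3 ≤ p) (hpo : Odd p) (a b : ℤ) (ha : Odd a) (hb : (32 : ℤ) ∣ b)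
    (hb0 : b ≠ 0) (h : (16 : ℤ) ^ (p - 1) * a ^ p + b ^ p = 16 ^ (p - 1) * (a + b) ^ p) : False := by
  set S : ℤ := ∑ i ∈ Finset.range p, (a + b) ^ i * a ^ (p - 1 - i) with hS
  have hgeom : S * ((a + b) - a) = (a + b) ^ p - a ^ p := (Commute.all _ _).geom_sum₂_mul p
  have hgeom' : S * b = (a + b) ^ p - a ^ p := by
    rw [← hgeom]; ring
  have h1 : b ^ p = 16 ^ (p - 1) * (S * b) := by
    rw [hgeom']; linarith
  have hp1 : p = (p - 1) + 1 := by omega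
  have h2 : b ^ (p - 1) = 16 ^ (p - 1) * S := by
    have h3 : b ^ (p - 1) * b = (16 ^ (p - 1) * S) * b := by
      rw [← pow_succ, ← hp1, h1]; ring
    exact mul_right_cancel₀ hb0 h3
  have h4 : (32 : ℤ) ^ (p - 1) ∣ b ^ (p - 1) := pow_dvd_pow_of_dvd hb _
  have h5 : (32 : ℤ) ^ (p - 1) = 16 ^ (p - 1) * 2 ^ (p - 1) := by
    rw [← mul_pow]; norm_num
  rw [h2, h5] at h4
  have h6 : (2 : ℤ) ^ (p - 1) ∣ S :=
    (mul_dvd_mul_iff_left (pow_ne_zero _ (by norm_num : (16 : ℤ) ≠ 0))).mp h4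
  have h7 : (2 : ℤ) ∣ S := dvd_trans (dvd_pow_self 2 (by omega)) h6
  -- but `S` is odd
  have h8 : ((S : ℤ) : ZMod 2) = 0 := (ZMod.intCast_zmod_eq_zero_iff_dvd S 2).mpr (by exact_mod_cast h7)
  have ha1 : ((a : ℤ) : ZMod 2) = 1 := by
    obtain ⟨k, rfl⟩ := ha
    push_cast
    have : (2 : ZMod 2) = 0 := by decide
    rw [this, zero_mul, zero_add]
  have hb1 : ((b : ℤ) : ZMod 2) = 0 := by
    rw [ZMod.intCast_zmod_eq_zero_iff_dvd]
    exact_mod_cast dvd_trans (by norm_num : (2 : ℤ) ∣ 32) hb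
  have h9 : ((S : ℤ) : ZMod 2) = (p : ZMod 2) := by
    rw [hS]
    push_cast
    rw [ha1, hb1]
    simp
  have h10 : ((p : ℕ) : ZMod 2) = 1 := by
    obtain ⟨k, rfl⟩ := hpo
    push_cast
    have : (2 : ZMod 2) = 0 := by decide
    rw [this, zero_mul, zero_add]
  rw [h9, h10] at h8
  exact one_ne_zero h8

/-- **[B-END], equational form.** -/
theorem mzj_be_end {p : ℕ} (hp3 : 3 ≤ p) (hpo : Odd p) (a b : ℤ) (ha : Odd a) (hb : (32 : ℤ) ∣ b)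
    (hb0 : b ≠ 0) (R1 R2 R3 : Qb) (h3 : R3 ≠ 0) (h13 : R1 ^ 2 = R3 ^ 2)
    (h23 : (16 : Qb) ^ (p - 1) * R2 ^ 2 = R3 ^ 2)
    (hid : ((a : ℤ) : Qb) ^ p * R3 ^ 2 + ((b : ℤ) : Qb) ^ p * R2 ^ 2 =
      (((a + b : ℤ)) : Qb) ^ p * R1 ^ 2) : False := by
  have h1 : ((16 : Qb) ^ (p - 1) * ((a : ℤ) : Qb) ^ p + ((b : ℤ) : Qb) ^ p) * R3 ^ 2 =
      ((16 : Qb) ^ (p - 1) * (((a + b : ℤ)) : Qb) ^ p) * R3 ^ 2 := by
    have e1 : ((b : ℤ) : Qb) ^ p * R3 ^ 2 = 16 ^ (p - 1) * (((b : ℤ) : Qb) ^ p * R2 ^ 2) := by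
      rw [← h23]; ring
    calc ((16 : Qb) ^ (p - 1) * ((a : ℤ) : Qb) ^ p + ((b : ℤ) : Qb) ^ p) * R3 ^ 2
        = 16 ^ (p - 1) * (((a : ℤ) : Qb) ^ p * R3 ^ 2) + ((b : ℤ) : Qb) ^ p * R3 ^ 2 := by ring
      _ = 16 ^ (p - 1) * (((a : ℤ) : Qb) ^ p * R3 ^ 2 + ((b : ℤ) : Qb) ^ p * R2 ^ 2) := by
          rw [e1]; ring
      _ = 16 ^ (p - 1) * ((((a + b : ℤ)) : Qb) ^ p * R1 ^ 2) := by rw [hid]
      _ = ((16 : Qb) ^ (p - 1) * (((a + b : ℤ)) : Qb) ^ p) * R3 ^ 2 := by rw [h13]; ring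
  have h2 := mul_right_cancel₀ (pow_ne_zero 2 h3) h1
  have h4 : (((16 : ℤ) ^ (p - 1) * a ^ p + b ^ p : ℤ) : Qb) =
      (((16 : ℤ) ^ (p - 1) * (a + b) ^ p : ℤ) : Qb) := by
    push_cast
    push_cast at h2
    exact h2
  exact mzj_be_parity hp3 hpo a b ha hb hb0 (Int.cast_injective h4)

/-- **[B-END], valuation form**: `R₁, R₂, R₃ ∈ ℚ̄ˣ` Galois-fixed, with `v(R₁) = v(R₃)` and
`v(4^(p-1) R₂) = v(R₃)` at every place of `ℚ̄`, cannot satisfy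
`a^p R₃² + b^p R₂² = (a + b)^p R₁²` (`a` odd, `32 ∣ b ≠ 0`, `p ≥ 3` odd). -/
theorem mzj_be_main {p : ℕ} (hp3 : 3 ≤ p) (hpo : Odd p) (a b : ℤ) (ha : Odd a) (hb : (32 : ℤ) ∣ b)
    (hb0 : b ≠ 0) (R1 R2 R3 : Qb) (h3 : R3 ≠ 0)
    (hf1 : ∀ σ : GQ, σ R1 = R1) (hf2 : ∀ σ : GQ, σ R2 = R2) (hf3 : ∀ σ : GQ, σ R3 = R3)
    (hv13 : ∀ ℓ : ℕ, ℓ.Prime → ∀ A : ValuationSubring Qb, A.LiesOverPrime ℓ →
      A.valuation R1 = A.valuation R3)
    (hv23 : ∀ ℓ : ℕ, ℓ.Prime → ∀ A : ValuationSubring Qb, A.LiesOverPrime ℓ →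
      A.valuation ((4 : Qb) ^ (p - 1) * R2) = A.valuation R3)
    (hid : ((a : ℤ) : Qb) ^ p * R3 ^ 2 + ((b : ℤ) : Qb) ^ p * R2 ^ 2 =
      (((a + b : ℤ)) : Qb) ^ p * R1 ^ 2) : False := by
  have hv3 : ∀ A : ValuationSubring Qb, A.valuation R3 ≠ 0 := fun A => by
    rw [ne_eq, map_eq_zero]; exact h3
  have e13 : R1 / R3 = 1 ∨ R1 / R3 = -1 := by
    refine mzj_be_fixed_pm_one _ (fun σ => by rw [map_div₀, hf1, hf3]) fun ℓ hℓ A hA => ?_
    rw [map_div₀, hv13 ℓ hℓ A hA, div_self (hv3 A)]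
  have e23 : (4 : Qb) ^ (p - 1) * R2 / R3 = 1 ∨ (4 : Qb) ^ (p - 1) * R2 / R3 = -1 := by
    refine mzj_be_fixed_pm_one _ (fun σ => by
      rw [map_div₀, map_mul, map_pow, hf2, hf3]
      congr 3
      exact map_ofNat σ 4) fun ℓ hℓ A hA => ?_
    rw [map_div₀, hv23 ℓ hℓ A hA, div_self (hv3 A)]
  have h13 : R1 ^ 2 = R3 ^ 2 := by
    rcases e13 with e | e
    · rw [div_eq_iff h3, one_mul] at e; rw [e]
    · rw [div_eq_iff h3] at e; rw [e]; ring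
  have h23 : (16 : Qb) ^ (p - 1) * R2 ^ 2 = R3 ^ 2 := by
    have e16 : (16 : Qb) ^ (p - 1) = ((4 : Qb) ^ (p - 1)) ^ 2 := by
      rw [← pow_mul, mul_comm, pow_mul]; norm_num
    rcases e23 with e | e
    · rw [div_eq_iff h3, one_mul] at e; rw [← e, e16]; ring
    · rw [div_eq_iff h3] at e
      have : R3 = -((4 : Qb) ^ (p - 1) * R2) := by rw [e]; ring
      rw [this, e16]; ring
  exact mzj_be_end hp3 hpo a b ha hb hb0 R1 R2 R3 h3 h13 h23 hid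

/-- **[B-END] in the shape of `mzj_tb_End_stmt` (MZ/J/TB/Seams.lean), WITH the hypothesis `b ≠ 0`**
(without it the seam is false: `a = 1`, `b = 0`, `R₁ = R₃ = 1`, `R₂ = 4^(1-p)`). -/
theorem mzj_be_seam :
    ∀ (p : ℕ), Odd p → 3 ≤ p → ∀ (a b : ℤ), Odd a → (32 : ℤ) ∣ b → b ≠ 0 →
      ∀ R1 R2 R3 : Qb, R1 ≠ 0 → R2 ≠ 0 → R3 ≠ 0 →
        (∀ σ : GQ, σ R1 = R1) → (∀ σ : GQ, σ R2 = R2) → (∀ σ : GQ, σ R3 = R3) →
        (∀ ℓ : ℕ, ℓ.Prime → ∀ A : ValuationSubring Qb, A.LiesOverPrime ℓ →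
          A.valuation R1 = A.valuation R3 ∧ A.valuation (R2 * 4 ^ (p - 1)) = A.valuation R3) →
        ((a : ℤ) : Qb) ^ p * R3 ^ 2 + ((b : ℤ) : Qb) ^ p * R2 ^ 2 =
          (((a : ℤ) : Qb) + ((b : ℤ) : Qb)) ^ p * R1 ^ 2 →
        False := by
  intro p hpo hp3 a b ha hb hb0 R1 R2 R3 _ _ h3 hf1 hf2 hf3 hv hid
  refine mzj_be_main hp3 hpo a b ha hb hb0 R1 R2 R3 h3 hf1 hf2 hf3
    (fun ℓ hℓ A hA => (hv ℓ hℓ A hA).1)
    (fun ℓ hℓ A hA => by rw [mul_comm]; exact (hv ℓ hℓ A hA).2) ?_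
  rw [Int.cast_add]
  exact hid

end Fermat.Agent.MZ
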