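/-
MAZUR project, node **[MZ-J]**, TRACK B, cell **[B-GOOD]**.  Author helper24.  Prefix `mzj_bg_`.

`mzj_bg_main : mzj_tb_Good_stmt`: a cofixed line `N` of order `p` (odd prime) on an integral model
`W` with good reduction at a prime `ℓ ≠ p` forces `p ≤ 2 ℓ + 1`.

Proof: a place `A ∣ ℓ` (`g1_exists_liesOver`), a Frobenius `σ` at `A` (`fex_exists_isFrobeniusAt`),
and helper11's `mzj_ec_bound` at `n = 1` with `K := N` (`(σ - 1) W[p] ⊆ N`, `|N| = p`).
Corollary `mzj_bg_dvd`: for `2 ℓ + 1 < p` the prime `ℓ` divides `Δ`.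
-/
import Mathlib
import Fermat.Agent.MZ.J.TB.Seams
import Fermat.Agent.MZ.J.EndCount
import Fermat.Agent.JT3.ES.FrobExists
import Fermat.Agent.S13.Global.UnramifiedOne

set_option autoImplicit false

namespace Fermat.Agent.MZ

open WeierstrassCurve WeierstrassCurve.Affine Fermat.Agent.S58

/-- **[B-GOOD]**. -/
theorem mzj_bg_main : mzj_tb_Good_stmt := by
  intro W _ p hp hp2 N hcN hco ℓ hℓ hℓp hgood
  obtain ⟨A, hA⟩ := Fermat.Agent.S13.g1_exists_liesOver ℓ hℓ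
  obtain ⟨σ, hσ⟩ := Fermat.Agent.JT3.fex_exists_isFrobeniusAt hℓ A hA
  have hfin : Finite N := Nat.finite_of_card_ne_zero (by rw [hcN]; exact hp.ne_zero)
  have h := mzj_ec_bound W hp hp2 hℓ hℓp hgood A hA σ hσ 1 N (by rw [hcN, pow_one])
    (fun x hx => hco σ x (by simpa using hx))
  simpa using h

/-- contrapositive: a small prime `ℓ` (`2 ℓ + 1 < p`) is a bad prime of a model carrying a cofixed
line of order `p`. -/
theorem mzj_bg_dvd (W : WeierstrassCurve ℤ) (hΔ : W.Δ ≠ 0) {p : ℕ} (hp : p.Prime) (hp2 : p ≠ 2)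
    (N : AddSubgroup (s58_E W)) (hcN : Nat.card N = p)
    (hco : ∀ (σ : s58_G) (x : s58_E W), p • x = 0 → σ • x - x ∈ N)
    {ℓ : ℕ} (hℓ : ℓ.Prime) (hℓp : 2 * ℓ + 1 < p) : (ℓ : ℤ) ∣ W.Δ := by
  by_contra hgood
  have := mzj_bg_main W hΔ hp hp2 N hcN hco hℓ (by omega) hgood
  omega

end Fermat.Agent.MZ
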