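/-
MAZUR project, node **[MZ-J]**, TRACK B (helper1's design), cell [B-PM1] (helper11).
Prefix `mzj_b1_`.

`W : WeierstrassCurve ℤ`, `N ≤ W(ℚ̄)` a subgroup of prime order `p` which is COFIXED
(`σ • x - x ∈ N` for all `σ ∈ G_ℚ`, `x ∈ W[p]`).

* `mzj_b1_core`: `mzb_pm_main` ([MZ-B] PmOne) with "`Q` is `G_ℚ`-fixed" replaced by "`Q` is fixed by
  ONE Frobenius element at `A ∣ ℓ`": a point of exact order `p` of `E⁰` at a multiplicative
  `ℓ ≠ p`, fixed by a Frobenius at `A`, forces `ℓ ≡ ±1 mod p`.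
* `mzj_b1_main` = **[PM1*]**: if `N ⊄ E⁰` at `A ∣ ℓ` (`ℓ ≠ p` multiplicative) then `ℓ ≡ ±1 mod p`.
  [`E⁰[p] ≠ 0`; for `Q' ∈ E⁰[p] ∖ 0` and a Frobenius `σ₀` at `A`, `σ₀ Q' - Q' ∈ N ∩ E⁰ = 0`.]
* corollaries: `mzj_b1_zeroComp_small` (`ℓ + 1 < 2 p` ⟹ `N ⊆ E⁰` at `A ∣ ℓ`; in particular at
  `ℓ = 2, 3` for `p ≥ 5`), `mzj_b1_not_dvd_pred` (`N ⊄ E⁰` at `ℓ` ⟹ `ℓ ∤ p - 1`),
  `mzj_b1_three_dvd` (`2 ℓ + 1 < p` ⟹ `ℓ ∣ Δ`: in particular `2 ∣ Δ`, `3 ∣ Δ` for `p ≥ 11`).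
-/
import Mathlib
import Fermat.Agent.MZ.B.PmOne
import Fermat.Agent.MZ.J.Unram
import Fermat.Agent.MZ.J.EndCount
import Fermat.Agent.S58.Frob.Residue
import Fermat.Agent.JT3.ES.FrobExists

set_option autoImplicit false
set_option linter.unusedSectionVars false
set_option linter.unusedVariables false
set_option linter.style.haveILetI false

namespace Fermat.Agent.MZ

open WeierstrassCurve WeierstrassCurve.Affine IsLocalRing
open Fermat.Agent.S58 Fermat.Agent.S05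

/-! ### Frobenius elements and the zero component -/

section Frob

variable {W : WeierstrassCurve ℤ} {A : ValuationSubring s58_Qb} [DecidableEq (ResidueField A)]
  {ℓ : ℕ}

/-- the reduced curve has its coefficients in the prime field: the `ℓ`-th power of a nonsingular
point is a nonsingular point. -/
theorem mzj_b1_nonsingular_pow (hℓ : ℓ.Prime) (hchar : CharP (ResidueField A) ℓ)
    {u v : ResidueField A} (h : (s58m_Wk W A).Nonsingular u v) :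
    (s58m_Wk W A).Nonsingular (u ^ ℓ) (v ^ ℓ) := by
  haveI : Fact ℓ.Prime := ⟨hℓ⟩
  haveI := hchar
  have hmap : WeierstrassCurve.map (s58m_Wk W A) (frobenius (ResidueField A) ℓ) =
      s58m_Wk W A := by
    rw [s58m_Wk_eq]
    show WeierstrassCurve.map (WeierstrassCurve.map W (Int.castRingHom (ResidueField A)))
      (frobenius (ResidueField A) ℓ) = _
    rw [WeierstrassCurve.map_map]
    congr 1
    exact RingHom.ext_int _ _
  have hinj : Function.Injective (frobenius (ResidueField A) ℓ) :=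
    (frobenius (ResidueField A) ℓ).injective
  have h2 : (WeierstrassCurve.map (s58m_Wk W A) (frobenius (ResidueField A) ℓ)).toAffine.Nonsingular
      (frobenius (ResidueField A) ℓ u) (frobenius (ResidueField A) ℓ v) :=
    (WeierstrassCurve.Affine.map_nonsingular (W := s58m_Wk W A) hinj u v).mpr h
  rw [hmap, frobenius_def, frobenius_def] at h2
  exact h2

/-- a Frobenius element at `A` preserves the zero component at `A`. -/
theorem mzj_b1_zeroComp_smul (hℓ : ℓ.Prime) (hA : A.LiesOverPrime ℓ) {σ : s58_G}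
    (hσ : A.IsFrobeniusAt σ ℓ) {P : s58_E W} (hP : W.InZeroComponentAt A P) :
    W.InZeroComponentAt A (σ • P) := by
  have hchar : CharP (ResidueField A) ℓ := mzb_pm_charP hA hℓ
  rw [s58m_inZeroComponentAt_iff] at hP ⊢
  obtain ⟨R, hR⟩ := hP
  cases hR with
  | zero =>
    have h0 : σ • (0 : s58_E W) = 0 := rfl
    rw [h0]
    exact (s58r_E0 _).zero_mem
  | inf h₁ hx =>
    rw [Fermat.Agent.S05.smul_some]
    exact ⟨0, s58r_RedTo.inf _ (s58fa_not_mem hσ hx)⟩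
  | aff a b h₁ h₁' =>
    rw [Fermat.Agent.S05.smul_some]
    have ea : residue A ⟨σ (a : s58_Qb), s58fa_mem hσ a.2⟩ = residue A a ^ ℓ :=
      s58fa_residue hσ a.2
    have eb : residue A ⟨σ (b : s58_Qb), s58fa_mem hσ b.2⟩ = residue A b ^ ℓ :=
      s58fa_residue hσ b.2
    have hn : (s58m_Wk W A).Nonsingular
        (residue A ⟨σ (a : s58_Qb), s58fa_mem hσ a.2⟩)
        (residue A ⟨σ (b : s58_Qb), s58fa_mem hσ b.2⟩) := by
      rw [ea, eb]; exact mzj_b1_nonsingular_pow hℓ hchar h₁'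
    exact ⟨_, s58r_RedTo.aff ⟨σ (a : s58_Qb), s58fa_mem hσ a.2⟩
      ⟨σ (b : s58_Qb), s58fa_mem hσ b.2⟩ _ hn⟩

end Frob

/-! ### the Frobenius form of `mzb_pm_main` -/

section Core

open WeierstrassCurve.Affine.Point

/-- the coordinates of an affine point fixed by `σ` are fixed by `σ`. -/
theorem mzj_b1_coords_fixed {W : WeierstrassCurve ℤ} {x y : s58_Qb}
    (h : ((s58_WQ W)⁄s58_Qb).Nonsingular x y) (σ : s58_G)
    (hfix : σ • (Point.some x y h : s58_E W) = Point.some x y h) : σ x = x ∧ σ y = y := by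
  rw [algEquiv_smul_def, Point.map_some] at hfix
  exact Point.some.inj hfix

/-- **`Q ∈ E⁰` at a multiplicative prime `ℓ ≠ p` forces `ℓ ≡ ±1 mod p`**, for `Q` of exact order
`p` fixed by ONE Frobenius element at `A ∣ ℓ`. -/
theorem mzj_b1_core {p : ℕ} (hp : p.Prime) (W : WeierstrassCurve ℤ) (Q : s58_E W)
    (hQord : addOrderOf Q = p)
    {ℓ : ℕ} (hℓ : ℓ.Prime) (hℓp : ℓ ≠ p) (hℓΔ : (ℓ : ℤ) ∣ W.Δ) (hℓc₄ : ¬ (ℓ : ℤ) ∣ W.c₄)
    (A : ValuationSubring s58_Qb) (hA : A.LiesOverPrime ℓ)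
    (h0 : W.InZeroComponentAt A Q) (σ : s58_G) (hσ : A.IsFrobeniusAt σ ℓ)
    (hQfix : σ • Q = Q) : p ∣ ℓ - 1 ∨ p ∣ ℓ + 1 := by
  classical
  have hfact : Fact ℓ.Prime := ⟨hℓ⟩
  have hchar : CharP (ResidueField A) ℓ := mzb_pm_charP hA hℓ
  have halg : IsAlgClosed (ResidueField A) := s58m_residue_isAlgClosed A
  have hM := s58m_model W A
  have hpQ : p • Q = 0 := by rw [← hQord]; exact addOrderOf_nsmul_eq_zero Q
  have hQ0 : Q ≠ 0 := by
    intro h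
    rw [h, addOrderOf_zero] at hQord
    exact hp.one_lt.ne hQord
  -- `p` is a unit of `A`
  have hunit : A.valuation ((p : ℕ) : s58_Qb) = 1 := by
    have := (intVal_eq_one_iff A hA hℓ ((p : ℕ) : ℤ)).mpr
      (fun h => hℓp ((Nat.prime_dvd_prime_iff_eq hℓ hp).mp (by exact_mod_cast h)))
    rwa [Int.cast_natCast] at this
  -- the reduction of `Q`
  have hmem : Q ∈ s58r_E0 hM := (s58m_inZeroComponentAt_iff Q).mp h0
  set P : s58r_E0 hM := ⟨Q, hmem⟩ with hPdef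
  have hpP : p • P = 0 := Subtype.ext (by rw [AddSubgroup.coe_nsmul]; exact hpQ)
  have hR : p • s58r_red hM P = 0 := by rw [← map_nsmul, hpP, _root_.map_zero]
  have hR0 : s58r_red hM P ≠ 0 := by
    intro h
    have := s58r_red_injective_on_torsion hM hunit (P := P) hpQ h
    exact hQ0 (congrArg Subtype.val this)
  have hspec := s58r_red_spec hM P
  generalize hRdef : s58r_red hM P = R at hspec hR hR0
  have hPQ : (P : s58_E W) = Q := rfl
  rw [hPQ] at hspec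
  cases hspec with
  | zero => exact absurd rfl hR0
  | inf h hx => exact absurd rfl hR0
  | aff a b h h' =>
    -- Frobenius-fixed coordinates, residues in the prime field
    obtain ⟨hσa, hσb⟩ := mzj_b1_coords_fixed h σ hQfix
    have hak : (residue A a) ^ ℓ = residue A a := by
      rw [← s58fa_residue hσ a.2]
      congr 1
      exact Subtype.ext hσa
    have hbk : (residue A b) ^ ℓ = residue A b := by
      rw [← s58fa_residue hσ b.2]
      congr 1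
      exact Subtype.ext hσb
    -- the node, over `ZMod ℓ`
    set Wℓ : Affine (ZMod ℓ) := W.map (Int.castRingHom (ZMod ℓ)) with hWℓ
    have hΔℓ : Wℓ.Δ = 0 := by
      rw [hWℓ, WeierstrassCurve.map_Δ, eq_intCast]
      exact (CharP.intCast_eq_zero_iff (ZMod ℓ) ℓ _).mpr hℓΔ
    have hc4ℓ : Wℓ.c₄ ≠ 0 := by
      rw [hWℓ, WeierstrassCurve.map_c₄, eq_intCast]
      exact fun h => hℓc₄ ((CharP.intCast_eq_zero_iff (ZMod ℓ) ℓ _).mp h)
    obtain ⟨x0, y0, hFx, hFy, hF, hB⟩ := s58m_singular_point Wℓ hΔℓ hc4ℓ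
    set ι : ZMod ℓ →+* ResidueField A := ZMod.castHom (dvd_refl ℓ) (ResidueField A) with hι
    have hWk : s58m_Wk W A = Wℓ.map ι := by
      rw [s58m_Wk_eq, hWℓ]
      show _ = WeierstrassCurve.map (WeierstrassCurve.map W (Int.castRingHom (ZMod ℓ))) ι
      rw [WeierstrassCurve.map_map]
      congr 1
      exact RingHom.ext_int _ _
    obtain ⟨hFx', hFy', hF', hB'⟩ := mzb_pm_map_singular ι Wℓ hFx hFy hF hB
    rw [← hWk] at hFx' hFy' hF' hB'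
    -- a tangent slope
    obtain ⟨α, hα⟩ := IsAlgClosed.exists_root
      (Polynomial.C (1 : ResidueField A) * Polynomial.X ^ 2 +
        Polynomial.C (s58m_Wk W A).a₁ * Polynomial.X +
        Polynomial.C (-((s58m_Wk W A).a₂ + 3 * ι x0)))
      (by rw [Polynomial.degree_quadratic one_ne_zero]; norm_num)
    have hα' : α ^ 2 + (s58m_Wk W A).a₁ * α - ((s58m_Wk W A).a₂ + 3 * ι x0) = 0 := by
      have := hα
      simp only [Polynomial.IsRoot.def, Polynomial.eval_add, Polynomial.eval_mul,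
        Polynomial.eval_C, Polynomial.eval_pow, Polynomial.eval_X] at this
      linear_combination this
    have H := mzb_pm_nodal_of_singular (s58m_Wk W A) hFx' hFy' hF' hB' hα'
    -- the parameter of the reduced point
    have hx_ne : residue A a ≠ ι x0 := mzb_pm_ne_node _ H h'
    obtain ⟨hD, t, ht1, htrel, hpx, hpy⟩ := mzb_pm_param H h'.1 hx_ne
    have hφ : s58m_phi H t = Point.some _ _ h' := by
      rw [s58m_phi_of_ne H ht1]
      exact s58m_some_congr _ _ hpx hpy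
    have htp : t ^ p = 1 := by
      rw [← s58m_phi_eq_zero_iff H, s58m_phi_pow, hφ]
      exact hR
    have ht1' : t ≠ 1 := fun h => ht1 (by rw [h]; rfl)
    -- Frobenius
    have hιpow : ∀ z : ZMod ℓ, (ι z) ^ ℓ = ι z := fun z => by rw [← map_pow, ZMod.pow_card]
    have ha1 : (s58m_Wk W A).a₁ = ι Wℓ.a₁ := by rw [hWk]; rfl
    have ha2 : (s58m_Wk W A).a₂ = ι Wℓ.a₂ := by rw [hWk]; rfl
    have hαβ : α + (-(s58m_Wk W A).a₁ - α) = ι (-Wℓ.a₁) := by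
      rw [map_neg, ← ha1]; ring
    have hαβ' : α * (-(s58m_Wk W A).a₁ - α) = ι (-(Wℓ.a₂ + 3 * x0)) := by
      rw [map_neg, map_add, map_mul, map_ofNat, ← ha2]
      linear_combination -hα'
    have hroots := mzb_pm_frob_roots ℓ (hιpow _) (hιpow _) hαβ hαβ'
    have hX : (residue A a - ι x0) ^ ℓ = residue A a - ι x0 := by
      rw [sub_pow_char, hak, hιpow]
    have hY : (residue A b - ι y0) ^ ℓ = residue A b - ι y0 := by
      rw [sub_pow_char, hbk, hιpow]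
    exact mzb_pm_order_dvd ℓ hp htp ht1' (mzb_pm_frob_param ℓ hX hY hroots hD htrel)

end Core

/-! ### [PM1*] -/

section Main

/-- in a subgroup of prime order every element is a multiple of any nonzero element. -/
theorem mzj_b1_prime_card_mul {G : Type*} [AddCommGroup G] {p : ℕ} (hp : p.Prime)
    (N : AddSubgroup G) (hN : Nat.card N = p) {D : G} (hD : D ∈ N) (hD0 : D ≠ 0) {Q : G}
    (hQ : Q ∈ N) : ∃ k : ℤ, Q = k • D := by
  haveI : Fact p.Prime := ⟨hp⟩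
  have hg : (⟨D, hD⟩ : N) ≠ 0 := fun h => hD0 (congrArg Subtype.val h)
  have hmem : (⟨Q, hQ⟩ : N) ∈ AddSubgroup.zmultiples (⟨D, hD⟩ : N) :=
    mem_zmultiples_of_prime_card hN hg
  obtain ⟨k, hk⟩ := AddSubgroup.mem_zmultiples_iff.mp hmem
  refine ⟨k, ?_⟩
  have := congrArg Subtype.val hk
  rw [AddSubgroup.coe_zsmul] at this
  exact this.symm

/-- **[PM1*]**: `N` a cofixed subgroup of prime order `p`, `ℓ ≠ p` a multiplicative prime, `A ∣ ℓ`.
If some point of `N` misses the zero component at `A`, then `ℓ ≡ ±1 mod p`. -/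
theorem mzj_b1_main {p : ℕ} (hp : p.Prime) (W : WeierstrassCurve ℤ) (hΔ0 : W.Δ ≠ 0)
    (N : AddSubgroup (s58_E W)) (hN : Nat.card N = p)
    (hco : ∀ (σ : s58_G) (x : s58_E W), p • x = 0 → σ • x - x ∈ N)
    {ℓ : ℕ} (hℓ : ℓ.Prime) (hℓp : ℓ ≠ p) (hℓΔ : (ℓ : ℤ) ∣ W.Δ) (hℓc₄ : ¬ (ℓ : ℤ) ∣ W.c₄)
    (A : ValuationSubring s58_Qb) (hA : A.LiesOverPrime ℓ)
    {Q : s58_E W} (hQN : Q ∈ N) (hQ0 : ¬ W.InZeroComponentAt A Q) :
    p ∣ ℓ - 1 ∨ p ∣ ℓ + 1 := by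
  classical
  haveI : Fact p.Prime := ⟨hp⟩
  obtain ⟨Q', hQ'0, hQ'p, hQ'ne⟩ := mzj_un_exists_E0_torsion W hΔ0 hp hℓ hℓp hℓΔ hℓc₄ A hA
  obtain ⟨σ, hσ⟩ := Fermat.Agent.JT3.fex_exists_isFrobeniusAt hℓ A hA
  have hD : σ • Q' - Q' ∈ N := hco σ Q' hQ'p
  have hD0 : W.InZeroComponentAt A (σ • Q' - Q') :=
    s58m_inZeroComponentAt_sub (mzj_b1_zeroComp_smul hℓ hA hσ hQ'0) hQ'0
  have hfix : σ • Q' = Q' := by
    by_contra hne
    have hDne : σ • Q' - Q' ≠ 0 := fun h => hne (sub_eq_zero.mp h)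
    obtain ⟨k, hk⟩ := mzj_b1_prime_card_mul hp N hN hD hDne hQN
    exact hQ0 (hk ▸ s58m_inZeroComponentAt_zsmul hD0 k)
  have hord : addOrderOf Q' = p := addOrderOf_eq_prime hQ'p hQ'ne
  exact mzj_b1_core hp W Q' hord hℓ hℓp hℓΔ hℓc₄ A hA hQ'0 σ hσ hfix

/-- `N ⊆ E⁰` at every multiplicative `ℓ ≠ p` with `ℓ + 1 < 2 p`; in particular at `ℓ = 2, 3` when
`p ≥ 5`. -/
theorem mzj_b1_zeroComp_small {p : ℕ} (hp : p.Prime) (hp5 : 5 ≤ p) (W : WeierstrassCurve ℤ)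
    (hΔ0 : W.Δ ≠ 0) (N : AddSubgroup (s58_E W)) (hN : Nat.card N = p)
    (hco : ∀ (σ : s58_G) (x : s58_E W), p • x = 0 → σ • x - x ∈ N)
    {ℓ : ℕ} (hℓ : ℓ.Prime) (hℓp : ℓ ≠ p) (hℓΔ : (ℓ : ℤ) ∣ W.Δ) (hℓc₄ : ¬ (ℓ : ℤ) ∣ W.c₄)
    (hlt : ℓ + 1 < 2 * p)
    (A : ValuationSubring s58_Qb) (hA : A.LiesOverPrime ℓ) :
    ∀ Q ∈ N, W.InZeroComponentAt A Q := by
  intro Q hQN
  by_contra hQ0
  have h := mzb_pm_arith hp hℓ hp5
    (mzj_b1_main hp W hΔ0 N hN hco hℓ hℓp hℓΔ hℓc₄ A hA hQN hQ0)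
  omega

/-- `N ⊆ E⁰` at `A ∣ 2` (multiplicative), `p ≥ 5`. -/
theorem mzj_b1_zeroComp_two {p : ℕ} (hp : p.Prime) (hp5 : 5 ≤ p) (W : WeierstrassCurve ℤ)
    (hΔ0 : W.Δ ≠ 0) (N : AddSubgroup (s58_E W)) (hN : Nat.card N = p)
    (hco : ∀ (σ : s58_G) (x : s58_E W), p • x = 0 → σ • x - x ∈ N)
    (h2Δ : (2 : ℤ) ∣ W.Δ) (h2c₄ : ¬ (2 : ℤ) ∣ W.c₄)
    (A : ValuationSubring s58_Qb) (hA : A.LiesOverPrime 2) :
    ∀ Q ∈ N, W.InZeroComponentAt A Q :=
  mzj_b1_zeroComp_small hp hp5 W hΔ0 N hN hco Nat.prime_two (by omega)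
    (by exact_mod_cast h2Δ) (by exact_mod_cast h2c₄) (by omega) A hA

/-- `N ⊆ E⁰` at `A ∣ 3` (multiplicative), `p ≥ 5`. -/
theorem mzj_b1_zeroComp_three {p : ℕ} (hp : p.Prime) (hp5 : 5 ≤ p) (W : WeierstrassCurve ℤ)
    (hΔ0 : W.Δ ≠ 0) (N : AddSubgroup (s58_E W)) (hN : Nat.card N = p)
    (hco : ∀ (σ : s58_G) (x : s58_E W), p • x = 0 → σ • x - x ∈ N)
    (h3Δ : (3 : ℤ) ∣ W.Δ) (h3c₄ : ¬ (3 : ℤ) ∣ W.c₄)
    (A : ValuationSubring s58_Qb) (hA : A.LiesOverPrime 3) :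
    ∀ Q ∈ N, W.InZeroComponentAt A Q :=
  mzj_b1_zeroComp_small hp hp5 W hΔ0 N hN hco Nat.prime_three (by omega)
    (by exact_mod_cast h3Δ) (by exact_mod_cast h3c₄) (by omega) A hA

/-- if `N ⊄ E⁰` at the multiplicative prime `ℓ ≠ p` (`p ≥ 5`) then `ℓ ∤ p - 1`. -/
theorem mzj_b1_not_dvd_pred {p : ℕ} (hp : p.Prime) (hp5 : 5 ≤ p) (W : WeierstrassCurve ℤ)
    (hΔ0 : W.Δ ≠ 0) (N : AddSubgroup (s58_E W)) (hN : Nat.card N = p)
    (hco : ∀ (σ : s58_G) (x : s58_E W), p • x = 0 → σ • x - x ∈ N)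
    {ℓ : ℕ} (hℓ : ℓ.Prime) (hℓp : ℓ ≠ p) (hℓΔ : (ℓ : ℤ) ∣ W.Δ) (hℓc₄ : ¬ (ℓ : ℤ) ∣ W.c₄)
    (A : ValuationSubring s58_Qb) (hA : A.LiesOverPrime ℓ)
    {Q : s58_E W} (hQN : Q ∈ N) (hQ0 : ¬ W.InZeroComponentAt A Q) : ¬ ℓ ∣ p - 1 := by
  have h := mzb_pm_arith hp hℓ hp5
    (mzj_b1_main hp W hΔ0 N hN hco hℓ hℓp hℓΔ hℓc₄ A hA hQN hQ0)
  intro hd
  have := Nat.le_of_dvd (by omega) hd
  omega

/-- a cofixed subgroup of odd prime order `p` forces bad reduction at every prime `ℓ` with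
`2 ℓ + 1 < p` (Frobenius count at `ℓ`, `mzj_ec_bound` with `n = 1`). -/
theorem mzj_b1_three_dvd {p : ℕ} (hp : p.Prime) (hp2 : p ≠ 2) (W : WeierstrassCurve ℤ)
    (N : AddSubgroup (s58_E W)) (hN : Nat.card N = p)
    (hco : ∀ (σ : s58_G) (x : s58_E W), p • x = 0 → σ • x - x ∈ N)
    {ℓ : ℕ} (hℓ : ℓ.Prime) (hlt : 2 * ℓ + 1 < p) : (ℓ : ℤ) ∣ W.Δ := by
  by_contra hgood
  obtain ⟨A, σ, hA, hσ⟩ := s58top_exists_frob hℓ
  haveI : Finite N := Nat.finite_of_card_ne_zero (by rw [hN]; exact hp.pos.ne')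
  have h := mzj_ec_bound W hp hp2 hℓ (by omega) hgood A hA σ hσ 1 N
    (by rw [hN, pow_one]) (fun x hx => hco σ x (by rwa [pow_one] at hx))
  rw [pow_one] at h
  omega

/-- `2 ∣ Δ` and `3 ∣ Δ` for `p ≥ 11`. -/
theorem mzj_b1_two_three_dvd {p : ℕ} (hp : p.Prime) (hp11 : 11 ≤ p) (W : WeierstrassCurve ℤ)
    (N : AddSubgroup (s58_E W)) (hN : Nat.card N = p)
    (hco : ∀ (σ : s58_G) (x : s58_E W), p • x = 0 → σ • x - x ∈ N) :
    (2 : ℤ) ∣ W.Δ ∧ (3 : ℤ) ∣ W.Δ := by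
  have h2 := mzj_b1_three_dvd hp (by omega) W N hN hco Nat.prime_two (by omega)
  have h3 := mzj_b1_three_dvd hp (by omega) W N hN hco Nat.prime_three (by omega)
  exact ⟨by exact_mod_cast h2, by exact_mod_cast h3⟩

end Main

end Fermat.Agent.MZ
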