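/-
MAZUR project, node **[MZ-J]**, TRACK B, cell [B-PM1] (helper11): the seam `mzj_tb_PM1_stmt` of
`MZ/J/TB/Seams.lean` is `mzj_b1_main` of `MZ/J/TB/PmOne.lean`.  Prefix `mzj_b1_`.
-/
import Mathlib
import Fermat.Agent.MZ.J.TB.PmOne
import Fermat.Agent.MZ.J.TB.Seams

set_option autoImplicit false

namespace Fermat.Agent.MZ

open Fermat.Agent.S58

/-- **[B-PM1]**, the seam of `MZ/J/TB/Seams.lean`. -/
theorem mzj_b1_pm1 : mzj_tb_PM1_stmt :=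
  fun W hΔ _ hp _ N hN hco _ hℓ hℓp hℓΔ hℓc₄ A hA _ hQN hQ0 =>
    mzj_b1_main hp W hΔ N hN hco hℓ hℓp hℓΔ hℓc₄ A hA hQN hQ0

end Fermat.Agent.MZ
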