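/-
MAZUR project, node **[MZ-J]**, TRACK B (owner helper1).  Prefix `mzj_bt_`.

**S12 from the seams of Track B** (`MZ/J/TB/Seams.lean`), with no quotient curve.

`W = P.freyCurveInt`, `N` the cofixed line of `W[p]`, `Q` a generator.
* `N ⊂ E⁰` at the places over `2` and `3` by [B-PM1] (`p ∤ 1, 3, 2, 4`), and `3 ∣ Δ` by [B-GOOD];
* `N ⊂ E⁰` at every multiplicative `ℓ ≠ p` by the mirrored S15 (+ [B-PM1] for `ℓ ∤ p - 1`);
* `N` lies in the kernel of reduction at the places over `p` by [B-ATP];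
* the three numbers `R_i = ∏_{k=1}^{p-1} (E_i - x(kQ))` are rational and nonzero, have the local
  valuations of [B-UNIT] and satisfy the `2`-torsion identity [B-ID]; [B-END] concludes.
-/
import Mathlib
import Fermat.Agent.MZ.J.TB.Seams
import Fermat.Agent.MZ.J.Base
import Fermat.Agent.MZ.J.Mirror
import Fermat.Agent.MZ.J.TB.AtP

set_option autoImplicit false

namespace Fermat.Agent.MZ

open WeierstrassCurve WeierstrassCurve.Affine WeierstrassCurve.Affine.Point Fermat.Agent.S58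

/-! ### a subgroup of prime order -/

/-- a subgroup of prime order `p` is generated by an element `Q` of order `p`, and its elements are
the `k • Q`, `k : ℕ`. -/
theorem mzj_bt_gen {G : Type*} [AddGroup G] (N : AddSubgroup G) {p : ℕ} (hp : p.Prime)
    (hc : Nat.card N = p) :
    ∃ Q ∈ N, addOrderOf Q = p ∧ ∀ x ∈ N, ∃ k : ℕ, x = k • Q := by
  have : Fact p.Prime := ⟨hp⟩
  have : Finite N := Nat.finite_of_card_ne_zero (by rw [hc]; exact hp.ne_zero)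
  have : Nontrivial N := Finite.one_lt_card_iff_nontrivial.mp (by rw [hc]; exact hp.one_lt)
  obtain ⟨q, hq⟩ := exists_ne (0 : N)
  have hpq : p • q = 0 := by
    have := card_nsmul_eq_zero' (G := N) (x := q)
    rwa [hc] at this
  have hord : addOrderOf q = p := addOrderOf_eq_prime hpq hq
  have hord' : addOrderOf (q : G) = p := by rw [AddSubgroup.addOrderOf_coe]; exact hord
  refine ⟨q, q.2, hord', fun x hx => ?_⟩
  have hmem : (⟨x, hx⟩ : N) ∈ AddSubgroup.zmultiples q := mem_zmultiples_of_prime_card hc hq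
  obtain ⟨z, hz⟩ := AddSubgroup.mem_zmultiples_iff.mp hmem
  have hz' : z • (q : G) = x := by
    have := congrArg (Subtype.val) hz
    simpa using this
  refine ⟨(z % (p : ℤ)).toNat, ?_⟩
  have hnn : 0 ≤ z % (p : ℤ) := Int.emod_nonneg _ (by exact_mod_cast hp.ne_zero)
  rw [← hz', ← natCast_zsmul, Int.toNat_of_nonneg hnn, ← hord', mod_addOrderOf_zsmul]

/-! ### the multiples of `Q` avoid the `2`-torsion -/

section Frey

variable (P : FreyPackage)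

local notation "WQb" => ((s58_WQ P.freyCurveInt)⁄s58_Qb)

/-- a point of the Frey model whose `x`-coordinate is one of the three rational `2`-torsion
abscissas is a `2`-torsion point. -/
theorem mzj_bt_two_torsion_of_x (r : ℚ)
    (hr : r = 0 ∨ r = (P.a : ℚ) ^ P.p / 4 ∨ r = -(P.b : ℚ) ^ P.p / 4)
    (R : s58_E P.freyCurveInt) (hx : mzj_ds_x WQb R = algebraMap ℚ s58_Qb r) : 2 • R = 0 := by
  obtain ⟨hT, h2T⟩ := mzj_bs_two_torsion_point P r hr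
  rcases R with _ | ⟨x, y, h⟩
  · exact nsmul_zero (M := s58_E P.freyCurveInt) 2
  · rw [mzj_ds_x_some] at hx
    subst hx
    rcases WeierstrassCurve.Affine.Y_eq_of_X_eq h.1 hT.1 rfl with hy | hy
    · subst hy
      exact h2T
    · subst hy
      have hneg : (Point.some _ _ h : s58_E P.freyCurveInt) = -Point.some _ _ hT :=
        (Point.neg_some hT).symm
      rw [hneg, neg_nsmul, h2T, _root_.neg_zero]

/-- for `Q` of odd prime order `p`, `x(k • Q)`, `1 ≤ k < p`, is none of the three `2`-torsion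
abscissas. -/
theorem mzj_bt_x_ne (r : ℚ)
    (hr : r = 0 ∨ r = (P.a : ℚ) ^ P.p / 4 ∨ r = -(P.b : ℚ) ^ P.p / 4)
    {p : ℕ} (hp : p.Prime) (hp2 : p ≠ 2) (Q : s58_E P.freyCurveInt) (hQ : addOrderOf Q = p)
    {k : ℕ} (hk : k ∈ Finset.Ico 1 p) :
    mzj_ds_x WQb (k • Q) ≠ algebraMap ℚ s58_Qb r := by
  intro hx
  have h2 := mzj_bt_two_torsion_of_x P r hr (k • Q) hx
  rw [← mul_smul] at h2
  have hd : p ∣ 2 * k := by
    rw [← hQ]; exact addOrderOf_dvd_iff_nsmul_eq_zero.mpr h2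
  rw [Finset.mem_Ico] at hk
  rcases (Nat.Prime.dvd_mul hp).mp hd with h | h
  · exact hp2 ((Nat.prime_dvd_prime_iff_eq hp Nat.prime_two).mp h)
  · exact absurd (Nat.le_of_dvd (by omega) h) (by omega)

/-- `R(e) ≠ 0` at the three `2`-torsion abscissas. -/
theorem mzj_bt_R_ne_zero (r : ℚ)
    (hr : r = 0 ∨ r = (P.a : ℚ) ^ P.p / 4 ∨ r = -(P.b : ℚ) ^ P.p / 4)
    {p : ℕ} (hp : p.Prime) (hp2 : p ≠ 2) (Q : s58_E P.freyCurveInt) (hQ : addOrderOf Q = p) :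
    mzj_tb_R WQb p Q (algebraMap ℚ s58_Qb r) ≠ 0 := by
  unfold mzj_tb_R
  rw [Finset.prod_ne_zero_iff]
  intro k hk
  exact sub_ne_zero.mpr (mzj_bt_x_ne P r hr hp hp2 Q hQ hk).symm

/-! ### rationality of `R(e)` -/

/-- `σ • Q = m • Q` with `Q` of prime order `p` forces `p ∤ m`. -/
theorem mzj_bt_not_dvd (W : WeierstrassCurve ℤ) {p : ℕ} (hp : p.Prime) (Q : s58_E W)
    (hQ : addOrderOf Q = p) (σ : s58_G) {m : ℕ} (hm : σ • Q = m • Q) : ¬ p ∣ m := by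
  have hQ0 : Q ≠ 0 := by
    intro h0
    rw [h0, addOrderOf_zero] at hQ
    exact hp.one_lt.ne hQ
  intro hd
  have h1 : m • Q = 0 := by
    rw [← hQ] at hd
    exact addOrderOf_dvd_iff_nsmul_eq_zero.mp hd
  rw [h1] at hm
  have h2 : σ⁻¹ • σ • Q = σ⁻¹ • (0 : s58_E W) := by rw [hm]
  rw [inv_smul_smul, Fermat.Agent.S05.ga_smul_zero] at h2
  exact hQ0 h2

/-- `R(e)` is `G_ℚ`-invariant when `e` is and `⟨Q⟩` is `G_ℚ`-stable. -/
theorem mzj_bt_R_fixed (W : WeierstrassCurve ℤ) {p : ℕ} (hp : p.Prime) (Q : s58_E W)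
    (hQ : addOrderOf Q = p) (hQstab : ∀ σ : s58_G, ∃ k : ℕ, σ • Q = k • Q)
    (e : s58_Qb) (σ : s58_G) (he : σ e = e) :
    σ (mzj_tb_R ((s58_WQ W)⁄s58_Qb) p Q e) = mzj_tb_R ((s58_WQ W)⁄s58_Qb) p Q e := by
  obtain ⟨m, hm⟩ := hQstab σ
  have hpm := mzj_bt_not_dvd W hp Q hQ σ hm
  unfold mzj_tb_R
  rw [map_prod]
  have h3 : ∀ k ∈ Finset.Ico 1 p, σ (e - mzj_ds_x ((s58_WQ W)⁄s58_Qb) (k • Q)) =
      e - mzj_ds_x ((s58_WQ W)⁄s58_Qb) ((k * m) • Q) := by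
    intro k _
    rw [map_sub, he]
    congr 1
    have h4 := mzj_ds_x_map (s58_WQ W) (F := s58_Qb) (K := s58_Qb) σ.toAlgHom (k • Q)
    have h5 : Point.map (W' := s58_WQ W) σ.toAlgHom (k • Q) = (k * m) • Q := by
      rw [← Point.algEquiv_smul_def, Fermat.Agent.S05.ga_smul_nsmul, hm, mul_smul]
    rw [h5] at h4
    exact h4.symm
  rw [Finset.prod_congr rfl h3]
  exact mzj_mr_prod_reindex hp hpm Q hQ (fun R => e - mzj_ds_x ((s58_WQ W)⁄s58_Qb) R)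

/-! ### the coefficients of the Frey model over `ℚ̄` and the three roots -/

theorem mzj_bt_b₂ : (WQb).b₂ = (P.b : s58_Qb) ^ P.p - (P.a : s58_Qb) ^ P.p := by
  simp only [WeierstrassCurve.baseChange, WeierstrassCurve.map_b₂, eq_intCast, map_intCast]
  rw [mzj_bs_b₂ P]
  push_cast
  ring

theorem mzj_bt_b₄ : 8 * (WQb).b₄ = -((P.a : s58_Qb) ^ P.p) * (P.b : s58_Qb) ^ P.p := by
  simp only [WeierstrassCurve.baseChange, WeierstrassCurve.map_b₄, eq_intCast, map_intCast]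
  have h := congrArg (Int.cast : ℤ → s58_Qb) (mzj_bs_b₄ P)
  push_cast at h
  exact h

theorem mzj_bt_b₆ : (WQb).b₆ = 0 := by
  simp only [WeierstrassCurve.baseChange, WeierstrassCurve.map_b₆, eq_intCast, map_intCast]
  rw [mzj_bs_b₆ P]
  simp

theorem mzj_bt_E2_eq : algebraMap ℚ s58_Qb ((P.a : ℚ) ^ P.p / 4) = mzj_tb_E2 P := by
  unfold mzj_tb_E2
  rw [map_div₀, map_pow, map_intCast, map_ofNat]

theorem mzj_bt_E3_eq : algebraMap ℚ s58_Qb (-(P.b : ℚ) ^ P.p / 4) = mzj_tb_E3 P := by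
  unfold mzj_tb_E3
  rw [map_div₀, map_neg, map_pow, map_intCast, map_ofNat]

theorem mzj_bt_root1 :
    4 * (0 : s58_Qb) ^ 3 + (WQb).b₂ * 0 ^ 2 + 2 * (WQb).b₄ * 0 + (WQb).b₆ = 0 := by
  rw [mzj_bt_b₆]; ring

theorem mzj_bt_root2 :
    4 * (mzj_tb_E2 P) ^ 3 + (WQb).b₂ * (mzj_tb_E2 P) ^ 2 + 2 * (WQb).b₄ * (mzj_tb_E2 P) + (WQb).b₆
      = 0 := by
  rw [mzj_bt_b₆, mzj_bt_b₂]
  unfold mzj_tb_E2
  linear_combination ((P.a : s58_Qb) ^ P.p / 16) * mzj_bt_b₄ P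

theorem mzj_bt_root3 :
    4 * (mzj_tb_E3 P) ^ 3 + (WQb).b₂ * (mzj_tb_E3 P) ^ 2 + 2 * (WQb).b₄ * (mzj_tb_E3 P) + (WQb).b₆
      = 0 := by
  rw [mzj_bt_b₆, mzj_bt_b₂]
  unfold mzj_tb_E3
  linear_combination (-(P.b : s58_Qb) ^ P.p / 16) * mzj_bt_b₄ P

end Frey

/-! ### the seam [B-ATP] from helper23's `mzj_bp_main` -/

/-- **[B-ATP]** (helper23, `MZ/J/TB/AtP.lean`), in the shape of the seam. -/
theorem mzj_bt_AtP : mzj_tb_AtP_stmt := by
  intro P N hc hst _ A hA x hx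
  have hNp : ∀ z ∈ N, P.p • z = 0 := by
    intro z hz
    have h1 : Nat.card N • (⟨z, hz⟩ : N) = 0 := card_nsmul_eq_zero'
    rw [hc] at h1
    exact congrArg Subtype.val h1
  exact (mzj_bp_main P (s58_WQ P.freyCurveInt) (mzj_bs_map P) N hNp hc hst A hA x
    (hNp x hx)).mp hx

/-! ### S12 from the seams of Track B -/

/-- **S12 from the seams of Track B.** -/
theorem mzj_bt_S12' (hMir : mzj_tb_Mirror_stmt) (hPM1 : mzj_tb_PM1_stmt)
    (hGood : mzj_tb_Good_stmt) (hAtP : mzj_tb_AtP_stmt) (hUnit : mzj_tb_Unit_stmt)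
    (hId : mzj_tb_Ident_stmt) (hEnd : mzj_tb_End_stmt) (P : FreyPackage) (hp17 : 17 ≤ P.p) :
    ¬ HasGaloisStableCofixedLine (K := AlgebraicClosure ℚ) ℚ P.freyCurve P.p := by
  intro h
  obtain ⟨N, hc, hst, hpN, hco⟩ := mzj_bs_line P h
  have hpp := P.pp
  have hp2 : P.p ≠ 2 := by omega
  have hΔ := mzj_bs_Δ_ne_zero P
  obtain ⟨Q, hQN, hQord, hgen⟩ := mzj_bt_gen N hpp hc
  have hQstab : ∀ σ : s58_G, ∃ k : ℕ, σ • Q = k • Q := fun σ => hgen _ (hst σ Q hQN)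
  -- semistability
  have hc4 : ∀ {ℓ : ℕ}, ℓ.Prime → (ℓ : ℤ) ∣ P.freyCurveInt.Δ →
      ¬ (ℓ : ℤ) ∣ P.freyCurveInt.c₄ := by
    intro ℓ hℓ hd
    rcases mzj_bs_SS P hℓ with h1 | h1
    · exact absurd hd h1
    · exact h1
  -- [B-PM1] for the generator
  have hpm : ∀ {ℓ : ℕ}, ℓ.Prime → ℓ ≠ P.p → (ℓ : ℤ) ∣ P.freyCurveInt.Δ →
      ∀ A : ValuationSubring s58_Qb, A.LiesOverPrime ℓ →
        ¬ P.freyCurveInt.InZeroComponentAt A Q → P.p ∣ ℓ - 1 ∨ P.p ∣ ℓ + 1 :=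
    fun hℓ hℓp hd A hA hn =>
      hPM1 _ hΔ hpp P.hp5 N hc hco hℓ hℓp hd (hc4 hℓ hd) A hA Q hQN hn
  -- the places over `2`
  have h2Δ : ((2 : ℕ) : ℤ) ∣ P.freyCurveInt.Δ := by exact_mod_cast mzj_bs_two_dvd_Δ P
  have h2 : ∀ A : ValuationSubring s58_Qb, A.LiesOverPrime 2 →
      P.freyCurveInt.InZeroComponentAt A Q := by
    intro A hA
    by_contra hn
    rcases hpm Nat.prime_two (by omega) h2Δ A hA hn with hd | hd
    · have := Nat.le_of_dvd (by norm_num) hd; omega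
    · have := Nat.le_of_dvd (by norm_num) hd; omega
  -- `3 ∣ Δ` and the places over `3`
  have h3Δ : ((3 : ℕ) : ℤ) ∣ P.freyCurveInt.Δ := by
    by_contra hn
    have := hGood _ hΔ hpp hp2 N hc hco Nat.prime_three (by omega) hn
    omega
  have h3 : ∀ A : ValuationSubring s58_Qb, A.LiesOverPrime 3 →
      P.freyCurveInt.InZeroComponentAt A Q := by
    intro A hA
    by_contra hn
    rcases hpm Nat.prime_three (by omega) h3Δ A hA hn with hd | hd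
    · have := Nat.le_of_dvd (by norm_num) hd; omega
    · have := Nat.le_of_dvd (by norm_num) hd; omega
  -- every multiplicative `ℓ ≠ p`: the mirrored S15
  have hall : ∀ {ℓ : ℕ}, ℓ.Prime → ℓ ≠ P.p → (ℓ : ℤ) ∣ P.freyCurveInt.Δ →
      ∀ A : ValuationSubring s58_Qb, A.LiesOverPrime ℓ →
        P.freyCurveInt.InZeroComponentAt A Q := by
    intro ℓ hℓ hℓp hd A hA
    by_contra hn
    have h1 := hpm hℓ hℓp hd A hA hn
    have hℓp1 : ¬ ℓ ∣ P.p - 1 := mzt_not_dvd_pred hpp (by omega) hℓ h1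
    have hnot : P.p ∉ ({2, 3, 5, 7, 13} : Finset ℕ) := by
      simp only [Finset.mem_insert, Finset.mem_singleton]
      omega
    exact hn (hMir hpp hnot _ hΔ Q hQstab hQord (mzj_bs_two_dvd_Δ P) (mzj_bs_two_not_dvd_c₄ P) h2
      (by exact_mod_cast h3Δ) (by exact_mod_cast hc4 Nat.prime_three h3Δ) h3 hℓ hℓp hd
      (hc4 hℓ hd) hℓp1 A hA)
  -- the places over `p`
  have hatp : ∀ A : ValuationSubring s58_Qb, A.LiesOverPrime P.p →
      Fermat.Agent.S05.InKerRed A Q := fun A hA => hAtP P N hc hst hco A hA Q hQN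
  -- the three numbers
  have hr1 : (0 : ℚ) = 0 ∨ (0 : ℚ) = (P.a : ℚ) ^ P.p / 4 ∨ (0 : ℚ) = -(P.b : ℚ) ^ P.p / 4 :=
    Or.inl rfl
  have hr2 : (P.a : ℚ) ^ P.p / 4 = 0 ∨ (P.a : ℚ) ^ P.p / 4 = (P.a : ℚ) ^ P.p / 4 ∨
      (P.a : ℚ) ^ P.p / 4 = -(P.b : ℚ) ^ P.p / 4 := Or.inr (Or.inl rfl)
  have hr3 : -(P.b : ℚ) ^ P.p / 4 = 0 ∨ -(P.b : ℚ) ^ P.p / 4 = (P.a : ℚ) ^ P.p / 4 ∨
      -(P.b : ℚ) ^ P.p / 4 = -(P.b : ℚ) ^ P.p / 4 := Or.inr (Or.inr rfl)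
  have hR1 := mzj_bt_R_ne_zero P _ hr1 hpp hp2 Q hQord
  have hR2 := mzj_bt_R_ne_zero P _ hr2 hpp hp2 Q hQord
  have hR3 := mzj_bt_R_ne_zero P _ hr3 hpp hp2 Q hQord
  rw [_root_.map_zero] at hR1
  rw [mzj_bt_E2_eq] at hR2
  rw [mzj_bt_E3_eq] at hR3
  have hf1 : ∀ σ : s58_G, σ (mzj_tb_R _ P.p Q 0) = mzj_tb_R _ P.p Q 0 := fun σ =>
    mzj_bt_R_fixed P.freyCurveInt hpp Q hQord hQstab 0 σ (_root_.map_zero σ)
  have hf2 : ∀ σ : s58_G, σ (mzj_tb_R _ P.p Q (mzj_tb_E2 P)) = mzj_tb_R _ P.p Q (mzj_tb_E2 P) :=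
    fun σ => mzj_bt_R_fixed P.freyCurveInt hpp Q hQord hQstab _ σ (by
      rw [← mzj_bt_E2_eq]; exact σ.commutes _)
  have hf3 : ∀ σ : s58_G, σ (mzj_tb_R _ P.p Q (mzj_tb_E3 P)) = mzj_tb_R _ P.p Q (mzj_tb_E3 P) :=
    fun σ => mzj_bt_R_fixed P.freyCurveInt hpp Q hQord hQstab _ σ (by
      rw [← mzj_bt_E3_eq]; exact σ.commutes _)
  -- the `2`-torsion identity
  have ha0 : (P.a : s58_Qb) ^ P.p ≠ 0 := pow_ne_zero _ (by exact_mod_cast P.ha0)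
  have hb0 : (P.b : s58_Qb) ^ P.p ≠ 0 := pow_ne_zero _ (by exact_mod_cast P.hb0)
  have hcc : (P.a : s58_Qb) ^ P.p + (P.b : s58_Qb) ^ P.p ≠ 0 := by
    have h1 : (P.a : s58_Qb) ^ P.p + (P.b : s58_Qb) ^ P.p = (P.c : s58_Qb) ^ P.p := by
      exact_mod_cast congrArg (Int.cast : ℤ → s58_Qb) P.hFLT
    rw [h1]
    exact pow_ne_zero _ (by exact_mod_cast P.hc0)
  have h12 : (0 : s58_Qb) ≠ mzj_tb_E2 P := by
    unfold mzj_tb_E2
    exact (div_ne_zero ha0 (by norm_num)).symm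
  have h13 : (0 : s58_Qb) ≠ mzj_tb_E3 P := by
    unfold mzj_tb_E3
    exact (div_ne_zero (neg_ne_zero.mpr hb0) (by norm_num)).symm
  have h23 : mzj_tb_E2 P ≠ mzj_tb_E3 P := by
    unfold mzj_tb_E2 mzj_tb_E3
    intro he
    apply hcc
    field_simp at he
    linear_combination he
  have hident := hId ((s58_WQ P.freyCurveInt)⁄s58_Qb) (mzj_bs_Δ_Qb _ hΔ) hpp hp2 Q hQord
    0 (mzj_tb_E2 P) (mzj_tb_E3 P) (mzj_bt_root1 P) (mzj_bt_root2 P) (mzj_bt_root3 P) h12 h13 h23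
  have hodd : Odd P.p := P.hp_odd
  refine hEnd P.p hodd (by omega) (P.a ^ P.p) (P.b ^ P.p)
    (Int.not_even_iff_odd.mp fun he => mzj_bs_A_odd P (even_iff_two_dvd.mp he))
    (mzj_bs_32_dvd_B P) _ _ _ hR1 hR2 hR3 hf1 hf2 hf3
    (fun ℓ hℓ A hA => hUnit P Q hQord hℓ A hA (fun hℓp hd => hall hℓ hℓp hd A hA)
      (fun hℓp => hatp A (hℓp ▸ hA))) ?_
  -- multiply the identity by `4 ^ p`
  push_cast
  generalize mzj_tb_R ((s58_WQ P.freyCurveInt)⁄s58_Qb) P.p Q 0 = X1 at hident ⊢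
  generalize mzj_tb_R ((s58_WQ P.freyCurveInt)⁄s58_Qb) P.p Q (mzj_tb_E2 P) = X2 at hident ⊢
  generalize mzj_tb_R ((s58_WQ P.freyCurveInt)⁄s58_Qb) P.p Q (mzj_tb_E3 P) = X3 at hident ⊢
  unfold mzj_tb_E2 mzj_tb_E3 at hident
  generalize (P.a : s58_Qb) ^ P.p = A at hident ⊢
  generalize (P.b : s58_Qb) ^ P.p = B at hident ⊢
  have e1 : (A / 4 - 0) ^ P.p = A ^ P.p / 4 ^ P.p := by rw [sub_zero, div_pow]
  have e2 : (-B / 4 - A / 4) ^ P.p = -((A + B) ^ P.p / 4 ^ P.p) := by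
    have : -B / 4 - A / 4 = -((A + B) / 4) := by ring
    rw [this, hodd.neg_pow, div_pow]
  have e3 : (0 - -B / 4) ^ P.p = B ^ P.p / 4 ^ P.p := by
    have : 0 - -B / 4 = B / 4 := by ring
    rw [this, div_pow]
  rw [e1, e2, e3] at hident
  have h4 : (4 : s58_Qb) ^ P.p ≠ 0 := pow_ne_zero _ (by norm_num)
  field_simp at hident
  linear_combination hident

/-- **S12 from the OPEN seams of Track B** ([B-ATP] supplied). -/
theorem mzj_bt_S12 (hMir : mzj_tb_Mirror_stmt) (hPM1 : mzj_tb_PM1_stmt)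
    (hGood : mzj_tb_Good_stmt) (hUnit : mzj_tb_Unit_stmt)
    (hId : mzj_tb_Ident_stmt) (hEnd : mzj_tb_End_stmt) (P : FreyPackage) (hp17 : 17 ≤ P.p) :
    ¬ HasGaloisStableCofixedLine (K := AlgebraicClosure ℚ) ℚ P.freyCurve P.p :=
  mzj_bt_S12' hMir hPM1 hGood mzj_bt_AtP hUnit hId hEnd P hp17

/-- **the mirrored S15 in closed form**: `mzj_tb_Mirror_stmt` from the five seams of the S15 node. -/
theorem mzj_bt_Mirror (C : ∀ p : ℕ, mzt_Cusps p) (hC : mzt_C_stmt C) (hA : mza_stmt)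
    (hCD : mzb_CD_stmt C) (hRH : mzt_RHw_stmt) (hF : mzt_F_stmt C) : mzj_tb_Mirror_stmt := by
  intro p hp hp' W hΔ Q hQstab hQord h2Δ h2c₄ h2 h3Δ h3c₄ h3 ℓ hℓ hℓp hℓΔ hℓc₄ hℓp1 A hAℓ
  exact mzj_mr_S15star C hC hA hCD hRH hF hp hp' W hΔ Q hQstab hQord h2Δ h2c₄ h2 h3Δ h3c₄ h3
    hℓ hℓp hℓΔ hℓc₄ hℓp1 A hAℓ

end Fermat.Agent.MZ
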