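/-
MAZUR project, node **[MZ-J]**, TRACK B (helper1's #3128), cell **[B-UNIT]** = (d)+(e) (+ the pure
arithmetic of (g)).  Owner helper4.  Prefix `mzj_bu_`.

`P : FreyPackage`, `W = P.freyCurveInt`, `A = a^p`, `B = b^p`; the `2`-torsion abscissae of `W` are
`E₁ = 0`, `E₂ = A/4`, `E₃ = -B/4`.  For a point `Q` of order `p` generating a Galois-stable
subgroup, put `R e = ∏_{k=1}^{p-1} (e - x(k • Q))`.  If `Q` lies in the zero component at (one place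
over) every multiplicative prime `ℓ ≠ p`, and in the kernel of reduction at (one place over) `p`,
then `R(E₁)² = R(E₃)²` and `16^(p-1) R(E₂)² = R(E₃)²`; together with the `2`-torsion identity
`(E₂-E₁)^p R(E₃)² + (E₃-E₂)^p R(E₁)² + (E₁-E₃)^p R(E₂)² = 0` this is absurd (parity).
-/
import Mathlib
import Fermat.Agent.MZ.B.Ell
import Fermat.Agent.MZ.J.Ds.Defs
import Fermat.Agent.MZ.J.TB.Seams
import Fermat.Agent.S13.Global.UnramifiedOne

set_option autoImplicit false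
set_option linter.unusedSectionVars false
set_option linter.unusedVariables false

namespace Fermat.Agent.MZ

open WeierstrassCurve WeierstrassCurve.Affine WeierstrassCurve.Affine.Point IsLocalRing
open Fermat.Agent.S58 Fermat.Agent.S05

/-! ### integer facts on the Frey model -/

section FreyInt

variable (P : FreyPackage)

theorem mzj_bu_p_odd : ∃ m : ℕ, P.p = 2 * m + 1 := by
  obtain ⟨m, hm⟩ := P.hp_odd
  exact ⟨m, hm⟩

/-- `a^p ≡ 3 mod 4`. -/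
theorem mzj_bu_four_dvd_A : (4 : ℤ) ∣ P.a ^ P.p - 3 := by
  obtain ⟨m, hm⟩ := mzj_bu_p_odd P
  have h : ((P.a ^ P.p - 3 : ℤ) : ZMod 4) = 0 := by
    push_cast
    rw [P.ha4, hm, pow_succ, pow_mul]
    have : (3 : ZMod 4) ^ 2 = 1 := by decide
    rw [this, one_pow, one_mul, sub_self]
  exact (ZMod.intCast_zmod_eq_zero_iff_dvd _ 4).mp h

/-- `32 ∣ b^p`. -/
theorem mzj_bu_dvd_B : (32 : ℤ) ∣ P.b ^ P.p := by
  have h2 : (2 : ℤ) ∣ P.b := (ZMod.intCast_zmod_eq_zero_iff_dvd P.b 2).mp P.hb2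
  have h5 : (2 : ℤ) ^ 5 ∣ P.b ^ P.p :=
    (pow_dvd_pow_of_dvd h2 5).trans (pow_dvd_pow _ P.hp5)
  norm_num at h5
  exact h5

theorem mzj_bu_B_ne_zero : P.b ^ P.p ≠ 0 := pow_ne_zero _ P.hb0

theorem mzj_bu_A_odd : Odd (P.a ^ P.p) := by
  obtain ⟨k, hk⟩ := mzj_bu_four_dvd_A P
  exact ⟨2 * k + 1, by linarith⟩

theorem mzj_bu_a₂ : 4 * P.freyCurveInt.a₂ = P.b ^ P.p - 1 - P.a ^ P.p := by
  have h : (4 : ℤ) ∣ P.b ^ P.p - 1 - P.a ^ P.p := by
    obtain ⟨k, hk⟩ := mzj_bu_four_dvd_A P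
    obtain ⟨j, hj⟩ := mzj_bu_dvd_B P
    exact ⟨8 * j - k - 1, by linarith⟩
  exact Int.mul_ediv_cancel' h

theorem mzj_bu_a₄ : 16 * P.freyCurveInt.a₄ = -(P.a ^ P.p) * P.b ^ P.p := by
  have h : (16 : ℤ) ∣ -(P.a ^ P.p) * P.b ^ P.p := by
    obtain ⟨j, hj⟩ := mzj_bu_dvd_B P
    exact ⟨-(P.a ^ P.p) * (2 * j), by rw [hj]; ring⟩
  exact Int.mul_ediv_cancel' h

/-- `B/4` as an integer. -/
def mzj_bu_B4 : ℤ := P.b ^ P.p / 4

theorem mzj_bu_B4_eq : 4 * mzj_bu_B4 P = P.b ^ P.p := by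
  have h : (4 : ℤ) ∣ P.b ^ P.p := by
    obtain ⟨j, hj⟩ := mzj_bu_dvd_B P
    exact ⟨8 * j, by rw [hj]; ring⟩
  exact Int.mul_ediv_cancel' h

end FreyInt

/-! ### the Frey model over `ℚ̄`: `ψ₂² = x (4x - A)(x + B/4)` -/

section FreyQbar

variable (P : FreyPackage)

theorem mzj_bu_coeffs :
    ((s58_WQ P.freyCurveInt)⁄s58_Qb).a₁ = 1 ∧ ((s58_WQ P.freyCurveInt)⁄s58_Qb).a₃ = 0 ∧
    ((s58_WQ P.freyCurveInt)⁄s58_Qb).a₆ = 0 ∧
    ((s58_WQ P.freyCurveInt)⁄s58_Qb).a₂ = ((P.freyCurveInt.a₂ : ℤ) : s58_Qb) ∧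
    ((s58_WQ P.freyCurveInt)⁄s58_Qb).a₄ = ((P.freyCurveInt.a₄ : ℤ) : s58_Qb) := by
  refine ⟨?_, ?_, ?_, ?_, ?_⟩ <;> simp [FreyPackage.freyCurveInt]

theorem mzj_bu_psi2_sq {x y : s58_Qb}
    (h : ((s58_WQ P.freyCurveInt)⁄s58_Qb).Nonsingular x y) :
    (mzb_el_psi2 P.freyCurveInt (Point.some x y h)) ^ 2 =
      x * (4 * x - ((P.a ^ P.p : ℤ) : s58_Qb)) * (x + ((mzj_bu_B4 P : ℤ) : s58_Qb)) := by
  obtain ⟨h1, h3, h6, h2, h4⟩ := mzj_bu_coeffs P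
  have he := (Affine.equation_iff ..).mp h.1
  rw [h1, h3, h6, h2, h4] at he
  have e2 : (4 : s58_Qb) * ((P.freyCurveInt.a₂ : ℤ) : s58_Qb) =
      ((P.b ^ P.p : ℤ) : s58_Qb) - 1 - ((P.a ^ P.p : ℤ) : s58_Qb) := by
    have := congrArg (fun z : ℤ => (z : s58_Qb)) (mzj_bu_a₂ P)
    push_cast at this ⊢
    exact this
  have e4 : (16 : s58_Qb) * ((P.freyCurveInt.a₄ : ℤ) : s58_Qb) =
      -((P.a ^ P.p : ℤ) : s58_Qb) * ((P.b ^ P.p : ℤ) : s58_Qb) := by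
    have := congrArg (fun z : ℤ => (z : s58_Qb)) (mzj_bu_a₄ P)
    push_cast at this ⊢
    exact this
  have eB : (4 : s58_Qb) * ((mzj_bu_B4 P : ℤ) : s58_Qb) = ((P.b ^ P.p : ℤ) : s58_Qb) := by
    have := congrArg (fun z : ℤ => (z : s58_Qb)) (mzj_bu_B4_eq P)
    push_cast at this ⊢
    exact this
  rw [mzb_el_psi2_some]
  have ha1 : ((P.freyCurveInt.a₁ : ℤ) : s58_Qb) = 1 := by simp [FreyPackage.freyCurveInt]
  have ha3 : ((P.freyCurveInt.a₃ : ℤ) : s58_Qb) = 0 := by simp [FreyPackage.freyCurveInt]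
  rw [ha1, ha3]
  linear_combination 4 * he + x ^ 2 * e2 + (1/4 : s58_Qb) * x * e4 +
    ((1/4 : s58_Qb) * ((P.a ^ P.p : ℤ) : s58_Qb) * x - x ^ 2) * eB

/-! ### (d): the local statements -/

/-- three elements of a valuation ring whose product is a unit are units -/
theorem mzj_bu_three_units {Γ : Type*} [LinearOrderedCommGroupWithZero Γ] {a b c : Γ}
    (ha : a ≤ 1) (hb : b ≤ 1) (hc : c ≤ 1) (h : a * b * c = 1) : a = 1 ∧ b = 1 ∧ c = 1 := by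
  refine ⟨le_antisymm ha ?_, le_antisymm hb ?_, le_antisymm hc ?_⟩
  · calc (1 : Γ) = a * b * c := h.symm
      _ ≤ a * 1 * 1 := mul_le_mul' (mul_le_mul' le_rfl hb) hc
      _ = a := by rw [mul_one, mul_one]
  · calc (1 : Γ) = a * b * c := h.symm
      _ ≤ 1 * b * 1 := mul_le_mul' (mul_le_mul' ha le_rfl) hc
      _ = b := by rw [mul_one, one_mul]
  · calc (1 : Γ) = a * b * c := h.symm
      _ ≤ 1 * 1 * c := mul_le_mul' (mul_le_mul' ha hb) le_rfl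
      _ = c := by rw [one_mul, one_mul]

/-- the three `2`-torsion abscissae of the Frey model, in `ℚ̄` -/
noncomputable def mzj_bu_E1 : s58_Qb := 0
noncomputable def mzj_bu_E2 : s58_Qb := ((P.a ^ P.p : ℤ) : s58_Qb) / 4
noncomputable def mzj_bu_E3 : s58_Qb := -(((P.b ^ P.p : ℤ) : s58_Qb) / 4)

theorem mzj_bu_E3_eq : mzj_bu_E3 P = -((mzj_bu_B4 P : ℤ) : s58_Qb) := by
  have eB : (4 : s58_Qb) * ((mzj_bu_B4 P : ℤ) : s58_Qb) = ((P.b ^ P.p : ℤ) : s58_Qb) := by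
    have := congrArg (fun z : ℤ => (z : s58_Qb)) (mzj_bu_B4_eq P)
    push_cast at this ⊢
    exact this
  rw [mzj_bu_E3, ← eB]
  field_simp

section LocalAway

variable {Q : s58_E P.freyCurveInt} (hQord : addOrderOf Q = P.p) (A : ValuationSubring s58_Qb)
include hQord

/-- **(d) away from `p`** (any `ℓ ≠ p`, including `ℓ = 2`): `Q ∈ E⁰(A)` ⟹ `x(kQ) - E₁`,
`x(kQ) - E₃` and `4 (x(kQ) - E₂)` are units of `A`. -/
theorem mzj_bu_val_away {ℓ : ℕ} (hℓ : ℓ.Prime) (hℓp : ℓ ≠ P.p) (hA : A.LiesOverPrime ℓ)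
    (h0 : P.freyCurveInt.InZeroComponentAt A Q) {k : ℕ} (hk1 : 1 ≤ k) (hkp : k < P.p) :
    A.valuation (mzj_bu_E1 - mzj_ds_x _ (k • Q)) = 1 ∧
    A.valuation (mzj_bu_E3 P - mzj_ds_x _ (k • Q)) = 1 ∧
    A.valuation (4 : s58_Qb) * A.valuation (mzj_bu_E2 P - mzj_ds_x _ (k • Q)) = 1 := by
  have hp2 : P.p ≠ 2 := by have := P.hp5; omega
  obtain ⟨x, y, h, hkQ, hx, hy, hv⟩ := mzb_el_unit_in P.pp hp2 hQord hℓ hℓp hA h0 hk1 hkp
  rw [hkQ] at hv ⊢
  rw [mzj_ds_x_some]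
  have hsq := mzj_bu_psi2_sq P h
  have hv2 : A.valuation (x * (4 * x - ((P.a ^ P.p : ℤ) : s58_Qb)) *
      (x + ((mzj_bu_B4 P : ℤ) : s58_Qb))) = 1 := by
    rw [← hsq, map_pow, hv, one_pow]
  rw [map_mul, map_mul] at hv2
  have h4 : (4 : s58_Qb) ∈ A := by
    have := intVal_intCast_mem A 4
    rwa [Int.cast_ofNat] at this
  have m1 : x ∈ A := hx
  have m2 : 4 * x - ((P.a ^ P.p : ℤ) : s58_Qb) ∈ A :=
    sub_mem (mul_mem h4 hx) (intVal_intCast_mem A _)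
  have m3 : x + ((mzj_bu_B4 P : ℤ) : s58_Qb) ∈ A := add_mem hx (intVal_intCast_mem A _)
  obtain ⟨u1, u2, u3⟩ := mzj_bu_three_units ((A.valuation_le_one_iff _).mpr m1)
    ((A.valuation_le_one_iff _).mpr m2) ((A.valuation_le_one_iff _).mpr m3) hv2
  refine ⟨?_, ?_, ?_⟩
  · rw [mzj_bu_E1, zero_sub, Valuation.map_neg]; exact u1
  · rw [mzj_bu_E3_eq, ← neg_add', Valuation.map_neg, add_comm]; exact u3
  · rw [← map_mul, mzj_bu_E2]
    have : (4 : s58_Qb) * (((P.a ^ P.p : ℤ) : s58_Qb) / 4 - x) =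
        -(4 * x - ((P.a ^ P.p : ℤ) : s58_Qb)) := by field_simp; ring
    rw [this, Valuation.map_neg]; exact u2

end LocalAway

/-- the kernel of reduction is stable under multiples (any residue characteristic) -/
theorem mzj_bu_inKerRed_nsmul (W : WeierstrassCurve ℤ) (A : ValuationSubring s58_Qb)
    {Q : s58_E W} (h1 : InKerRed A Q) (k : ℕ) : InKerRed A (k • Q) := by
  classical
  have hM := s58m_model W A
  have h0 : W.InZeroComponentAt A Q := by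
    rcases h1 with rfl | hx
    · exact Or.inl rfl
    · rcases Q with _ | ⟨x, y, h⟩
      · exact Or.inl rfl
      · exact Or.inr ⟨x, y, h, rfl, Or.inl hx⟩
  have hmem : Q ∈ s58r_E0 hM := (s58m_inZeroComponentAt_iff Q).mp h0
  have hred : s58r_red hM ⟨Q, hmem⟩ = 0 := (s58r_red_eq_zero_iff hM ⟨Q, hmem⟩).mpr h1
  have hk : s58r_red hM (k • ⟨Q, hmem⟩) = 0 := by rw [map_nsmul, hred, nsmul_zero]
  have := (s58r_red_eq_zero_iff hM (k • ⟨Q, hmem⟩)).mp hk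
  rwa [AddSubgroup.coe_nsmul] at this

section LocalAtP

variable {Q : s58_E P.freyCurveInt} (hQord : addOrderOf Q = P.p) (A : ValuationSubring s58_Qb)
include hQord

/-- **(d) at `p`**: `Q ∈ E₁(A)`, `A ∣ p` ⟹ `v(x(kQ) - E_i) = v(x(kQ))` for all `i`. -/
theorem mzj_bu_val_at_p (hA : A.LiesOverPrime P.p) (h1 : InKerRed A Q)
    {k : ℕ} (hk1 : 1 ≤ k) (hkp : k < P.p) :
    A.valuation (mzj_bu_E1 - mzj_ds_x _ (k • Q)) = A.valuation (mzj_bu_E3 P - mzj_ds_x _ (k • Q)) ∧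
    A.valuation (4 : s58_Qb) * A.valuation (mzj_bu_E2 P - mzj_ds_x _ (k • Q)) =
      A.valuation (mzj_bu_E3 P - mzj_ds_x _ (k • Q)) := by
  have hne := mzb_el_nsmul_ne_zero P.pp hQord hk1 hkp
  have hk := mzj_bu_inKerRed_nsmul P.freyCurveInt A h1 k
  have hx : mzj_ds_x _ (k • Q) ∉ A := by
    rcases hk with h | h
    · exact absurd h hne
    · rcases hS : k • Q with _ | ⟨x, y, h'⟩
      · exact absurd hS hne
      · rw [hS] at h
        simpa using h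
  set x := mzj_ds_x _ (k • Q) with hxdef
  have hvx : 1 < A.valuation x := by
    rw [← not_le, A.valuation_le_one_iff]; exact hx
  have h4 : A.valuation (4 : s58_Qb) = 1 := by
    have := (intVal_eq_one_iff A hA P.pp 4).mpr (fun h => by
      have := Int.le_of_dvd (by norm_num) h
      have := P.hp5
      omega)
    simpa using this
  have key : ∀ e : s58_Qb, A.valuation e ≤ 1 → A.valuation (e - x) = A.valuation x := fun e he =>
    Valuation.map_sub_eq_of_lt_right _ (lt_of_le_of_lt he hvx)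
  have e1 : A.valuation (mzj_bu_E1 : s58_Qb) ≤ 1 := by rw [mzj_bu_E1, _root_.map_zero]; exact zero_le_one
  have e3 : A.valuation (mzj_bu_E3 P) ≤ 1 := by
    rw [mzj_bu_E3_eq, Valuation.map_neg]; exact intVal_intCast_le_one A _
  have e2 : A.valuation (mzj_bu_E2 P) ≤ 1 := by
    rw [mzj_bu_E2, map_div₀, h4, div_one]; exact intVal_intCast_le_one A _
  rw [key _ e1, key _ e3, key _ e2, h4, one_mul]
  exact ⟨rfl, rfl⟩

end LocalAtP

end FreyQbar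

/-! ### Galois invariance of `R e` -/

section Galois

variable {W : WeierstrassCurve ℤ} {p : ℕ} (hp : p.Prime) {Q : s58_E W} (hQord : addOrderOf Q = p)

/-- `R e = ∏_{k=1}^{p-1} (e - x(k • Q))`. -/
noncomputable def mzj_bu_R (W : WeierstrassCurve ℤ) (p : ℕ) (Q : s58_E W) (e : s58_Qb) : s58_Qb :=
  ∏ k ∈ Finset.Ico 1 p, (e - mzj_ds_x _ (k • Q))

theorem mzj_bu_smul_zero (W : WeierstrassCurve ℤ) (σ : s58_G) : σ • (0 : s58_E W) = 0 := by
  rw [algEquiv_smul_def]; exact _root_.map_zero _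

theorem mzj_bu_smul_eq_zero (σ : s58_G) {S : s58_E W} (h : σ • S = 0) : S = 0 := by
  have h2 : σ • S = σ • (0 : s58_E W) := by rw [h, mzj_bu_smul_zero]
  exact MulAction.injective σ h2

theorem mzj_bu_x_smul (σ : s58_G) (S : s58_E W) :
    mzj_ds_x _ (σ • S) = σ (mzj_ds_x _ S) := by
  rw [algEquiv_smul_def]
  exact mzj_ds_x_map (W.map (Int.castRingHom ℚ)) σ.toAlgHom S

omit hp in
theorem mzj_bu_injOn {G : Type*} [AddGroup G] {Q : G} {p : ℕ} (hQord : addOrderOf Q = p) :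
    Set.InjOn (fun k : ℕ => k • Q) (Finset.Ico 1 p : Set ℕ) := by
  intro k hk k' hk' h
  have hk2 : k ∈ Set.Iio (addOrderOf Q) := by
    rw [hQord]; exact (Finset.mem_Ico.mp hk).2
  have hk2' : k' ∈ Set.Iio (addOrderOf Q) := by
    rw [hQord]; exact (Finset.mem_Ico.mp hk').2
  exact nsmul_injOn_Iio_addOrderOf hk2 hk2' h

include hp hQord in
/-- the product over the nonzero multiples of `Q` is invariant under a substitution
`Q ↦ m • Q ≠ 0`. -/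
theorem mzj_bu_prod_reindex (g : s58_E W → s58_Qb) {m : ℕ} (hm : m • Q ≠ 0) :
    ∏ k ∈ Finset.Ico 1 p, g (k • (m • Q)) = ∏ k ∈ Finset.Ico 1 p, g (k • Q) := by
  classical
  have hpm : ¬ p ∣ m := by
    intro h
    apply hm
    rw [← hQord] at h
    exact addOrderOf_dvd_iff_nsmul_eq_zero.mp h
  have hQm : addOrderOf (m • Q) = p := by
    have hc : (addOrderOf Q).Coprime m := by
      rw [hQord]; exact (Nat.Prime.coprime_iff_not_dvd hp).mpr hpm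
    rw [hc.addOrderOf_nsmul, hQord]
  set T : Finset (s58_E W) := (Finset.Ico 1 p).image (fun k : ℕ => k • Q) with hT
  set T' : Finset (s58_E W) := (Finset.Ico 1 p).image (fun k : ℕ => k • (m • Q)) with hT'
  have h1 : ∏ k ∈ Finset.Ico 1 p, g (k • Q) = ∏ S ∈ T, g S :=
    (Finset.prod_image (s := Finset.Ico 1 p) (g := fun k : ℕ => k • Q) (f := g)
      (mzj_bu_injOn hQord)).symm
  have h2 : ∏ k ∈ Finset.Ico 1 p, g (k • (m • Q)) = ∏ S ∈ T', g S :=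
    (Finset.prod_image (s := Finset.Ico 1 p) (g := fun k : ℕ => k • (m • Q)) (f := g)
      (mzj_bu_injOn hQm)).symm
  have hsub : T' ⊆ T := by
    intro S hS
    obtain ⟨k, hk, rfl⟩ := Finset.mem_image.mp hS
    rw [Finset.mem_Ico] at hk
    refine Finset.mem_image.mpr ⟨(k * m) % p, ?_, ?_⟩
    · rw [Finset.mem_Ico]
      refine ⟨?_, Nat.mod_lt _ hp.pos⟩
      rw [Nat.one_le_iff_ne_zero, Ne, ← Nat.dvd_iff_mod_eq_zero]
      intro h
      rcases (Nat.Prime.dvd_mul hp).mp h with h | h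
      · exact absurd (Nat.le_of_dvd (by omega) h) (by omega)
      · exact hpm h
    · show ((k * m) % p) • Q = k • (m • Q)
      rw [← hQord, mod_addOrderOf_nsmul, mul_smul]
  have hcard : T.card ≤ T'.card := by
    rw [hT, hT', Finset.card_image_of_injOn (mzj_bu_injOn hQord),
      Finset.card_image_of_injOn (mzj_bu_injOn hQm)]
  rw [h1, h2, Finset.eq_of_subset_of_card_le hsub hcard]

include hp hQord in
/-- `R e` is Galois-invariant for `e` rational and `⟨Q⟩` Galois-stable. -/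
theorem mzj_bu_R_fixed (hstab : ∀ σ : s58_G, ∃ k : ℕ, σ • Q = k • Q) (r : ℚ) (σ : s58_G) :
    σ (mzj_bu_R W p Q (algebraMap ℚ s58_Qb r)) = mzj_bu_R W p Q (algebraMap ℚ s58_Qb r) := by
  obtain ⟨m, hm⟩ := hstab σ
  have hQ0 : Q ≠ 0 := by
    intro h
    rw [h, addOrderOf_zero] at hQord
    exact hp.one_lt.ne hQord
  have hm0 : m • Q ≠ 0 := by
    rw [← hm]
    intro h
    exact hQ0 (mzj_bu_smul_eq_zero σ h)
  unfold mzj_bu_R
  rw [map_prod]
  rw [← mzj_bu_prod_reindex hp hQord (fun S => algebraMap ℚ s58_Qb r - mzj_ds_x _ S) hm0]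
  refine Finset.prod_congr rfl fun k _ => ?_
  rw [map_sub, AlgEquiv.commutes, ← mzj_bu_x_smul, mzb_el_smul_nsmul, hm]

include hp hQord in
theorem mzj_bu_R_rational (hstab : ∀ σ : s58_G, ∃ k : ℕ, σ • Q = k • Q) (r : ℚ) :
    ∃ u : ℚ, algebraMap ℚ s58_Qb u = mzj_bu_R W p Q (algebraMap ℚ s58_Qb r) := by
  have _ : IsAlgClosure ℚ (AlgebraicClosure ℚ) := ⟨inferInstance, AlgebraicClosure.isAlgebraic ℚ⟩
  have _ : IsGalois ℚ (AlgebraicClosure ℚ) := inferInstance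
  exact (InfiniteGalois.mem_range_algebraMap_iff_fixed _).mpr
    (mzj_bu_R_fixed hp hQord hstab r)

end Galois

/-! ### rational numbers -/

/-- a nonzero rational number whose valuation at one place over every prime is trivial has
square `1` -/
theorem mzj_bu_rat_unit (t : ℚ)
    (h : ∀ ℓ : ℕ, ℓ.Prime → ∃ A : ValuationSubring s58_Qb, A.LiesOverPrime ℓ ∧
      A.valuation (algebraMap ℚ s58_Qb t) = 1) : t ^ 2 = 1 := by
  have hcop := t.reduced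
  have hden0 : (t.den : s58_Qb) ≠ 0 := by exact_mod_cast t.den_nz
  have key : ∀ ℓ : ℕ, ℓ.Prime → ¬ (ℓ : ℤ) ∣ t.num ∧ ¬ (ℓ : ℤ) ∣ (t.den : ℤ) := by
    intro ℓ hℓ
    obtain ⟨A, hA, hv⟩ := h ℓ hℓ
    have e : algebraMap ℚ s58_Qb t = ((t.num : ℤ) : s58_Qb) / (((t.den : ℕ) : ℤ) : s58_Qb) := by
      conv_lhs => rw [← Rat.num_div_den t]
      rw [map_div₀, map_intCast, map_natCast, Int.cast_natCast]
    rw [e, map_div₀] at hv
    have hd0 : A.valuation ((((t.den : ℕ) : ℤ)) : s58_Qb) ≠ 0 := by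
      rw [Ne, Valuation.zero_iff, Int.cast_natCast]; exact hden0
    have hv' : A.valuation ((t.num : ℤ) : s58_Qb) = A.valuation ((((t.den : ℕ) : ℤ)) : s58_Qb) := by
      rwa [div_eq_one_iff_eq hd0] at hv
    have hboth : ¬ ((ℓ : ℤ) ∣ t.num ∧ (ℓ : ℤ) ∣ (t.den : ℤ)) := by
      rintro ⟨h1, h2⟩
      have h1' : ℓ ∣ t.num.natAbs := Int.natCast_dvd.mp h1
      have h2' : ℓ ∣ t.den := Int.natCast_dvd_natCast.mp h2
      have := Nat.dvd_gcd h1' h2'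
      rw [hcop] at this
      exact hℓ.one_lt.ne' (Nat.dvd_one.mp this)
    constructor
    · intro h1
      apply hboth ⟨h1, ?_⟩
      rw [← intVal_lt_one_iff A hA hℓ, ← hv', intVal_lt_one_iff A hA hℓ]
      exact h1
    · intro h2
      apply hboth ⟨?_, h2⟩
      rw [← intVal_lt_one_iff A hA hℓ, hv', intVal_lt_one_iff A hA hℓ]
      exact h2
  have hnum : t.num.natAbs = 1 := by
    rw [Nat.eq_one_iff_not_exists_prime_dvd]
    intro ℓ hℓ hd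
    exact (key ℓ hℓ).1 (Int.natCast_dvd.mpr hd)
  have hden : t.den = 1 := by
    rw [Nat.eq_one_iff_not_exists_prime_dvd]
    intro ℓ hℓ hd
    exact (key ℓ hℓ).2 (Int.natCast_dvd_natCast.mpr hd)
  have hsq : t.num ^ 2 = 1 := by
    rw [← Int.natAbs_sq, hnum]; norm_num
  have ht' : t = (t.num : ℚ) := by
    conv_lhs => rw [← Rat.num_div_den t, hden]
    simp
  rw [ht']
  exact_mod_cast hsq


/-! ### (e): the global statement -/

section Main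

variable (P : FreyPackage) {Q : s58_E P.freyCurveInt} (hQord : addOrderOf Q = P.p)

/-- the local statement (d) at a place `A`, for all `k`. -/
def mzj_bu_Good (P : FreyPackage) (Q : s58_E P.freyCurveInt) (A : ValuationSubring s58_Qb) : Prop :=
  ∀ k ∈ Finset.Ico 1 P.p,
    A.valuation (mzj_bu_E3 P - mzj_ds_x _ (k • Q)) ≠ 0 ∧
    A.valuation (mzj_bu_E1 - mzj_ds_x _ (k • Q)) = A.valuation (mzj_bu_E3 P - mzj_ds_x _ (k • Q)) ∧
    A.valuation (4 : s58_Qb) * A.valuation (mzj_bu_E2 P - mzj_ds_x _ (k • Q)) =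
      A.valuation (mzj_bu_E3 P - mzj_ds_x _ (k • Q))

include hQord in
theorem mzj_bu_good_away {ℓ : ℕ} (hℓ : ℓ.Prime) (hℓp : ℓ ≠ P.p) {A : ValuationSubring s58_Qb}
    (hA : A.LiesOverPrime ℓ) (h0 : P.freyCurveInt.InZeroComponentAt A Q) : mzj_bu_Good P Q A := by
  intro k hk
  rw [Finset.mem_Ico] at hk
  obtain ⟨u1, u3, u2⟩ := mzj_bu_val_away P hQord A hℓ hℓp hA h0 hk.1 hk.2
  rw [u1, u3, u2]
  exact ⟨one_ne_zero, rfl, rfl⟩

include hQord in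
theorem mzj_bu_good_at_p {A : ValuationSubring s58_Qb} (hA : A.LiesOverPrime P.p)
    (h1 : InKerRed A Q) : mzj_bu_Good P Q A := by
  intro k hk
  rw [Finset.mem_Ico] at hk
  obtain ⟨u1, u2⟩ := mzj_bu_val_at_p P hQord A hA h1 hk.1 hk.2
  refine ⟨?_, u1, u2⟩
  intro h0
  rw [Valuation.zero_iff] at h0
  -- `x = E₃ ∈ A`, but `x ∉ A`
  have hne := mzb_el_nsmul_ne_zero P.pp hQord hk.1 hk.2
  have hkr := mzj_bu_inKerRed_nsmul P.freyCurveInt A h1 k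
  have hx : mzj_ds_x _ (k • Q) ∉ A := by
    rcases hkr with h | h
    · exact absurd h hne
    · rcases hS : k • Q with _ | ⟨x, y, h'⟩
      · exact absurd hS hne
      · rw [hS] at h
        simpa using h
  apply hx
  rw [← sub_eq_zero.mp h0, mzj_bu_E3_eq]
  exact neg_mem (intVal_intCast_mem A _)

/-- products of the local statements -/
theorem mzj_bu_good_prod {A : ValuationSubring s58_Qb} (hg : mzj_bu_Good P Q A) :
    A.valuation (mzj_bu_R P.freyCurveInt P.p Q (mzj_bu_E3 P)) ≠ 0 ∧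
    A.valuation (mzj_bu_R P.freyCurveInt P.p Q mzj_bu_E1) =
      A.valuation (mzj_bu_R P.freyCurveInt P.p Q (mzj_bu_E3 P)) ∧
    A.valuation (4 : s58_Qb) ^ (P.p - 1) * A.valuation (mzj_bu_R P.freyCurveInt P.p Q (mzj_bu_E2 P)) =
      A.valuation (mzj_bu_R P.freyCurveInt P.p Q (mzj_bu_E3 P)) := by
  unfold mzj_bu_R
  simp only [map_prod]
  refine ⟨?_, ?_, ?_⟩
  · rw [Finset.prod_ne_zero_iff]
    exact fun k hk => (hg k hk).1
  · exact Finset.prod_congr rfl fun k hk => (hg k hk).2.1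
  · have hc : (Finset.Ico 1 P.p).card = P.p - 1 := by rw [Nat.card_Ico]
    rw [← hc, ← Finset.prod_const, ← Finset.prod_mul_distrib]
    exact Finset.prod_congr rfl fun k hk => (hg k hk).2.2

theorem mzj_bu_E1_rat : mzj_bu_E1 = algebraMap ℚ s58_Qb 0 := by
  rw [mzj_bu_E1, _root_.map_zero]

theorem mzj_bu_E2_rat : mzj_bu_E2 P = algebraMap ℚ s58_Qb (((P.a ^ P.p : ℤ) : ℚ) / 4) := by
  rw [mzj_bu_E2, map_div₀, map_intCast, map_ofNat]

theorem mzj_bu_E3_rat : mzj_bu_E3 P = algebraMap ℚ s58_Qb (-(((P.b ^ P.p : ℤ) : ℚ) / 4)) := by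
  rw [mzj_bu_E3, map_neg, map_div₀, map_intCast, map_ofNat]

include hQord in
/-- **[B-UNIT] (d)+(e)**: `R(E₁)² = R(E₃)²` and `16^(p-1) R(E₂)² = R(E₃)²`. -/
theorem mzj_bu_main (hstab : ∀ σ : s58_G, ∃ k : ℕ, σ • Q = k • Q)
    (hb : ∀ ℓ : ℕ, ℓ.Prime → ℓ ≠ P.p → (ℓ : ℤ) ∣ P.freyCurveInt.Δ →
      ∃ A : ValuationSubring s58_Qb, A.LiesOverPrime ℓ ∧ P.freyCurveInt.InZeroComponentAt A Q)
    (hc : ∃ A : ValuationSubring s58_Qb, A.LiesOverPrime P.p ∧ InKerRed A Q) :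
    mzj_bu_R P.freyCurveInt P.p Q (mzj_bu_E3 P) ≠ 0 ∧
    (mzj_bu_R P.freyCurveInt P.p Q mzj_bu_E1) ^ 2 =
        (mzj_bu_R P.freyCurveInt P.p Q (mzj_bu_E3 P)) ^ 2 ∧
    (mzj_bu_R P.freyCurveInt P.p Q (mzj_bu_E2 P)) ^ 2 * 16 ^ (P.p - 1) =
        (mzj_bu_R P.freyCurveInt P.p Q (mzj_bu_E3 P)) ^ 2 := by
  classical
  -- one good place over every prime
  have hplace : ∀ ℓ : ℕ, ℓ.Prime → ∃ A : ValuationSubring s58_Qb, A.LiesOverPrime ℓ ∧
      mzj_bu_Good P Q A := by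
    intro ℓ hℓ
    by_cases hℓp : ℓ = P.p
    · obtain ⟨A, hA, h1⟩ := hc
      exact ⟨A, hℓp ▸ hA, mzj_bu_good_at_p P hQord hA h1⟩
    · by_cases hΔ : (ℓ : ℤ) ∣ P.freyCurveInt.Δ
      · obtain ⟨A, hA, h0⟩ := hb ℓ hℓ hℓp hΔ
        exact ⟨A, hA, mzj_bu_good_away P hQord hℓ hℓp hA h0⟩
      · obtain ⟨A, hA⟩ := Fermat.Agent.S13.g1_exists_liesOver ℓ hℓ
        exact ⟨A, hA, mzj_bu_good_away P hQord hℓ hℓp hA
          (s58m_inZeroComponentAt_of_good hA hℓ hΔ Q)⟩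
  -- rationality
  obtain ⟨r1, hr1⟩ := mzj_bu_R_rational P.pp hQord hstab 0
  obtain ⟨r2, hr2⟩ := mzj_bu_R_rational P.pp hQord hstab (((P.a ^ P.p : ℤ) : ℚ) / 4)
  obtain ⟨r3, hr3⟩ := mzj_bu_R_rational P.pp hQord hstab (-(((P.b ^ P.p : ℤ) : ℚ) / 4))
  rw [← mzj_bu_E1_rat] at hr1
  rw [← mzj_bu_E2_rat] at hr2
  rw [← mzj_bu_E3_rat] at hr3
  have hr30 : r3 ≠ 0 := by
    obtain ⟨A, hA, hg⟩ := hplace 2 Nat.prime_two
    have := (mzj_bu_good_prod P hg).1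
    rw [← hr3] at this
    intro h
    rw [h, _root_.map_zero, _root_.map_zero] at this
    exact this rfl
  have h1 : (r1 / r3) ^ 2 = 1 := by
    apply mzj_bu_rat_unit
    intro ℓ hℓ
    obtain ⟨A, hA, hg⟩ := hplace ℓ hℓ
    obtain ⟨g0, g1, g2⟩ := mzj_bu_good_prod P hg
    refine ⟨A, hA, ?_⟩
    rw [map_div₀, map_div₀, hr1, hr3, g1]
    exact div_self g0
  have h2 : ((4 : ℚ) ^ (P.p - 1) * r2 / r3) ^ 2 = 1 := by
    apply mzj_bu_rat_unit
    intro ℓ hℓ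
    obtain ⟨A, hA, hg⟩ := hplace ℓ hℓ
    obtain ⟨g0, g1, g2⟩ := mzj_bu_good_prod P hg
    refine ⟨A, hA, ?_⟩
    rw [map_div₀, map_div₀, map_mul, map_mul, map_pow, map_pow, map_ofNat, hr2, hr3, g2]
    exact div_self g0
  refine ⟨?_, ?_, ?_⟩
  · rw [← hr3]
    exact fun h => hr30 ((map_eq_zero _).mp h)
  · rw [← hr1, ← hr3, ← map_pow, ← map_pow]
    congr 1
    field_simp at h1
    exact h1
  · rw [← hr2, ← hr3, ← map_pow, ← map_pow]
    have : (16 : s58_Qb) ^ (P.p - 1) = algebraMap ℚ s58_Qb ((16 : ℚ) ^ (P.p - 1)) := by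
      rw [map_pow, map_ofNat]
    rw [this, ← map_mul]
    congr 1
    field_simp at h2
    have e16 : (16 : ℚ) ^ (P.p - 1) = ((4 : ℚ) ^ (P.p - 1)) ^ 2 := by
      rw [← pow_mul, mul_comm, pow_mul]; norm_num
    rw [e16]
    linear_combination h2

end Main

/-! ### (g): the parity argument -/

/-- **(g)**: `A` odd, `32 ∣ B ≠ 0`, `p ≥ 3` odd: `16^(p-1) A^p + B^p ≠ 16^(p-1) (A+B)^p`. -/
theorem mzj_bu_parity (A B : ℤ) (hA : Odd A) (hB : (32 : ℤ) ∣ B) (hB0 : B ≠ 0) (p : ℕ)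
    (hp : Odd p) (hp2 : 2 ≤ p) :
    A ^ p * 16 ^ (p - 1) + B ^ p ≠ (A + B) ^ p * 16 ^ (p - 1) := by
  intro h
  obtain ⟨n, rfl⟩ := hB
  set S : ℤ := ∑ i ∈ Finset.range p, (A + 32 * n) ^ i * A ^ (p - 1 - i) with hS
  have hgeom : S * (32 * n) = (A + 32 * n) ^ p - A ^ p := by
    have := Commute.geom_sum₂_mul (Commute.all (A + 32 * n) A) p
    rw [← hS] at this
    rw [← this]; ring
  have hSodd : Odd S := by
    rw [← ZMod.intCast_eq_one_iff_odd, hS]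
    push_cast
    have hA1 : ((A : ℤ) : ZMod 2) = 1 := ZMod.intCast_eq_one_iff_odd.mpr hA
    have h32 : (32 : ZMod 2) = 0 := by decide
    rw [hA1, h32]
    simp only [zero_mul, add_zero, one_pow, mul_one, Finset.sum_const, Finset.card_range,
      nsmul_eq_mul]
    exact ZMod.natCast_eq_one_iff_odd.mpr hp
  obtain ⟨q, hq⟩ : ∃ q, p = q + 2 := ⟨p - 2, by omega⟩
  have hpm : p - 1 = q + 1 := by omega
  -- `B^(p-1) = 16^(p-1) S`
  have h1 : (32 * n) * ((32 * n) ^ (p - 1) - 16 ^ (p - 1) * S) = 0 := by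
    have e : (32 * n) ^ p = (32 * n) * (32 * n) ^ (p - 1) := by
      rw [← pow_succ']; congr 1; omega
    linear_combination h - 16 ^ (p - 1) * hgeom - e
  have h2 : (32 * n) ^ (p - 1) = 16 ^ (p - 1) * S := by
    rcases mul_eq_zero.mp h1 with h0 | h0
    · exact absurd h0 hB0
    · exact sub_eq_zero.mp h0
  have h3 : (16 : ℤ) ^ (p - 1) * ((2 * n) ^ (p - 1) - S) = 0 := by
    have e : (32 * n) ^ (p - 1) = 16 ^ (p - 1) * (2 * n) ^ (p - 1) := by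
      rw [← mul_pow]; congr 1; ring
    linear_combination h2 - e
  have h4 : (2 * n) ^ (p - 1) = S := by
    rcases mul_eq_zero.mp h3 with h0 | h0
    · exact absurd h0 (pow_ne_zero _ (by norm_num))
    · exact sub_eq_zero.mp h0
  have heven : Even ((2 * n) ^ (p - 1)) := by
    rw [hpm, pow_succ]
    exact Even.mul_left (even_two_mul n) _
  rw [h4] at heven
  exact (Int.not_even_iff_odd.mpr hSodd) heven

/-- `E₁, E₂, E₃` are the three roots of `ψ₂² = 4x³ + b₂x² + 2b₄x + b₆` of the Frey model. -/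
theorem mzj_bu_psi2Sq_factor (P : FreyPackage) (x : s58_Qb) :
    4 * x ^ 3 + ((s58_WQ P.freyCurveInt)⁄s58_Qb).b₂ * x ^ 2 +
        2 * ((s58_WQ P.freyCurveInt)⁄s58_Qb).b₄ * x + ((s58_WQ P.freyCurveInt)⁄s58_Qb).b₆ =
      4 * (x - mzj_bu_E1) * (x - mzj_bu_E2 P) * (x - mzj_bu_E3 P) := by
  obtain ⟨h1, h3, h6, h2, h4⟩ := mzj_bu_coeffs P
  have e2 : (4 : s58_Qb) * ((P.freyCurveInt.a₂ : ℤ) : s58_Qb) =
      ((P.b ^ P.p : ℤ) : s58_Qb) - 1 - ((P.a ^ P.p : ℤ) : s58_Qb) := by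
    have := congrArg (fun z : ℤ => (z : s58_Qb)) (mzj_bu_a₂ P)
    push_cast at this ⊢
    exact this
  have e4 : (16 : s58_Qb) * ((P.freyCurveInt.a₄ : ℤ) : s58_Qb) =
      -((P.a ^ P.p : ℤ) : s58_Qb) * ((P.b ^ P.p : ℤ) : s58_Qb) := by
    have := congrArg (fun z : ℤ => (z : s58_Qb)) (mzj_bu_a₄ P)
    push_cast at this ⊢
    exact this
  rw [WeierstrassCurve.b₂, WeierstrassCurve.b₄, WeierstrassCurve.b₆, h1, h3, h6, h2, h4,
    mzj_bu_E1, mzj_bu_E2, mzj_bu_E3]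
  linear_combination x ^ 2 * e2 + (1 / 4 : s58_Qb) * x * e4

/-! ### the contradiction -/

/-- **Track B endgame**: (d)+(e)+(g) against the `2`-torsion identity (f). -/
theorem mzj_bu_false (P : FreyPackage) {Q : s58_E P.freyCurveInt} (hQord : addOrderOf Q = P.p)
    (hstab : ∀ σ : s58_G, ∃ k : ℕ, σ • Q = k • Q)
    (hb : ∀ ℓ : ℕ, ℓ.Prime → ℓ ≠ P.p → (ℓ : ℤ) ∣ P.freyCurveInt.Δ →
      ∃ A : ValuationSubring s58_Qb, A.LiesOverPrime ℓ ∧ P.freyCurveInt.InZeroComponentAt A Q)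
    (hc : ∃ A : ValuationSubring s58_Qb, A.LiesOverPrime P.p ∧ InKerRed A Q)
    (hid : (mzj_bu_E2 P - mzj_bu_E1) ^ P.p * (mzj_bu_R P.freyCurveInt P.p Q (mzj_bu_E3 P)) ^ 2 +
      (mzj_bu_E3 P - mzj_bu_E2 P) ^ P.p * (mzj_bu_R P.freyCurveInt P.p Q mzj_bu_E1) ^ 2 +
      (mzj_bu_E1 - mzj_bu_E3 P) ^ P.p * (mzj_bu_R P.freyCurveInt P.p Q (mzj_bu_E2 P)) ^ 2 = 0) :
    False := by
  obtain ⟨hR3, h13, h23⟩ := mzj_bu_main P hQord hstab hb hc
  set X := (mzj_bu_R P.freyCurveInt P.p Q (mzj_bu_E3 P)) ^ 2 with hX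
  set Y := (mzj_bu_R P.freyCurveInt P.p Q (mzj_bu_E2 P)) ^ 2 with hY
  rw [h13] at hid
  have hX0 : X ≠ 0 := pow_ne_zero _ hR3
  set a : s58_Qb := ((P.a ^ P.p : ℤ) : s58_Qb) with ha
  set b : s58_Qb := ((P.b ^ P.p : ℤ) : s58_Qb) with hb'
  set u : s58_Qb := (4 : s58_Qb) ^ P.p with hu
  set s : s58_Qb := (16 : s58_Qb) ^ (P.p - 1) with hs
  have h21 : u * (mzj_bu_E2 P - mzj_bu_E1) ^ P.p = a ^ P.p := by
    rw [hu, ← mul_pow]; congr 1
    rw [mzj_bu_E2, mzj_bu_E1, ha]; field_simp; ring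
  have h32 : u * (mzj_bu_E3 P - mzj_bu_E2 P) ^ P.p = -(a + b) ^ P.p := by
    rw [hu, ← mul_pow, ← Odd.neg_pow P.hp_odd]; congr 1
    rw [mzj_bu_E2, mzj_bu_E3, ha, hb']; field_simp; ring
  have h13' : u * (mzj_bu_E1 - mzj_bu_E3 P) ^ P.p = b ^ P.p := by
    rw [hu, ← mul_pow]; congr 1
    rw [mzj_bu_E3, mzj_bu_E1, hb']; field_simp; ring
  have key : (a ^ P.p * s + b ^ P.p - (a + b) ^ P.p * s) * X = 0 := by
    linear_combination (u * s) * hid - (s * X) * h21 - (s * X) * h32 - X * h13' -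
      (u * (mzj_bu_E1 - mzj_bu_E3 P) ^ P.p) * h23
  have key2 : a ^ P.p * s + b ^ P.p - (a + b) ^ P.p * s = 0 :=
    (mul_eq_zero.mp key).resolve_right hX0
  have hp2 : 2 ≤ P.p := by have := P.hp5; omega
  apply mzj_bu_parity (P.a ^ P.p) (P.b ^ P.p) (mzj_bu_A_odd P) (mzj_bu_dvd_B P)
    (mzj_bu_B_ne_zero P) P.p P.hp_odd hp2
  have hfin : a ^ P.p * s + b ^ P.p = (a + b) ^ P.p * s := by linear_combination key2
  rw [ha, hb', hs] at hfin
  exact_mod_cast hfin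

/-! ### the seam `mzj_tb_Unit_stmt` of `MZ/J/TB/Seams.lean` -/

theorem mzj_bu_R_eq (W : WeierstrassCurve ℤ) (p : ℕ) (Q : s58_E W) (e : s58_Qb) :
    mzj_tb_R ((s58_WQ W)⁄s58_Qb) p Q e = mzj_bu_R W p Q e := rfl

theorem mzj_bu_E2_eq (P : FreyPackage) : mzj_tb_E2 P = mzj_bu_E2 P := by
  rw [mzj_tb_E2, mzj_bu_E2]; push_cast; rfl

theorem mzj_bu_E3_eq' (P : FreyPackage) : mzj_tb_E3 P = mzj_bu_E3 P := by
  rw [mzj_tb_E3, mzj_bu_E3]; push_cast; ring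

/-- **[B-UNIT]**: the seam of Track B. -/
theorem mzj_bu_unit : mzj_tb_Unit_stmt := by
  intro P Q hQord ℓ hℓ A hA h0 h1
  have hg : mzj_bu_Good P Q A := by
    by_cases hℓp : ℓ = P.p
    · subst hℓp
      exact mzj_bu_good_at_p P hQord hA (h1 rfl)
    · by_cases hΔ : (ℓ : ℤ) ∣ P.freyCurveInt.Δ
      · exact mzj_bu_good_away P hQord hℓ hℓp hA (h0 hℓp hΔ)
      · classical
        exact mzj_bu_good_away P hQord hℓ hℓp hA (s58m_inZeroComponentAt_of_good hA hℓ hΔ Q)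
  obtain ⟨-, g1, g2⟩ := mzj_bu_good_prod P hg
  rw [mzj_bu_R_eq, mzj_bu_R_eq, mzj_bu_R_eq, mzj_bu_E2_eq, mzj_bu_E3_eq']
  refine ⟨?_, ?_⟩
  · have : (0 : s58_Qb) = mzj_bu_E1 := rfl
    rw [this]; exact g1
  · rw [map_mul, map_pow, mul_comm]; exact g2

end Fermat.Agent.MZ
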