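/-
MAZUR project, node [MZ-J], TRACK B, cell [B-ID], file `MZ/J/TB/Ident.lean`
(helper13, prefix `mzj_bi_`).

THE 2-TORSION IDENTITY OF A CYCLIC ISOGENY OF ODD DEGREE, over `ℂ`.

`L ⊂ L' = L + ℤ z₀`, `z₀` of exact order `p` modulo `L` (`mzj_av_Sup L L' z₀ p`), `p` odd,
`w₁, w₂, w₃` the three half periods of `L`, `eᵢ = ℘[L] wᵢ`, and
`c t = ∏_{k=1}^{p-1} (℘[L] (k z₀) - t)`.  Then

  `(e₂ - e₁)^p c(e₃)² + (e₃ - e₂)^p c(e₁)² + (e₁ - e₃)^p c(e₂)² = 0`     (`mzj_bi_main`).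

Proof.  (I1) `∏_{k<p} (℘[L] (z + k z₀) - t) = c(t) ℘[L'] z + m(t)` off `L'` (Liouville: the
difference is `L'`-periodic with removable singularities).  Evaluate (I1) for `t = eᵢ` at `wᵢ`
and at `wⱼ`, use the addition theorem at a half period
`(℘ (z + wⱼ) - eᵢ)(℘ z - eⱼ) = (eⱼ - eᵢ)(℘ z - eₗ)`, and sum cyclically.
-/
import Mathlib
import Fermat.Agent.MZ.J.An.Sum
import Fermat.Agent.MZ.A.Unif.Closed

set_option autoImplicit false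

noncomputable section

namespace Fermat.Agent.MZ

open Complex Filter Topology
open scoped PeriodPair

variable {L L' : PeriodPair} {z₀ : ℂ} {p : ℕ}

/-! ### the norm `F_t z = ∏_{k < p} (℘[L] (z + k z₀) - t)` -/

/-- the norm of `℘[L] - t` over the translates by the multiples of `z₀` -/
def mzj_bi_F (L : PeriodPair) (z₀ : ℂ) (p : ℕ) (t z : ℂ) : ℂ :=
  ∏ k ∈ Finset.range p, (℘[L] (z + (k : ℂ) * z₀) - t)

/-- the same product without the factor `k = 0` -/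
def mzj_bi_G (L : PeriodPair) (z₀ : ℂ) (p : ℕ) (t z : ℂ) : ℂ :=
  ∏ k ∈ Finset.Ico 1 p, (℘[L] (z + (k : ℂ) * z₀) - t)

/-- the constant `c t = ∏_{k=1}^{p-1} (℘[L] (k z₀) - t)` -/
def mzj_bi_c (L : PeriodPair) (z₀ : ℂ) (p : ℕ) (t : ℂ) : ℂ :=
  ∏ k ∈ Finset.Ico 1 p, (℘[L] ((k : ℂ) * z₀) - t)

theorem mzj_bi_F_eq (h : mzj_av_Sup L L' z₀ p) (t z : ℂ) :
    mzj_bi_F L z₀ p t z = (℘[L] z - t) * mzj_bi_G L z₀ p t z := by
  unfold mzj_bi_F mzj_bi_G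
  rw [Finset.range_eq_Ico, Finset.prod_eq_prod_Ico_succ_bot h.pos]
  simp

theorem mzj_bi_G_zero (t : ℂ) : mzj_bi_G L z₀ p t 0 = mzj_bi_c L z₀ p t := by
  unfold mzj_bi_G mzj_bi_c
  simp

theorem mzj_bi_F_add_z₀ (h : mzj_av_Sup L L' z₀ p) (t z : ℂ) :
    mzj_bi_F L z₀ p t (z + z₀) = mzj_bi_F L z₀ p t z := by
  obtain ⟨q, rfl⟩ : ∃ q, p = q + 1 := ⟨p - 1, by have := h.pos; omega⟩
  unfold mzj_bi_F
  have h1 : ∀ k : ℕ, ℘[L] (z + z₀ + (k : ℂ) * z₀) - t = ℘[L] (z + ((k + 1 : ℕ) : ℂ) * z₀) - t := by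
    intro k
    congr 2
    push_cast
    ring
  simp_rw [h1]
  rw [Finset.prod_range_succ (fun k : ℕ => ℘[L] (z + ((k + 1 : ℕ) : ℂ) * z₀) - t) q,
    Finset.prod_range_succ' (fun k : ℕ => ℘[L] (z + (k : ℂ) * z₀) - t) q]
  have h4 : ℘[L] (z + ((q + 1 : ℕ) : ℂ) * z₀) = ℘[L] z := L.weierstrassP_add_coe z ⟨_, h.pz⟩
  have h5 : ℘[L] (z + ((0 : ℕ) : ℂ) * z₀) = ℘[L] z := by simp
  rw [h4, h5]

theorem mzj_bi_F_sub_z₀ (h : mzj_av_Sup L L' z₀ p) (t z : ℂ) :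
    mzj_bi_F L z₀ p t (z - z₀) = mzj_bi_F L z₀ p t z := by
  have := mzj_bi_F_add_z₀ h t (z - z₀)
  rw [sub_add_cancel] at this
  exact this.symm

theorem mzj_bi_F_add_zsmul (h : mzj_av_Sup L L' z₀ p) (t : ℂ) (k : ℤ) (z : ℂ) :
    mzj_bi_F L z₀ p t (z + (k : ℂ) * z₀) = mzj_bi_F L z₀ p t z := by
  induction k using Int.induction_on with
  | zero => simp
  | succ n ih =>
    have : z + ((n + 1 : ℤ) : ℂ) * z₀ = z + ((n : ℤ) : ℂ) * z₀ + z₀ := by push_cast; ring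
    rw [this, mzj_bi_F_add_z₀ h, ih]
  | pred n ih =>
    have : z + ((-(n : ℤ) - 1 : ℤ) : ℂ) * z₀ = z + ((-(n : ℤ) : ℤ) : ℂ) * z₀ - z₀ := by
      push_cast; ring
    rw [this, mzj_bi_F_sub_z₀ h, ih]

theorem mzj_bi_F_add_coe (t z : ℂ) {l : ℂ} (hl : l ∈ L.lattice) :
    mzj_bi_F L z₀ p t (z + l) = mzj_bi_F L z₀ p t z := by
  unfold mzj_bi_F
  refine Finset.prod_congr rfl fun k _ => ?_
  rw [add_right_comm]
  congr 1
  exact L.weierstrassP_add_coe _ ⟨l, hl⟩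

/-- `F_t` is `L'`-periodic -/
theorem mzj_bi_F_periodic (h : mzj_av_Sup L L' z₀ p) (t z : ℂ) {l : ℂ} (hl : l ∈ L'.lattice) :
    mzj_bi_F L z₀ p t (z + l) = mzj_bi_F L z₀ p t z := by
  obtain ⟨k, hk⟩ := (h.mem_iff l).1 hl
  have : z + l = z + (k : ℂ) * z₀ + (l - (k : ℂ) * z₀) := by ring
  rw [this, mzj_bi_F_add_coe _ _ hk, mzj_bi_F_add_zsmul h]

/-! ### the regular part `G_t` near `0` -/

theorem mzj_bi_G_neg (h : mzj_av_Sup L L' z₀ p) (t z : ℂ) :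
    mzj_bi_G L z₀ p t (-z) = mzj_bi_G L z₀ p t z := by
  unfold mzj_bi_G
  have h1 : ∀ k ∈ Finset.Ico 1 p, ℘[L] (-z + (k : ℂ) * z₀) - t
      = (fun j : ℕ => ℘[L] (z + (j : ℂ) * z₀) - t) (p - k) := by
    intro k hk
    rw [Finset.mem_Ico] at hk
    show ℘[L] (-z + (k : ℂ) * z₀) - t = ℘[L] (z + ((p - k : ℕ) : ℂ) * z₀) - t
    congr 1
    rw [← L.weierstrassP_neg (-z + (k : ℂ) * z₀)]
    have h2 : z + ((p - k : ℕ) : ℂ) * z₀ = -(-z + (k : ℂ) * z₀) + (p : ℂ) * z₀ := by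
      rw [Nat.cast_sub hk.2.le]
      ring
    rw [h2]
    exact (L.weierstrassP_add_coe _ ⟨_, h.pz⟩).symm
  rw [Finset.prod_congr rfl h1]
  have h5 := Finset.prod_Ico_reflect (fun j : ℕ => ℘[L] (z + (j : ℂ) * z₀) - t) 1 (Nat.le_succ p)
  have h3 : p + 1 - p = 1 := by omega
  have h4 : p + 1 - 1 = p := by omega
  rw [h3, h4] at h5
  exact h5

theorem mzj_bi_analyticAt_G (h : mzj_av_Sup L L' z₀ p) (t : ℂ) :
    AnalyticAt ℂ (mzj_bi_G L z₀ p t) 0 := by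
  unfold mzj_bi_G
  refine Finset.analyticAt_fun_prod _ fun k hk => ?_
  rw [Finset.mem_Ico] at hk
  refine (mza_u_analyticAt_P_shift L ?_).sub analyticAt_const
  rw [zero_add]
  exact h.nz k (by omega) hk.2

theorem mzj_bi_deriv_G (h : mzj_av_Sup L L' z₀ p) (t : ℂ) :
    deriv (mzj_bi_G L z₀ p t) 0 = 0 := by
  have h1 : (fun z => mzj_bi_G L z₀ p t (-z)) = mzj_bi_G L z₀ p t :=
    funext fun z => mzj_bi_G_neg h t z
  have h2 := deriv_comp_neg (mzj_bi_G L z₀ p t) 0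
  rw [h1, neg_zero] at h2
  have h3 : (2 : ℂ) * deriv (mzj_bi_G L z₀ p t) 0 = 0 := by linear_combination h2
  simpa using h3

/-- an analytic function with `f' (0) = 0` is `f 0 + z² * (analytic)` -/
theorem mzj_bi_quad {f : ℂ → ℂ} (hf : AnalyticAt ℂ f 0) (hd : deriv f 0 = 0) :
    ∃ H : ℂ → ℂ, AnalyticAt ℂ H 0 ∧ ∀ z, f z = f 0 + z ^ 2 * H z := by
  obtain ⟨q, hq⟩ := hf
  have h1 : HasFPowerSeriesAt (dslope f 0) q.fslope 0 := hq.has_fpower_series_dslope_fslope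
  have h2 : HasFPowerSeriesAt (dslope (dslope f 0) 0) q.fslope.fslope 0 :=
    h1.has_fpower_series_dslope_fslope
  refine ⟨dslope (dslope f 0) 0, ⟨_, h2⟩, fun z => ?_⟩
  have e1 : (z - 0) • dslope f 0 z = f z - f 0 := sub_smul_dslope f 0 z
  have e2 : (z - 0) • dslope (dslope f 0) 0 z = dslope f 0 z - dslope f 0 0 :=
    sub_smul_dslope (dslope f 0) 0 z
  rw [dslope_same, hd] at e2
  simp only [sub_zero, smul_eq_mul] at e1 e2
  linear_combination -e1 - z * e2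

/-! ### the difference `E_t = F_t - c(t) ℘[L']` and (I1) -/

/-- the difference of the two sides of (I1) -/
def mzj_bi_E (L L' : PeriodPair) (z₀ : ℂ) (p : ℕ) (t z : ℂ) : ℂ :=
  mzj_bi_F L z₀ p t z - mzj_bi_c L z₀ p t * ℘[L'] z

theorem mzj_bi_E_periodic (h : mzj_av_Sup L L' z₀ p) (t z l : ℂ) (hl : l ∈ L'.lattice) :
    mzj_bi_E L L' z₀ p t (z + l) = mzj_bi_E L L' z₀ p t z := by
  unfold mzj_bi_E
  rw [mzj_bi_F_periodic h t z hl, L'.weierstrassP_add_coe z ⟨l, hl⟩]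

theorem mzj_bi_analyticAt_E (h : mzj_av_Sup L L' z₀ p) (t : ℂ) {z : ℂ} (hz : z ∉ L'.lattice) :
    AnalyticAt ℂ (mzj_bi_E L L' z₀ p t) z := by
  unfold mzj_bi_E mzj_bi_F
  refine AnalyticAt.sub ?_ (analyticAt_const.mul (L'.analyticOnNhd_weierstrassP z hz))
  refine Finset.analyticAt_fun_prod _ fun k _ => ?_
  exact (mza_u_analyticAt_P_shift L (h.add_notMem hz k)).sub analyticAt_const

/-- the local model of `E_t` at `0` -/
theorem mzj_bi_E_local (h : mzj_av_Sup L L' z₀ p) (t : ℂ) :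
    ∃ M : ℂ → ℂ, AnalyticAt ℂ M 0 ∧ ∀ z, z ≠ 0 → mzj_bi_E L L' z₀ p t z = M z := by
  obtain ⟨H, hH, hGH⟩ := mzj_bi_quad (mzj_bi_analyticAt_G h t) (mzj_bi_deriv_G h t)
  rw [mzj_bi_G_zero] at hGH
  refine ⟨fun z => (℘[L - (0 : ℂ)] z - t) * mzj_bi_G L z₀ p t z
      - mzj_bi_c L z₀ p t * ℘[L' - (0 : ℂ)] z + H z, ?_, fun z hz => ?_⟩
  · exact ((((L.analyticAt_weierstrassPExcept 0).sub analyticAt_const).mul
      (mzj_bi_analyticAt_G h t)).sub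
      (analyticAt_const.mul (L'.analyticAt_weierstrassPExcept 0))).add hH
  · show mzj_bi_E L L' z₀ p t z = (℘[L - (0 : ℂ)] z - t) * mzj_bi_G L z₀ p t z
      - mzj_bi_c L z₀ p t * ℘[L' - (0 : ℂ)] z + H z
    unfold mzj_bi_E
    rw [mzj_bi_F_eq h, mzj_av_P_eq_except L, mzj_av_P_eq_except L']
    have hz2 : z ^ 2 ≠ 0 := pow_ne_zero 2 hz
    have e := hGH z
    field_simp
    linear_combination e

theorem mzj_bi_E_eventually (h : mzj_av_Sup L L' z₀ p) (t : ℂ) :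
    ∃ m : ℂ, ∀ z₁ : ℂ, ∀ᶠ z in 𝓝[≠] z₁, mzj_bi_E L L' z₀ p t z = m := by
  obtain ⟨M, hM, hEM⟩ := mzj_bi_E_local h t
  have hloc : ∀ z1 : ℂ, ∃ G : ℂ → ℂ, AnalyticAt ℂ G z1 ∧
      ∀ᶠ z in 𝓝[≠] z1, mzj_bi_E L L' z₀ p t z = G z := by
    intro z1
    by_cases hz1 : z1 ∈ L'.lattice
    · refine ⟨fun z => M (z - z1), ?_, ?_⟩
      · have h1 : AnalyticAt ℂ M ((fun z : ℂ => z - z1) z1) := by
          simpa using hM
        exact h1.comp (g := M) (f := fun z : ℂ => z - z1) (by fun_prop)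
      · filter_upwards [self_mem_nhdsWithin] with z hz
        have hz' : z - z1 ≠ 0 := sub_ne_zero.mpr hz
        rw [← hEM _ hz']
        have := mzj_bi_E_periodic h t (z - z1) z1 hz1
        rw [sub_add_cancel] at this
        exact this
    · exact ⟨_, mzj_bi_analyticAt_E h t hz1, Eventually.of_forall fun _ => rfl⟩
  exact mza_th_liouville L' (mzj_bi_E L L' z₀ p t) (mzj_bi_E_periodic h t) hloc

/-- **(I1)**: `∏_{k<p} (℘[L] (z + k z₀) - t) = c(t) ℘[L'] z + m(t)` off `L'` -/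
theorem mzj_bi_I1 (h : mzj_av_Sup L L' z₀ p) (t : ℂ) :
    ∃ m : ℂ, ∀ z : ℂ, z ∉ L'.lattice →
      mzj_bi_F L z₀ p t z = mzj_bi_c L z₀ p t * ℘[L'] z + m := by
  obtain ⟨m, hm⟩ := mzj_bi_E_eventually h t
  refine ⟨m, fun z hz => ?_⟩
  have h1 : Tendsto (mzj_bi_E L L' z₀ p t) (𝓝[≠] z) (𝓝 (mzj_bi_E L L' z₀ p t z)) :=
    (mzj_bi_analyticAt_E h t hz).continuousAt.tendsto.mono_left nhdsWithin_le_nhds
  have h2 : Tendsto (mzj_bi_E L L' z₀ p t) (𝓝[≠] z) (𝓝 m) :=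
    (tendsto_const_nhds (x := m)).congr' ((hm z).mono fun _ hw => hw.symm)
  have h3 := tendsto_nhds_unique h1 h2
  unfold mzj_bi_E at h3
  linear_combination h3

/-! ### half periods -/

theorem mzj_bi_P1_half {w : ℂ} (h2 : 2 * w ∈ L.lattice) : ℘'[L] w = 0 := by
  have e1 : ℘'[L] (-w) = -℘'[L] w := L.derivWeierstrassP_neg w
  have e2 : ℘'[L] (-w + 2 * w) = ℘'[L] (-w) := L.derivWeierstrassP_add_coe (-w) ⟨_, h2⟩
  have e3 : -w + 2 * w = w := by ring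
  rw [e3, e1] at e2
  have e4 : (2 : ℂ) * ℘'[L] w = 0 := by linear_combination e2
  simpa using e4

theorem mzj_bi_cubic_half {w : ℂ} (hw : w ∉ L.lattice) (h2 : 2 * w ∈ L.lattice) :
    4 * ℘[L] w ^ 3 - L.g₂ * ℘[L] w - L.g₃ = 0 := by
  have := L.derivWeierstrassP_sq w hw
  rw [mzj_bi_P1_half h2] at this
  linear_combination -this

/-- `℘ z = ℘ w` only if `z ≡ ± w` -/
theorem mzj_bi_P_eq {z w : ℂ} (hz : z ∉ L.lattice) (hw : w ∉ L.lattice)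
    (he : ℘[L] z = ℘[L] w) : z - w ∈ L.lattice ∨ z + w ∈ L.lattice := by
  have key : ∀ v : ℂ, v ∉ L.lattice → ℘[L] z = ℘[L] v → ℘'[L] z = ℘'[L] v →
      z - v ∈ L.lattice := by
    intro v hv h1 h2
    rw [← mza_u_Phi_inj L z v, mza_uh_Phi_of_notMem L hv,
      mza_uh_Phi_some_iff L hz (mza_uh_nonsingular L hv)]
    exact ⟨h1, by rw [h2]; ring⟩
  have s1 := L.derivWeierstrassP_sq z hz
  have s2 := L.derivWeierstrassP_sq w hw
  have h3 : (℘'[L] z - ℘'[L] w) * (℘'[L] z + ℘'[L] w) = 0 := by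
    rw [he] at s1
    linear_combination s1 - s2
  rcases mul_eq_zero.mp h3 with h4 | h4
  · exact Or.inl (key w hw he (sub_eq_zero.mp h4))
  · right
    have hnw : -w ∉ L.lattice := fun hm => hw ((mza_uh_neg_mem_iff L).1 hm)
    have := key (-w) hnw (by rw [L.weierstrassP_neg, he])
      (by rw [L.derivWeierstrassP_neg]; linear_combination h4)
    rwa [sub_neg_eq_add] at this

theorem mzj_bi_half_ne {w v : ℂ} (hw : w ∉ L.lattice) (hv : v ∉ L.lattice)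
    (hv2 : 2 * v ∈ L.lattice) (hwv : w - v ∉ L.lattice) : ℘[L] w ≠ ℘[L] v := by
  intro he
  rcases mzj_bi_P_eq hw hv he with h1 | h1
  · exact hwv h1
  · apply hwv
    have := L.lattice.sub_mem h1 hv2
    have e : w + v - 2 * v = w - v := by ring
    rwa [e] at this

/-- three distinct roots of `4x³ - g₂x - g₃` -/
theorem mzj_bi_roots {g₂ g₃ e₁ e₂ e₃ : ℂ} (h1 : 4 * e₁ ^ 3 - g₂ * e₁ - g₃ = 0)
    (h2 : 4 * e₂ ^ 3 - g₂ * e₂ - g₃ = 0) (h3 : 4 * e₃ ^ 3 - g₂ * e₃ - g₃ = 0)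
    (h12 : e₁ ≠ e₂) (h13 : e₁ ≠ e₃) (h23 : e₂ ≠ e₃) :
    e₁ + e₂ + e₃ = 0 ∧ g₂ = -4 * (e₁ * e₂ + e₂ * e₃ + e₃ * e₁) ∧ g₃ = 4 * e₁ * e₂ * e₃ := by
  have a12 : 4 * (e₁ ^ 2 + e₁ * e₂ + e₂ ^ 2) = g₂ := by
    apply mul_left_cancel₀ (sub_ne_zero.mpr h12)
    linear_combination h1 - h2
  have a13 : 4 * (e₁ ^ 2 + e₁ * e₃ + e₃ ^ 2) = g₂ := by
    apply mul_left_cancel₀ (sub_ne_zero.mpr h13)
    linear_combination h1 - h3
  have hs : e₁ + e₂ + e₃ = 0 := by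
    apply mul_left_cancel₀ (sub_ne_zero.mpr h23)
    linear_combination (1 / 4 : ℂ) * (a12 - a13)
  have e3 : e₃ = -e₁ - e₂ := by linear_combination hs
  refine ⟨hs, ?_, ?_⟩
  · rw [e3]
    linear_combination -a12
  · rw [e3]
    linear_combination -h1 + e₁ * a12

/-- **the addition theorem at a half period** -/
theorem mzj_bi_add_half {wj : ℂ} (hwj : wj ∉ L.lattice) (hwj2 : 2 * wj ∈ L.lattice)
    {ei el : ℂ} (hs : ei + ℘[L] wj + el = 0)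
    (hg2 : L.g₂ = -4 * (ei * ℘[L] wj + ℘[L] wj * el + el * ei))
    (hg3 : L.g₃ = 4 * ei * ℘[L] wj * el)
    {z : ℂ} (hz : z ∉ L.lattice) (hzw : z + wj ∉ L.lattice) :
    (℘[L] (z + wj) - ei) * (℘[L] z - ℘[L] wj) = (℘[L] wj - ei) * (℘[L] z - el) := by
  have hne : ℘[L] z ≠ ℘[L] wj := by
    intro he
    rcases mzj_bi_P_eq hz hwj he with h1 | h1
    · apply hzw
      have := L.lattice.add_mem h1 hwj2
      have e : z - wj + 2 * wj = z + wj := by ring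
      rwa [e] at this
    · exact hzw h1
  have hpoly := mza_u_add_poly L hwj hz hzw
  rw [mzj_bi_P1_half hwj2, sub_zero, L.derivWeierstrassP_sq z hz, hg2, hg3] at hpoly
  have el_eq : el = -ei - ℘[L] wj := by linear_combination hs
  rw [el_eq] at hpoly ⊢
  have hd : ℘[L] z - ℘[L] wj ≠ 0 := sub_ne_zero.mpr hne
  apply mul_left_cancel₀ hd
  linear_combination (1 / 4 : ℂ) * hpoly

/-! ### half periods of `L` are not in `L'` (`p` odd) -/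

theorem mzj_bi_dvd_of_mem (h : mzj_av_Sup L L' z₀ p) (k : ℤ) (hk : (k : ℂ) * z₀ ∈ L.lattice) :
    (p : ℤ) ∣ k := by
  have hp0 : (0 : ℤ) < p := by exact_mod_cast h.pos
  have hr0 : 0 ≤ k % (p : ℤ) := Int.emod_nonneg k hp0.ne'
  have hrp : k % (p : ℤ) < p := Int.emod_lt_of_pos k hp0
  have hdiv : (p : ℤ) * (k / (p : ℤ)) + k % (p : ℤ) = k := Int.mul_ediv_add_emod k p
  obtain ⟨r, hr⟩ := Int.eq_ofNat_of_zero_le hr0
  have hrmem : (r : ℂ) * z₀ ∈ L.lattice := by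
    have h1 : ((k / (p : ℤ) : ℤ) : ℂ) * ((p : ℂ) * z₀) ∈ L.lattice := by
      have := L.lattice.smul_mem (k / (p : ℤ)) h.pz
      simpa [zsmul_eq_mul] using this
    have h2 := L.lattice.sub_mem hk h1
    have e : (k : ℂ) * z₀ - ((k / (p : ℤ) : ℤ) : ℂ) * ((p : ℂ) * z₀) = (r : ℂ) * z₀ := by
      have e1 : (k : ℂ) = (p : ℂ) * ((k / (p : ℤ) : ℤ) : ℂ) + (r : ℂ) := by
        have := congrArg (fun n : ℤ => (n : ℂ)) hdiv
        simp only [hr] at this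
        push_cast at this
        exact this.symm
      rw [e1]
      ring
    rwa [e] at h2
  have hr_lt : r < p := by
    rw [hr] at hrp
    exact_mod_cast hrp
  have hr_zero : r = 0 := by
    by_contra hne
    exact h.nz r (Nat.pos_of_ne_zero hne) hr_lt hrmem
  apply Int.dvd_of_emod_eq_zero
  rw [hr, hr_zero]
  rfl

theorem mzj_bi_half_notMem (h : mzj_av_Sup L L' z₀ p) (hp : Odd p) {w : ℂ}
    (hw : w ∉ L.lattice) (hw2 : 2 * w ∈ L.lattice) : w ∉ L'.lattice := by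
  intro hm
  obtain ⟨k, hk⟩ := (h.mem_iff w).1 hm
  have h1 : ((2 * k : ℤ) : ℂ) * z₀ ∈ L.lattice := by
    have h2 : (2 : ℂ) * (w - (k : ℂ) * z₀) ∈ L.lattice := by
      have := L.lattice.add_mem hk hk
      have e : w - (k : ℂ) * z₀ + (w - (k : ℂ) * z₀) = 2 * (w - (k : ℂ) * z₀) := by ring
      rwa [e] at this
    have h3 := L.lattice.sub_mem hw2 h2
    have e : 2 * w - 2 * (w - (k : ℂ) * z₀) = ((2 * k : ℤ) : ℂ) * z₀ := by
      push_cast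
      ring
    rwa [e] at h3
  have h4 : (p : ℤ) ∣ 2 * k := mzj_bi_dvd_of_mem h _ h1
  obtain ⟨m, hm'⟩ := hp
  have h5 : (p : ℤ) ∣ k := by
    have h6 : (p : ℤ) ∣ (p : ℤ) * k - (m : ℤ) * (2 * k) :=
      dvd_sub (dvd_mul_right _ _) (dvd_mul_of_dvd_right h4 _)
    have e : (p : ℤ) * k - (m : ℤ) * (2 * k) = k := by
      rw [hm']
      push_cast
      ring
    rwa [e] at h6
  obtain ⟨q, hq⟩ := h5
  have h7 : (k : ℂ) * z₀ ∈ L.lattice := by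
    have := L.lattice.smul_mem q h.pz
    have e : q • ((p : ℂ) * z₀) = (k : ℂ) * z₀ := by
      rw [zsmul_eq_mul, hq]
      push_cast
      ring
    rwa [e] at this
  apply hw
  have := L.lattice.add_mem hk h7
  rwa [sub_add_cancel] at this

/-! ### evaluation of (I1) at the half periods -/

theorem mzj_bi_D (h : mzj_av_Sup L L' z₀ p) (hp : Odd p) {wi wj : ℂ}
    (hwi : wi ∉ L.lattice) (hwi2 : 2 * wi ∈ L.lattice)
    (hwj : wj ∉ L.lattice) (hwj2 : 2 * wj ∈ L.lattice) {el : ℂ}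
    (hH : ∀ z : ℂ, z ∉ L.lattice → z + wj ∉ L.lattice →
      (℘[L] (z + wj) - ℘[L] wi) * (℘[L] z - ℘[L] wj) = (℘[L] wj - ℘[L] wi) * (℘[L] z - el)) :
    mzj_bi_c L z₀ p (℘[L] wi) * mzj_bi_c L z₀ p (℘[L] wj) * (℘[L'] wj - ℘[L'] wi)
      = (℘[L] wj - ℘[L] wi) ^ p * mzj_bi_c L z₀ p el := by
  obtain ⟨m, hm⟩ := mzj_bi_I1 h (℘[L] wi)
  have hwi' := mzj_bi_half_notMem h hp hwi hwi2
  have hwj' := mzj_bi_half_notMem h hp hwj hwj2
  have e1 := hm wi hwi'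
  have e2 := hm wj hwj'
  rw [mzj_bi_F_eq h, sub_self, zero_mul] at e1
  rw [mzj_bi_F_eq h] at e2
  -- the product over `k ≥ 1`
  have e3 : mzj_bi_G L z₀ p (℘[L] wi) wj * mzj_bi_c L z₀ p (℘[L] wj)
      = (℘[L] wj - ℘[L] wi) ^ (p - 1) * mzj_bi_c L z₀ p el := by
    unfold mzj_bi_G mzj_bi_c
    rw [← Finset.prod_mul_distrib]
    have e4 : ∀ k ∈ Finset.Ico 1 p, (℘[L] (wj + (k : ℂ) * z₀) - ℘[L] wi)
        * (℘[L] ((k : ℂ) * z₀) - ℘[L] wj) = (℘[L] wj - ℘[L] wi) * (℘[L] ((k : ℂ) * z₀) - el) := by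
      intro k hk
      rw [Finset.mem_Ico] at hk
      have h1 : (k : ℂ) * z₀ ∉ L.lattice := h.nz k (by omega) hk.2
      have h2 : (k : ℂ) * z₀ + wj ∉ L.lattice := by
        rw [add_comm]
        exact h.add_notMem hwj' k
      have := hH _ h1 h2
      rwa [add_comm ((k : ℂ) * z₀) wj] at this
    rw [Finset.prod_congr rfl e4, Finset.prod_mul_distrib, Finset.prod_const]
    simp
  have e5 : (℘[L] wj - ℘[L] wi) ^ p = (℘[L] wj - ℘[L] wi) * (℘[L] wj - ℘[L] wi) ^ (p - 1) := by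
    rw [← pow_succ']
    congr 1
    have := h.pos
    omega
  rw [e5]
  linear_combination (mzj_bi_c L z₀ p (℘[L] wj)) * e1 - (mzj_bi_c L z₀ p (℘[L] wj)) * e2
    + (℘[L] wj - ℘[L] wi) * e3

/-! ### the identity -/

/-- **the 2-torsion identity**, in terms of the three half periods -/
theorem mzj_bi_main (h : mzj_av_Sup L L' z₀ p) (hp : Odd p) {w₁ w₂ w₃ : ℂ}
    (hw₁ : w₁ ∉ L.lattice) (hw₁2 : 2 * w₁ ∈ L.lattice)
    (hw₂ : w₂ ∉ L.lattice) (hw₂2 : 2 * w₂ ∈ L.lattice)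
    (hw₃ : w₃ ∉ L.lattice) (hw₃2 : 2 * w₃ ∈ L.lattice)
    (h12 : w₁ - w₂ ∉ L.lattice) (h13 : w₁ - w₃ ∉ L.lattice) (h23 : w₂ - w₃ ∉ L.lattice) :
    (℘[L] w₂ - ℘[L] w₁) ^ p * mzj_bi_c L z₀ p (℘[L] w₃) ^ 2
      + (℘[L] w₃ - ℘[L] w₂) ^ p * mzj_bi_c L z₀ p (℘[L] w₁) ^ 2
      + (℘[L] w₁ - ℘[L] w₃) ^ p * mzj_bi_c L z₀ p (℘[L] w₂) ^ 2 = 0 := by
  have n12 : ℘[L] w₁ ≠ ℘[L] w₂ := mzj_bi_half_ne hw₁ hw₂ hw₂2 h12
  have n13 : ℘[L] w₁ ≠ ℘[L] w₃ := mzj_bi_half_ne hw₁ hw₃ hw₃2 h13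
  have n23 : ℘[L] w₂ ≠ ℘[L] w₃ := mzj_bi_half_ne hw₂ hw₃ hw₃2 h23
  obtain ⟨hs, hg2, hg3⟩ := mzj_bi_roots (mzj_bi_cubic_half hw₁ hw₁2) (mzj_bi_cubic_half hw₂ hw₂2)
    (mzj_bi_cubic_half hw₃ hw₃2) n12 n13 n23
  -- the three evaluations
  have D12 := mzj_bi_D h hp hw₁ hw₁2 hw₂ hw₂2 (el := ℘[L] w₃) (fun z hz hzw =>
    mzj_bi_add_half hw₂ hw₂2 (by linear_combination hs) (by linear_combination hg2) (by linear_combination hg3)
      hz hzw)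
  have D23 := mzj_bi_D h hp hw₂ hw₂2 hw₃ hw₃2 (el := ℘[L] w₁) (fun z hz hzw =>
    mzj_bi_add_half hw₃ hw₃2 (by linear_combination hs) (by linear_combination hg2) (by linear_combination hg3)
      hz hzw)
  have D31 := mzj_bi_D h hp hw₃ hw₃2 hw₁ hw₁2 (el := ℘[L] w₂) (fun z hz hzw =>
    mzj_bi_add_half hw₁ hw₁2 (by linear_combination hs) (by linear_combination hg2) (by linear_combination hg3)
      hz hzw)
  generalize (℘[L] w₂ - ℘[L] w₁) ^ p = X12 at *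
  generalize (℘[L] w₃ - ℘[L] w₂) ^ p = X23 at *
  generalize (℘[L] w₁ - ℘[L] w₃) ^ p = X31 at *
  linear_combination (-(mzj_bi_c L z₀ p (℘[L] w₃))) * D12 - (mzj_bi_c L z₀ p (℘[L] w₁)) * D23
    - (mzj_bi_c L z₀ p (℘[L] w₂)) * D31

/-- every root of `4x³ - g₂x - g₃` is `℘` of a half period -/
theorem mzj_bi_exists_half {e : ℂ} (he : 4 * e ^ 3 - L.g₂ * e - L.g₃ = 0) :
    ∃ w : ℂ, w ∉ L.lattice ∧ 2 * w ∈ L.lattice ∧ ℘[L] w = e := by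
  have hns : (mza_uh_curve L).toAffine.Nonsingular e 0 := by
    rw [mza_uh_nonsingular_iff]
    linear_combination -he
  obtain ⟨w, hw⟩ := mza_u_PhiHom_surjective L (.some e 0 hns)
  rw [mza_u_PhiHom_apply] at hw
  have hwL : w ∉ L.lattice := by
    intro hm
    rw [mza_uh_Phi_of_mem L hm] at hw
    exact WeierstrassCurve.Affine.Point.some_ne_zero _ hw.symm
  obtain ⟨h1, h2⟩ := (mza_uh_Phi_some_iff L hwL hns).1 hw
  refine ⟨w, hwL, ?_, h1⟩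
  -- `Φ (-w) = Φ w`
  have hnw : -w ∉ L.lattice := fun hm => hwL ((mza_uh_neg_mem_iff L).1 hm)
  have h3 : mza_uh_Phi L (-w) = mza_uh_Phi L w := by
    rw [hw, mza_uh_Phi_some_iff L hnw hns, L.weierstrassP_neg, L.derivWeierstrassP_neg, h1, h2]
    simp
  have h4 := (mza_u_Phi_inj L (-w) w).1 h3
  have h5 := L.lattice.neg_mem h4
  have e : -(-w - w) = 2 * w := by ring
  rwa [e] at h5

/-- **the 2-torsion identity**, in terms of the three roots of `4x³ - g₂x - g₃` -/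
theorem mzj_bi_main_roots (h : mzj_av_Sup L L' z₀ p) (hp : Odd p) {e₁ e₂ e₃ : ℂ}
    (he₁ : 4 * e₁ ^ 3 - L.g₂ * e₁ - L.g₃ = 0) (he₂ : 4 * e₂ ^ 3 - L.g₂ * e₂ - L.g₃ = 0)
    (he₃ : 4 * e₃ ^ 3 - L.g₂ * e₃ - L.g₃ = 0) (h12 : e₁ ≠ e₂) (h13 : e₁ ≠ e₃) (h23 : e₂ ≠ e₃) :
    (e₂ - e₁) ^ p * mzj_bi_c L z₀ p e₃ ^ 2 + (e₃ - e₂) ^ p * mzj_bi_c L z₀ p e₁ ^ 2
      + (e₁ - e₃) ^ p * mzj_bi_c L z₀ p e₂ ^ 2 = 0 := by
  obtain ⟨w₁, hw₁, hw₁2, rfl⟩ := mzj_bi_exists_half he₁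
  obtain ⟨w₂, hw₂, hw₂2, rfl⟩ := mzj_bi_exists_half he₂
  obtain ⟨w₃, hw₃, hw₃2, rfl⟩ := mzj_bi_exists_half he₃
  have aux : ∀ {u v : ℂ}, ℘[L] u ≠ ℘[L] v → u - v ∉ L.lattice := by
    intro u v hne hm
    apply hne
    have := L.weierstrassP_add_coe v ⟨_, hm⟩
    rw [add_sub_cancel] at this
    exact this
  exact mzj_bi_main h hp hw₁ hw₁2 hw₂ hw₂2 hw₃ hw₃2 (aux h12) (aux h13) (aux h23)

end Fermat.Agent.MZ
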