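/-
MAZUR project, node [MZ-J], TRACK B, cell [B-ID], file `MZ/J/TB/IdentC.lean`
(helper13, prefix `mzj_bic_`).

THE 2-TORSION IDENTITY OF A CYCLIC ISOGENY OF ODD PRIME DEGREE FOR EVERY WEIERSTRASS CURVE OVER `ℂ`:
`W` over `ℂ` with `Δ ≠ 0`, `Q ∈ W(ℂ)` of odd prime order `p`, `E₁, E₂, E₃` the three roots of the
`2`-division polynomial `4X³ + b₂X² + 2b₄X + b₆`, `R e = ∏_{k=1}^{p-1} (e - x(k • Q))`.  Then

  `(E₂ - E₁)^p R(E₃)² + (E₃ - E₂)^p R(E₁)² + (E₁ - E₃)^p R(E₂)² = 0`      (`mzj_bic_main`).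

Proof: `u = 1` change of variables to short form (`Ds/VarCh.lean`), uniformisation of the short
curve by a lattice (`mza_la_exists_short`), `Q = Φ z₀`, `L' = L + ℤ z₀` (`mza_la_sup`), and the
analytic identity `mzj_bi_main_roots` of `TB/Ident.lean`.
-/
import Mathlib
import Fermat.Agent.MZ.J.TB.Ident
import Fermat.Agent.MZ.J.Ds.VarCh
import Fermat.Agent.MZ.A.Lat.Sup
import Fermat.Agent.MZ.A.Lat.Exists
import Fermat.Agent.MZ.A.Unif.PhiTors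

set_option autoImplicit false

noncomputable section

namespace Fermat.Agent.MZ

open Complex WeierstrassCurve
open scoped PeriodPair

/-- `R e = ∏_{k=1}^{p-1} (e - x(k • Q))` -/
def mzj_bic_R (W : WeierstrassCurve.Affine ℂ) (p : ℕ) (Q : W.Point) (e : ℂ) : ℂ :=
  ∏ k ∈ Finset.Ico 1 p, (e - mzj_ds_x W (k • Q))

/-- the identity on the curve of a lattice -/
theorem mzj_bic_lat (L : PeriodPair) {p : ℕ} (hp : p.Prime) (hp2 : p ≠ 2)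
    (Q : (mza_uh_curve L).toAffine.Point) (hQ : addOrderOf Q = p) {e₁ e₂ e₃ : ℂ}
    (he₁ : 4 * e₁ ^ 3 - L.g₂ * e₁ - L.g₃ = 0) (he₂ : 4 * e₂ ^ 3 - L.g₂ * e₂ - L.g₃ = 0)
    (he₃ : 4 * e₃ ^ 3 - L.g₂ * e₃ - L.g₃ = 0) (h12 : e₁ ≠ e₂) (h13 : e₁ ≠ e₃) (h23 : e₂ ≠ e₃) :
    (e₂ - e₁) ^ p * mzj_bic_R (mza_uh_curve L) p Q e₃ ^ 2
      + (e₃ - e₂) ^ p * mzj_bic_R (mza_uh_curve L) p Q e₁ ^ 2
      + (e₁ - e₃) ^ p * mzj_bic_R (mza_uh_curve L) p Q e₂ ^ 2 = 0 := by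
  have hA := mza_u_addHyp L
  obtain ⟨z₀, -, hz₀, hpz, hkQ, -, hnz⟩ := mza_uh_torsion L hA hp.two_le Q hQ
  obtain ⟨L', hmem, -, -, -⟩ := mza_la_sup L p hp z₀ hz₀ hpz
  have hS : mzj_av_Sup L L' z₀ p := ⟨hp.pos, hmem, hpz, hnz⟩
  have hodd : Odd p := hp.odd_of_ne_two hp2
  have hR : ∀ e : ℂ, mzj_bic_R (mza_uh_curve L) p Q e ^ 2 = mzj_bi_c L z₀ p e ^ 2 := by
    intro e
    unfold mzj_bic_R mzj_bi_c
    rw [← Finset.prod_pow, ← Finset.prod_pow]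
    refine Finset.prod_congr rfl fun k hk => ?_
    rw [Finset.mem_Ico] at hk
    have hk' : (k : ℂ) * z₀ ∉ L.lattice := hnz k (by omega) hk.2
    rw [hkQ, mza_uh_Phi_of_notMem L hk', mzj_ds_x_some]
    ring
  rw [hR, hR, hR]
  exact mzj_bi_main_roots hS hodd he₁ he₂ he₃ h12 h13 h23

/-- the identity on a short Weierstrass curve -/
theorem mzj_bic_short (A B : ℂ) (hΔ : (⟨0, 0, 0, A, B⟩ : WeierstrassCurve.Affine ℂ).Δ ≠ 0)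
    {p : ℕ} (hp : p.Prime) (hp2 : p ≠ 2)
    (Q : WeierstrassCurve.Affine.Point (⟨0, 0, 0, A, B⟩ : WeierstrassCurve.Affine ℂ))
    (hQ : addOrderOf Q = p)
    {e₁ e₂ e₃ : ℂ}
    (he₁ : e₁ ^ 3 + A * e₁ + B = 0) (he₂ : e₂ ^ 3 + A * e₂ + B = 0)
    (he₃ : e₃ ^ 3 + A * e₃ + B = 0) (h12 : e₁ ≠ e₂) (h13 : e₁ ≠ e₃) (h23 : e₂ ≠ e₃) :
    (e₂ - e₁) ^ p * mzj_bic_R ⟨0, 0, 0, A, B⟩ p Q e₃ ^ 2
      + (e₃ - e₂) ^ p * mzj_bic_R ⟨0, 0, 0, A, B⟩ p Q e₁ ^ 2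
      + (e₁ - e₃) ^ p * mzj_bic_R ⟨0, 0, 0, A, B⟩ p Q e₂ ^ 2 = 0 := by
  have hd : 4 * A ^ 3 + 27 * B ^ 2 ≠ 0 := by
    intro h0
    apply hΔ
    simp only [WeierstrassCurve.Δ, WeierstrassCurve.b₂, WeierstrassCurve.b₄, WeierstrassCurve.b₆,
      WeierstrassCurve.b₈]
    linear_combination (-16 : ℂ) * h0
  obtain ⟨L, rfl, rfl⟩ := mza_la_exists_short A B hd
  exact mzj_bic_lat L hp hp2 Q hQ (by linear_combination 4 * he₁) (by linear_combination 4 * he₂)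
    (by linear_combination 4 * he₃) h12 h13 h23

/-- **the 2-torsion identity for every Weierstrass curve over `ℂ`** -/
theorem mzj_bic_main (W : WeierstrassCurve.Affine ℂ) (hΔ : W.Δ ≠ 0) {p : ℕ} (hp : p.Prime)
    (hp2 : p ≠ 2) (Q : W.Point) (hQ : addOrderOf Q = p) (E₁ E₂ E₃ : ℂ)
    (hE₁ : 4 * E₁ ^ 3 + W.b₂ * E₁ ^ 2 + 2 * W.b₄ * E₁ + W.b₆ = 0)
    (hE₂ : 4 * E₂ ^ 3 + W.b₂ * E₂ ^ 2 + 2 * W.b₄ * E₂ + W.b₆ = 0)
    (hE₃ : 4 * E₃ ^ 3 + W.b₂ * E₃ ^ 2 + 2 * W.b₄ * E₃ + W.b₆ = 0)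
    (h12 : E₁ ≠ E₂) (h13 : E₁ ≠ E₃) (h23 : E₂ ≠ E₃) :
    (E₂ - E₁) ^ p * mzj_bic_R W p Q E₃ ^ 2 + (E₃ - E₂) ^ p * mzj_bic_R W p Q E₁ ^ 2
      + (E₁ - E₃) ^ p * mzj_bic_R W p Q E₂ ^ 2 = 0 := by
  have h2 : (2 : ℂ) ≠ 0 := two_ne_zero
  have h3 : (3 : ℂ) ≠ 0 := three_ne_zero
  set C := mzj_vh_C W with hC
  have hu : C.u = 1 := mzj_vh_C_u W
  have hW := mzj_vh_C_smul W h2 h3
  rw [← hC] at hW
  set A := (C • W).a₄ with hAdef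
  set B := (C • W).a₆ with hBdef
  have hΔ' : (⟨0, 0, 0, A, B⟩ : WeierstrassCurve.Affine ℂ).Δ ≠ 0 := by
    rw [← hW]
    exact Fermat.Agent.LR.lrvc_Δ C W hΔ
  have hQ' : addOrderOf (mzj_vh_equiv C W hW hΔ Q) = p := by
    rw [AddEquiv.addOrderOf_eq, hQ]
  -- the roots of the short curve
  have hroot : ∀ E : ℂ, 4 * E ^ 3 + W.b₂ * E ^ 2 + 2 * W.b₄ * E + W.b₆ = 0 →
      (E - C.r) ^ 3 + A * (E - C.r) + B = 0 := by
    intro E hE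
    have := mzj_vh_u C W hW hu E
    simp only [mzj_ds_u, WeierstrassCurve.b₂, WeierstrassCurve.b₄, WeierstrassCurve.b₆] at this
    simp only [WeierstrassCurve.b₂, WeierstrassCurve.b₄, WeierstrassCurve.b₆] at hE
    linear_combination (1 / 4 : ℂ) * this + (1 / 4 : ℂ) * hE
  have key := mzj_bic_short A B hΔ' hp hp2 (mzj_vh_equiv C W hW hΔ Q) hQ' (hroot E₁ hE₁)
    (hroot E₂ hE₂) (hroot E₃ hE₃) (fun h => h12 (sub_left_injective h))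
    (fun h => h13 (sub_left_injective h)) (fun h => h23 (sub_left_injective h))
  have hR : ∀ E : ℂ, mzj_bic_R ⟨0, 0, 0, A, B⟩ p (mzj_vh_equiv C W hW hΔ Q) (E - C.r)
      = mzj_bic_R W p Q E := by
    intro E
    unfold mzj_bic_R
    refine Finset.prod_congr rfl fun k hk => ?_
    rw [Finset.mem_Ico] at hk
    rw [← map_nsmul, mzj_vh_x C W hW hΔ hu (mzj_vh_nsmul_ne_zero hQ (by omega) hk.2)]
    ring
  rw [hR, hR, hR] at key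
  have e21 : E₂ - C.r - (E₁ - C.r) = E₂ - E₁ := by ring
  have e32 : E₃ - C.r - (E₂ - C.r) = E₃ - E₂ := by ring
  have e13 : E₁ - C.r - (E₃ - C.r) = E₁ - E₃ := by ring
  rw [e21, e32, e13] at key
  exact key

end Fermat.Agent.MZ
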