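/-
MAZUR project, node [MZ-J], TRACK B, cell [B-ID-Q], file `MZ/J/TB/IdentQb.lean`
(helper13, prefix `mzj_biq_`).

THE 2-TORSION IDENTITY OVER `ℚ̄`: `mzj_biq_main : mzj_tb_Ident_stmt`.

Base change of `mzj_bic_main` (`TB/IdentC.lean`, every Weierstrass curve over `ℂ`) along an
embedding `ι : ℚ̄ → ℂ`: `Point.map` is an injective homomorphism commuting with the
`x`-coordinate, and `ι` is injective.
-/
import Mathlib
import Fermat.Agent.MZ.J.TB.IdentC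
import Fermat.Agent.MZ.J.TB.Seams

set_option autoImplicit false

noncomputable section

namespace Fermat.Agent.MZ

open WeierstrassCurve WeierstrassCurve.Affine Fermat.Agent.S58

/-- transport of points along an equality of curves -/
theorem mzj_biq_transport {F : Type*} [Field F] [DecidableEq F] {W₁ W₂ : WeierstrassCurve.Affine F}
    (h : W₁ = W₂) :
    ∃ e : W₁.Point ≃+ W₂.Point, ∀ P, mzj_ds_x W₂ (e P) = mzj_ds_x W₁ P := by
  subst h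
  exact ⟨AddEquiv.refl _, fun P => rfl⟩

/-- the identity over any field `F` that embeds into `ℂ` -/
theorem mzj_biq_field {F : Type*} [Field F] [DecidableEq F] (ι : F →+* ℂ)
    (W' : WeierstrassCurve.Affine F) (hΔ : W'.Δ ≠ 0) {p : ℕ} (hp : p.Prime) (hp2 : p ≠ 2)
    (Q : W'.Point) (hQ : addOrderOf Q = p) (E₁ E₂ E₃ : F)
    (hE₁ : 4 * E₁ ^ 3 + W'.b₂ * E₁ ^ 2 + 2 * W'.b₄ * E₁ + W'.b₆ = 0)
    (hE₂ : 4 * E₂ ^ 3 + W'.b₂ * E₂ ^ 2 + 2 * W'.b₄ * E₂ + W'.b₆ = 0)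
    (hE₃ : 4 * E₃ ^ 3 + W'.b₂ * E₃ ^ 2 + 2 * W'.b₄ * E₃ + W'.b₆ = 0)
    (h12 : E₁ ≠ E₂) (h13 : E₁ ≠ E₃) (h23 : E₂ ≠ E₃) :
    (E₂ - E₁) ^ p * (∏ k ∈ Finset.Ico 1 p, (E₃ - mzj_ds_x W' (k • Q))) ^ 2
      + (E₃ - E₂) ^ p * (∏ k ∈ Finset.Ico 1 p, (E₁ - mzj_ds_x W' (k • Q))) ^ 2
      + (E₁ - E₃) ^ p * (∏ k ∈ Finset.Ico 1 p, (E₂ - mzj_ds_x W' (k • Q))) ^ 2 = 0 := by
  let _ : Algebra F ℂ := ι.toAlgebra
  have hι : ∀ x : F, algebraMap F ℂ x = ι x := fun _ => rfl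
  have hinj : Function.Injective ι := ι.injective
  -- `W'` as the base change of itself
  have hW : (W'⁄F) = W' := by
    show W'.map (algebraMap F F) = W'
    rw [Algebra.algebraMap_self]
    exact WeierstrassCurve.map_id W'
  obtain ⟨e, he⟩ := mzj_biq_transport hW.symm
  set f : F →ₐ[F] ℂ := Algebra.ofId F ℂ with hf
  have hfι : ∀ x : F, f x = ι x := fun _ => rfl
  set Qc : (W'⁄ℂ).Point := Point.map f (e Q) with hQc
  have hQc_ord : addOrderOf Qc = p := by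
    rw [hQc, ← hQ]
    have h1 : addOrderOf (Point.map f (e Q)) = addOrderOf (e Q) :=
      addOrderOf_injective (Point.map (W' := W') f) (Point.map_injective f) (e Q)
    rw [h1, AddEquiv.addOrderOf_eq]
  have hx : ∀ k : ℕ, mzj_ds_x (W'⁄ℂ) (k • Qc) = ι (mzj_ds_x W' (k • Q)) := by
    intro k
    rw [hQc, ← map_nsmul, ← map_nsmul, mzj_ds_x_map, he, hfι]
  have hb₂ : (W'⁄ℂ).b₂ = ι W'.b₂ := by
    simp only [WeierstrassCurve.baseChange, WeierstrassCurve.map_b₂]; rfl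
  have hb₄ : (W'⁄ℂ).b₄ = ι W'.b₄ := by
    simp only [WeierstrassCurve.baseChange, WeierstrassCurve.map_b₄]; rfl
  have hb₆ : (W'⁄ℂ).b₆ = ι W'.b₆ := by
    simp only [WeierstrassCurve.baseChange, WeierstrassCurve.map_b₆]; rfl
  have hΔc : (W'⁄ℂ).Δ ≠ 0 := by
    have : (W'⁄ℂ).Δ = ι W'.Δ := by
      simp only [WeierstrassCurve.baseChange, WeierstrassCurve.map_Δ]; rfl
    rw [this]
    exact fun h0 => hΔ (hinj (by rw [h0, map_zero]))
  have hroot : ∀ E : F, 4 * E ^ 3 + W'.b₂ * E ^ 2 + 2 * W'.b₄ * E + W'.b₆ = 0 →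
      4 * (ι E) ^ 3 + (W'⁄ℂ).b₂ * (ι E) ^ 2 + 2 * (W'⁄ℂ).b₄ * (ι E) + (W'⁄ℂ).b₆ = 0 := by
    intro E hE
    rw [hb₂, hb₄, hb₆]
    have := congrArg ι hE
    simpa only [map_add, map_mul, map_pow, map_ofNat, map_zero] using this
  have key := mzj_bic_main (W'⁄ℂ) hΔc hp hp2 Qc hQc_ord (ι E₁) (ι E₂) (ι E₃) (hroot E₁ hE₁)
    (hroot E₂ hE₂) (hroot E₃ hE₃) (fun h => h12 (hinj h)) (fun h => h13 (hinj h))
    (fun h => h23 (hinj h))
  apply hinj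
  rw [map_zero, ← key]
  simp only [mzj_bic_R, map_add, map_mul, map_pow, map_sub, map_prod, hx]

/-- **[B-ID]**: the `2`-torsion identity over `ℚ̄` -/
theorem mzj_biq_main : mzj_tb_Ident_stmt := by
  intro W' hΔ p hp hp2 Q hQ E₁ E₂ E₃ hE₁ hE₂ hE₃ h12 h13 h23
  haveI : Algebra.IsAlgebraic ℚ (AlgebraicClosure ℚ) := AlgebraicClosure.isAlgebraic ℚ
  have ι : s58_Qb →+* ℂ := (IsAlgClosed.lift (R := ℚ) (S := s58_Qb) (M := ℂ)).toRingHom
  exact mzj_biq_field ι W' hΔ hp hp2 Q hQ E₁ E₂ E₃ hE₁ hE₂ hE₃ h12 h13 h23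

end Fermat.Agent.MZ
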