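/-
MAZUR project, node [MZ-J], TRACK B, cell [B-ID], file `MZ/J/TB/IdentFrey.lean`
(helper13, prefix `mzj_bif_`).

THE 2-TORSION IDENTITY ON THE FREY CURVE: for `W = P.freyCurveInt`, `A = a^p`, `B = b^p`,
`Q ∈ W(ℚ̄)` of order `p`, and `R e = ∏_{k=1}^{p-1} (e - x(k • Q))` (`mzj_tb_R`):

  `A^p R(E₃)² + B^p R(E₂)² = (A + B)^p R(0)²`,   `E₂ = A/4`, `E₃ = -B/4`        (`mzj_bif_main`)

= the hypothesis `hid` of the endgame `mzj_tb_End_stmt` with `a := A`, `b := B`, `R1 := R 0`,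
`R2 := R E₂`, `R3 := R E₃`.  Instance of `mzj_biq_main : mzj_tb_Ident_stmt`.
-/
import Mathlib
import Fermat.Agent.MZ.J.TB.IdentQb
import Fermat.Agent.MZ.J.Base

set_option autoImplicit false

noncomputable section

namespace Fermat.Agent.MZ

open WeierstrassCurve WeierstrassCurve.Affine Fermat.Agent.S58

variable (P : FreyPackage)

/-- the canonical map `ℤ → ℚ̄` through `ℚ` -/
def mzj_bif_f : ℤ →+* s58_Qb := (algebraMap ℚ s58_Qb).comp (Int.castRingHom ℚ)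

theorem mzj_bif_f_eq (n : ℤ) : mzj_bif_f n = (n : s58_Qb) := by
  simp [mzj_bif_f]

theorem mzj_bif_f_injective : Function.Injective mzj_bif_f :=
  (algebraMap ℚ s58_Qb).injective.comp Int.cast_injective

theorem mzj_bif_b₂ : ((s58_WQ P.freyCurveInt)⁄s58_Qb).b₂
    = mzj_bif_f (P.b ^ P.p) - mzj_bif_f (P.a ^ P.p) := by
  simp only [WeierstrassCurve.baseChange, WeierstrassCurve.map_b₂]
  have := congrArg mzj_bif_f (mzj_bs_b₂ P)
  rw [map_sub] at this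
  exact this

theorem mzj_bif_b₄ : 8 * ((s58_WQ P.freyCurveInt)⁄s58_Qb).b₄
    = -(mzj_bif_f (P.a ^ P.p)) * mzj_bif_f (P.b ^ P.p) := by
  simp only [WeierstrassCurve.baseChange, WeierstrassCurve.map_b₄]
  have := congrArg mzj_bif_f (mzj_bs_b₄ P)
  rw [map_mul, map_mul, map_neg, map_ofNat] at this
  exact this

theorem mzj_bif_b₆ : ((s58_WQ P.freyCurveInt)⁄s58_Qb).b₆ = 0 := by
  simp only [WeierstrassCurve.baseChange, WeierstrassCurve.map_b₆]
  rw [mzj_bs_b₆ P]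
  simp

/-- **the 2-torsion identity on the Frey curve** -/
theorem mzj_bif_main (Q : s58_E P.freyCurveInt) (hQ : addOrderOf Q = P.p) :
    ((P.a ^ P.p : ℤ) : s58_Qb) ^ P.p * mzj_tb_R _ P.p Q (mzj_tb_E3 P) ^ 2
      + ((P.b ^ P.p : ℤ) : s58_Qb) ^ P.p * mzj_tb_R _ P.p Q (mzj_tb_E2 P) ^ 2
      = (((P.a ^ P.p : ℤ) : s58_Qb) + ((P.b ^ P.p : ℤ) : s58_Qb)) ^ P.p
          * mzj_tb_R _ P.p Q 0 ^ 2 := by
  have hp2 : P.p ≠ 2 := by have := P.hp5; omega
  have hΔ := mzj_bs_Δ_Qb P.freyCurveInt (mzj_bs_Δ_ne_zero P)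
  set A : s58_Qb := mzj_bif_f (P.a ^ P.p) with hA
  set B : s58_Qb := mzj_bif_f (P.b ^ P.p) with hB
  have hb₂ := mzj_bif_b₂ P
  have hb₄ := mzj_bif_b₄ P
  have hb₆ := mzj_bif_b₆ P
  rw [← hA, ← hB] at hb₂ hb₄
  have hA0 : A ≠ 0 := by
    rw [hA, Ne, map_eq_zero_iff _ mzj_bif_f_injective]
    exact pow_ne_zero _ P.ha0
  have hB0 : B ≠ 0 := by
    rw [hB, Ne, map_eq_zero_iff _ mzj_bif_f_injective]
    exact pow_ne_zero _ P.hb0
  have hAB0 : A + B ≠ 0 := by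
    rw [hA, hB, ← map_add, Ne, map_eq_zero_iff _ mzj_bif_f_injective, P.hFLT]
    exact pow_ne_zero _ P.hc0
  have hE2 : mzj_tb_E2 P = A / 4 := by
    rw [mzj_tb_E2, hA, mzj_bif_f_eq]
    push_cast
    rfl
  have hE3 : mzj_tb_E3 P = -B / 4 := by
    rw [mzj_tb_E3, hB, mzj_bif_f_eq]
    push_cast
    rfl
  have h4 : (4 : s58_Qb) ≠ 0 := by norm_num
  have key := mzj_biq_main ((s58_WQ P.freyCurveInt)⁄s58_Qb) hΔ P.pp hp2 Q hQ 0 (A / 4) (-B / 4)
    (by rw [hb₆]; ring)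
    (by rw [hb₂, hb₆]; linear_combination (A / 16) * hb₄)
    (by rw [hb₂, hb₆]; linear_combination (-B / 16) * hb₄)
    (by
      intro h
      apply hA0
      field_simp at h
      exact h.symm)
    (by
      intro h
      apply hB0
      field_simp at h
      linear_combination h)
    (by
      intro h
      apply hAB0
      field_simp at h
      linear_combination h)
  rw [hE2, hE3]
  have eA : ((P.a ^ P.p : ℤ) : s58_Qb) = A := by rw [hA, mzj_bif_f_eq]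
  have eB : ((P.b ^ P.p : ℤ) : s58_Qb) = B := by rw [hB, mzj_bif_f_eq]
  rw [eA, eB]
  -- clear the powers of `4`
  have h4p : (4 : s58_Qb) ^ P.p ≠ 0 := pow_ne_zero _ h4
  have e1 : (A / 4 - 0) ^ P.p = A ^ P.p / 4 ^ P.p := by rw [sub_zero, div_pow]
  have e2 : (-B / 4 - A / 4) ^ P.p = -((A + B) ^ P.p / 4 ^ P.p) := by
    have : -B / 4 - A / 4 = -((A + B) / 4) := by ring
    rw [this, P.hp_odd.neg_pow, div_pow]
  have e3 : (0 - -B / 4) ^ P.p = B ^ P.p / 4 ^ P.p := by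
    have : (0 : s58_Qb) - -B / 4 = B / 4 := by ring
    rw [this, div_pow]
  rw [e1, e2, e3] at key
  generalize mzj_tb_R ((s58_WQ P.freyCurveInt)⁄s58_Qb) P.p Q (-B / 4) = R3 at key ⊢
  generalize mzj_tb_R ((s58_WQ P.freyCurveInt)⁄s58_Qb) P.p Q (A / 4) = R2 at key ⊢
  generalize mzj_tb_R ((s58_WQ P.freyCurveInt)⁄s58_Qb) P.p Q 0 = R1 at key ⊢
  generalize (4 : s58_Qb) ^ P.p = c at key h4p
  have k2 : (A ^ P.p * R3 ^ 2 - (A + B) ^ P.p * R1 ^ 2 + B ^ P.p * R2 ^ 2) / c = 0 := by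
    rw [← key]
    ring
  have k3 := (div_eq_zero_iff.mp k2).resolve_right h4p
  linear_combination k3

end Fermat.Agent.MZ
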