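/-
MAZUR project, node [MZ-J], TRACK B, cell [B-ID-Q], file `MZ/J/TB/IdentQ.lean`
(helper3, prefix `mzj_bq_`).

DESCENT OF THE 2-TORSION IDENTITY FROM `ℂ` TO `ℚ̄`, GENERAL WEIERSTRASS FORM.

`mzj_bq_main : mzj_tb_Ident_stmt` (the seam of `MZ/J/TB/Seams.lean`): for every Weierstrass curve
`W'` over `ℚ̄` with `Δ ≠ 0`, every point `Q` of odd prime order `p` and the three (pairwise distinct)
roots `E₁, E₂, E₃` of the `2`-division polynomial `4X³ + b₂X² + 2b₄X + b₆`,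

  `(E₂ - E₁)^p R(E₃)² + (E₃ - E₂)^p R(E₁)² + (E₁ - E₃)^p R(E₂)² = 0`,
  `R e = ∏_{k=1}^{p-1} (e - x(k • Q))`.

Route: helper13's complex identity `mzj_bi_main_roots` (`MZ/J/TB/Ident.lean`) on
`mza_uh_curve L` (`mzj_bq_lattice`: torsion points are `Φ_L (k z₀)`, superlattice `mza_la_sup`),
every short curve over `ℂ` is a `mza_uh_curve L` (`mza_la_exists_short`), every curve over `ℂ` is
short after a `u = 1` change of variables (helper7's `mzj_vh_C`, under which the identity is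
invariant: `mzj_bq_complex`), and base change along `br_iota : ℚ̄ → ℂ` (`mzj_bq_descend`).
-/
import Mathlib
import Fermat.Agent.MZ.J.TB.Seams
import Fermat.Agent.MZ.J.TB.Ident
import Fermat.Agent.MZ.J.Ds.VarCh
import Fermat.Agent.MZ.A.Unif.PhiTors
import Fermat.Agent.MZ.A.Lat.Sup
import Fermat.Agent.MZ.A.Lat.Exists
import Fermat.Agent.S24.Bridge.Field

set_option autoImplicit false
set_option linter.unusedSectionVars false

noncomputable section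

namespace Fermat.Agent.MZ

open WeierstrassCurve WeierstrassCurve.Affine WeierstrassCurve.Affine.Point
open Fermat.Agent.LR Fermat.Agent.S58
open scoped PeriodPair

/-! ### the expression -/

/-- the left hand side of the identity, for a family of abscissae `x k` -/
def mzj_bq_expr {F : Type*} [CommRing F] (x : ℕ → F) (p : ℕ) (e₁ e₂ e₃ : F) : F :=
  (e₂ - e₁) ^ p * (∏ k ∈ Finset.Ico 1 p, (e₃ - x k)) ^ 2
    + (e₃ - e₂) ^ p * (∏ k ∈ Finset.Ico 1 p, (e₁ - x k)) ^ 2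
    + (e₁ - e₃) ^ p * (∏ k ∈ Finset.Ico 1 p, (e₂ - x k)) ^ 2

theorem mzj_bq_expr_congr {F : Type*} [CommRing F] {x x' : ℕ → F} {p : ℕ}
    (h : ∀ k, 0 < k → k < p → x k = x' k) (e₁ e₂ e₃ : F) :
    mzj_bq_expr x p e₁ e₂ e₃ = mzj_bq_expr x' p e₁ e₂ e₃ := by
  have hh : ∀ e : F, ∏ k ∈ Finset.Ico 1 p, (e - x k) = ∏ k ∈ Finset.Ico 1 p, (e - x' k) := by
    intro e
    refine Finset.prod_congr rfl fun k hk => ?_
    rw [Finset.mem_Ico] at hk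
    rw [h k (by omega) hk.2]
  unfold mzj_bq_expr
  rw [hh, hh, hh]

theorem mzj_bq_expr_shift {F : Type*} [CommRing F] (x : ℕ → F) (p : ℕ) (r e₁ e₂ e₃ : F) :
    mzj_bq_expr (fun k => x k - r) p (e₁ - r) (e₂ - r) (e₃ - r) = mzj_bq_expr x p e₁ e₂ e₃ := by
  have hh : ∀ e : F, ∏ k ∈ Finset.Ico 1 p, (e - r - (x k - r)) = ∏ k ∈ Finset.Ico 1 p, (e - x k) := by
    intro e
    refine Finset.prod_congr rfl fun k _ => ?_
    ring
  unfold mzj_bq_expr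
  rw [hh, hh, hh]
  ring

theorem mzj_bq_expr_map {F K : Type*} [CommRing F] [CommRing K] (f : F →+* K) (x : ℕ → F) (p : ℕ)
    (e₁ e₂ e₃ : F) :
    f (mzj_bq_expr x p e₁ e₂ e₃) = mzj_bq_expr (fun k => f (x k)) p (f e₁) (f e₂) (f e₃) := by
  unfold mzj_bq_expr
  simp only [map_add, map_mul, map_pow, map_sub, map_prod]

/-- the same with `c t = ∏ (x k - t)` instead of `R t = ∏ (t - x k)` -/
theorem mzj_bq_expr_eq {F : Type*} [CommRing F] (x : ℕ → F) (p : ℕ) (e₁ e₂ e₃ : F) :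
    mzj_bq_expr x p e₁ e₂ e₃ =
      (e₂ - e₁) ^ p * (∏ k ∈ Finset.Ico 1 p, (x k - e₃)) ^ 2
        + (e₃ - e₂) ^ p * (∏ k ∈ Finset.Ico 1 p, (x k - e₁)) ^ 2
        + (e₁ - e₃) ^ p * (∏ k ∈ Finset.Ico 1 p, (x k - e₂)) ^ 2 := by
  have hh : ∀ e : F, (∏ k ∈ Finset.Ico 1 p, (e - x k)) ^ 2 = (∏ k ∈ Finset.Ico 1 p, (x k - e)) ^ 2 := by
    intro e
    rw [← Finset.prod_pow, ← Finset.prod_pow]
    refine Finset.prod_congr rfl fun k _ => ?_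
    ring
  unfold mzj_bq_expr
  rw [hh, hh, hh]

/-! ### the identity on `mza_uh_curve L` -/

/-- the `2`-division polynomial of `mza_uh_curve L` -/
theorem mzj_bq_u_uh (L : PeriodPair) (e : ℂ) :
    mzj_ds_u (mza_uh_curve L).toAffine e = 4 * e ^ 3 - L.g₂ * e - L.g₃ := by
  simp only [mzj_ds_u, mza_uh_curve, WeierstrassCurve.b₂, WeierstrassCurve.b₄,
    WeierstrassCurve.b₆]
  ring

/-- **the identity on the curve of a lattice** -/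
theorem mzj_bq_lattice (L : PeriodPair) {p : ℕ} (hp : p.Prime) (hp2 : p ≠ 2)
    (Q : (mza_uh_curve L).toAffine.Point) (hQ : addOrderOf Q = p) {e₁ e₂ e₃ : ℂ}
    (he₁ : 4 * e₁ ^ 3 - L.g₂ * e₁ - L.g₃ = 0) (he₂ : 4 * e₂ ^ 3 - L.g₂ * e₂ - L.g₃ = 0)
    (he₃ : 4 * e₃ ^ 3 - L.g₂ * e₃ - L.g₃ = 0) (h12 : e₁ ≠ e₂) (h13 : e₁ ≠ e₃) (h23 : e₂ ≠ e₃) :
    mzj_bq_expr (fun k => mzj_ds_x (mza_uh_curve L).toAffine (k • Q)) p e₁ e₂ e₃ = 0 := by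
  obtain ⟨z, -, hz, hpz, hk, -, hnz⟩ := mza_uh_torsion L (mza_u_addHyp L) hp.two_le Q hQ
  obtain ⟨L', hmem, -, -, -⟩ := mza_la_sup L p hp z hz hpz
  have hS : mzj_av_Sup L L' z p := ⟨hp.pos, hmem, hpz, hnz⟩
  have hodd : Odd p := hp.odd_of_ne_two hp2
  have hx : ∀ k, 0 < k → k < p →
      mzj_ds_x (mza_uh_curve L).toAffine (k • Q) = ℘[L] ((k : ℂ) * z) := by
    intro k h0 hkp
    rw [hk k, mza_uh_Phi_of_notMem L (hnz k h0 hkp), mzj_ds_x_some]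
  rw [mzj_bq_expr_congr hx, mzj_bq_expr_eq]
  exact mzj_bi_main_roots hS hodd he₁ he₂ he₃ h12 h13 h23

/-! ### short curves over `ℂ` -/

/-- **the identity on a short Weierstrass curve over `ℂ`** -/
theorem mzj_bq_short (A B : ℂ) (hΔ : (⟨0, 0, 0, A, B⟩ : Affine ℂ).Δ ≠ 0) {p : ℕ} (hp : p.Prime)
    (hp2 : p ≠ 2) (Q : Affine.Point (⟨0, 0, 0, A, B⟩ : Affine ℂ)) (hQ : addOrderOf Q = p)
    {e₁ e₂ e₃ : ℂ} (he₁ : mzj_ds_u (⟨0, 0, 0, A, B⟩ : Affine ℂ) e₁ = 0)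
    (he₂ : mzj_ds_u (⟨0, 0, 0, A, B⟩ : Affine ℂ) e₂ = 0)
    (he₃ : mzj_ds_u (⟨0, 0, 0, A, B⟩ : Affine ℂ) e₃ = 0)
    (h12 : e₁ ≠ e₂) (h13 : e₁ ≠ e₃) (h23 : e₂ ≠ e₃) :
    mzj_bq_expr (fun k => mzj_ds_x (⟨0, 0, 0, A, B⟩ : Affine ℂ) (k • Q)) p e₁ e₂ e₃ = 0 := by
  have hAB : 4 * A ^ 3 + 27 * B ^ 2 ≠ 0 := by
    intro h0
    apply hΔ
    simp only [WeierstrassCurve.Δ, WeierstrassCurve.b₂, WeierstrassCurve.b₄,
      WeierstrassCurve.b₆, WeierstrassCurve.b₈]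
    linear_combination (-16 : ℂ) * h0
  obtain ⟨L, rfl, rfl⟩ := mza_la_exists_short A B hAB
  exact mzj_bq_lattice L hp hp2 Q hQ (by rw [← mzj_bq_u_uh]; exact he₁)
    (by rw [← mzj_bq_u_uh]; exact he₂) (by rw [← mzj_bq_u_uh]; exact he₃) h12 h13 h23

/-! ### all curves over `ℂ` -/

/-- **the identity on every Weierstrass curve over `ℂ`** -/
theorem mzj_bq_complex (W : Affine ℂ) (hΔ : W.Δ ≠ 0) {p : ℕ} (hp : p.Prime) (hp2 : p ≠ 2)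
    (Q : W.Point) (hQ : addOrderOf Q = p) {e₁ e₂ e₃ : ℂ} (he₁ : mzj_ds_u W e₁ = 0)
    (he₂ : mzj_ds_u W e₂ = 0) (he₃ : mzj_ds_u W e₃ = 0)
    (h12 : e₁ ≠ e₂) (h13 : e₁ ≠ e₃) (h23 : e₂ ≠ e₃) :
    mzj_bq_expr (fun k => mzj_ds_x W (k • Q)) p e₁ e₂ e₃ = 0 := by
  have hW := mzj_vh_C_smul W (two_ne_zero' ℂ) (three_ne_zero' ℂ)
  have hu : (mzj_vh_C W).u = 1 := mzj_vh_C_u W
  have hΔ' : (⟨0, 0, 0, (mzj_vh_C W • W).a₄, (mzj_vh_C W • W).a₆⟩ : Affine ℂ).Δ ≠ 0 := by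
    rw [← hW]
    exact lrvc_Δ (mzj_vh_C W) W hΔ
  have hQ' : addOrderOf (mzj_vh_equiv (mzj_vh_C W) W hW hΔ Q) = p := by
    rw [AddEquiv.addOrderOf_eq, hQ]
  have key := mzj_bq_short _ _ hΔ' hp hp2 (mzj_vh_equiv (mzj_vh_C W) W hW hΔ Q) hQ'
    (e₁ := e₁ - (mzj_vh_C W).r) (e₂ := e₂ - (mzj_vh_C W).r) (e₃ := e₃ - (mzj_vh_C W).r)
    (by rw [mzj_vh_u (mzj_vh_C W) W hW hu]; exact he₁)
    (by rw [mzj_vh_u (mzj_vh_C W) W hW hu]; exact he₂)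
    (by rw [mzj_vh_u (mzj_vh_C W) W hW hu]; exact he₃)
    (fun h => h12 (sub_left_injective h)) (fun h => h13 (sub_left_injective h))
    (fun h => h23 (sub_left_injective h))
  rw [← mzj_bq_expr_shift (fun k => mzj_ds_x W (k • Q)) p (mzj_vh_C W).r e₁ e₂ e₃]
  refine Eq.trans (mzj_bq_expr_congr (fun k h0 hkp => ?_) _ _ _) key
  show mzj_ds_x W (k • Q) - (mzj_vh_C W).r
    = mzj_ds_x _ (k • mzj_vh_equiv (mzj_vh_C W) W hW hΔ Q)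
  rw [← map_nsmul, mzj_vh_x (mzj_vh_C W) W hW hΔ hu (mzj_vh_nsmul_ne_zero hQ h0 hkp)]

/-! ### descent along an embedding into `ℂ` -/

/-- **descent**: the identity over any field that embeds into `ℂ` -/
theorem mzj_bq_descend {R : Type*} [CommRing R] (W0 : WeierstrassCurve R) {F : Type*} [Field F]
    [DecidableEq F] [Algebra R F] [Algebra R ℂ] (f : F →ₐ[R] ℂ) (hΔ : (W0⁄F).Δ ≠ 0) {p : ℕ}
    (hp : p.Prime) (hp2 : p ≠ 2) (Q : (W0⁄F).Point) (hQ : addOrderOf Q = p) {E₁ E₂ E₃ : F}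
    (hE₁ : mzj_ds_u (W0⁄F) E₁ = 0) (hE₂ : mzj_ds_u (W0⁄F) E₂ = 0)
    (hE₃ : mzj_ds_u (W0⁄F) E₃ = 0) (h12 : E₁ ≠ E₂) (h13 : E₁ ≠ E₃) (h23 : E₂ ≠ E₃) :
    mzj_bq_expr (fun k => mzj_ds_x (W0⁄F) (k • Q)) p E₁ E₂ E₃ = 0 := by
  have hinj : Function.Injective f := RingHom.injective (f : F →+* ℂ)
  apply hinj
  rw [_root_.map_zero]
  have hmap := mzj_bq_expr_map (f : F →+* ℂ) (fun k => mzj_ds_x (W0⁄F) (k • Q)) p E₁ E₂ E₃
  have hΔc : (W0⁄ℂ).Δ ≠ 0 := by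
    rw [mzj_ds_Δ_map W0 f]
    intro h
    exact hΔ (hinj (by rw [h, _root_.map_zero]))
  have hQc : addOrderOf (Point.map (W' := W0) f Q) = p := by
    rw [addOrderOf_injective (Point.map (W' := W0) f) (Point.map_injective f) Q, hQ]
  have key := mzj_bq_complex (W0⁄ℂ) hΔc hp hp2 (Point.map (W' := W0) f Q) hQc
    (e₁ := f E₁) (e₂ := f E₂) (e₃ := f E₃)
    (by rw [mzj_ds_u_map, hE₁, _root_.map_zero]) (by rw [mzj_ds_u_map, hE₂, _root_.map_zero])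
    (by rw [mzj_ds_u_map, hE₃, _root_.map_zero])
    (fun h => h12 (hinj h)) (fun h => h13 (hinj h)) (fun h => h23 (hinj h))
  refine Eq.trans hmap (Eq.trans (mzj_bq_expr_congr (fun k _ _ => ?_) _ _ _) key)
  show f (mzj_ds_x (W0⁄F) (k • Q)) = mzj_ds_x (W0⁄ℂ) (k • Point.map (W' := W0) f Q)
  rw [← map_nsmul, mzj_ds_x_map]

/-! ### the seam -/

/-- **[B-ID-Q]**: the `2`-torsion identity over `ℚ̄`, general Weierstrass form -/
theorem mzj_bq_main : mzj_tb_Ident_stmt := by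
  intro W'
  have e : (W'⁄s58_Qb) = W' := WeierstrassCurve.map_id W'
  rw [← e]
  intro hΔ p hp hp2 Q hQ E₁ E₂ E₃ h₁ h₂ h₃ h12 h13 h23
  let _ : Algebra s58_Qb ℂ := (Fermat.Agent.S24.br_iota : s58_Qb →+* ℂ).toAlgebra
  exact mzj_bq_descend W' (Algebra.ofId s58_Qb ℂ) hΔ hp hp2 Q hQ h₁ h₂ h₃ h12 h13 h23

end Fermat.Agent.MZ
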