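/-
MAZUR project, node **[MZ-J]**, TRACK B.  Prefix `mzj_btb_` (helper28).

**Repair of the top of Track B.**  `mzj_bt_S12` (`MZ/J/TB/Top.lean`) takes the hypothesis
`mzj_tb_End_stmt`, which is false as stated (it lacks `b ≠ 0`; the closed theorem of the cell
[B-END] is `mzj_be_seam` of `MZ/J/TB/End.lean`, with `b ≠ 0`).  Here the proof of `mzj_bt_S12'`
is run again with the last step given by `mzj_be_seam` (`b = P.b ^ P.p ≠ 0`), and all the cell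
theorems of Track B are plugged in: the frozen S12 follows from the mirrored S15 alone.
-/
import Mathlib
import Fermat.Agent.MZ.J.TB.Top
import Fermat.Agent.MZ.J.TB.End
import Fermat.Agent.MZ.J.TB.PmOneSeam
import Fermat.Agent.MZ.J.TB.Good
import Fermat.Agent.MZ.J.TB.Unit
import Fermat.Agent.MZ.J.TB.IdentQb

set_option autoImplicit false

namespace Fermat.Agent.MZ

open WeierstrassCurve WeierstrassCurve.Affine WeierstrassCurve.Affine.Point Fermat.Agent.S58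

/-- **S12 from the seams of Track B**, with the endgame [B-END] supplied by `mzj_be_seam`. -/
theorem mzj_btb_S12' (hMir : mzj_tb_Mirror_stmt) (hPM1 : mzj_tb_PM1_stmt)
    (hGood : mzj_tb_Good_stmt) (hAtP : mzj_tb_AtP_stmt) (hUnit : mzj_tb_Unit_stmt)
    (hId : mzj_tb_Ident_stmt) (P : FreyPackage) (hp17 : 17 ≤ P.p) :
    ¬ HasGaloisStableCofixedLine (K := AlgebraicClosure ℚ) ℚ P.freyCurve P.p := by
  intro h
  obtain ⟨N, hc, hst, hpN, hco⟩ := mzj_bs_line P h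
  have hpp := P.pp
  have hp2 : P.p ≠ 2 := by omega
  have hΔ := mzj_bs_Δ_ne_zero P
  obtain ⟨Q, hQN, hQord, hgen⟩ := mzj_bt_gen N hpp hc
  have hQstab : ∀ σ : s58_G, ∃ k : ℕ, σ • Q = k • Q := fun σ => hgen _ (hst σ Q hQN)
  -- semistability
  have hc4 : ∀ {ℓ : ℕ}, ℓ.Prime → (ℓ : ℤ) ∣ P.freyCurveInt.Δ →
      ¬ (ℓ : ℤ) ∣ P.freyCurveInt.c₄ := by
    intro ℓ hℓ hd
    rcases mzj_bs_SS P hℓ with h1 | h1
    · exact absurd hd h1
    · exact h1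
  -- [B-PM1] for the generator
  have hpm : ∀ {ℓ : ℕ}, ℓ.Prime → ℓ ≠ P.p → (ℓ : ℤ) ∣ P.freyCurveInt.Δ →
      ∀ A : ValuationSubring s58_Qb, A.LiesOverPrime ℓ →
        ¬ P.freyCurveInt.InZeroComponentAt A Q → P.p ∣ ℓ - 1 ∨ P.p ∣ ℓ + 1 :=
    fun hℓ hℓp hd A hA hn =>
      hPM1 _ hΔ hpp P.hp5 N hc hco hℓ hℓp hd (hc4 hℓ hd) A hA Q hQN hn
  -- the places over `2`
  have h2Δ : ((2 : ℕ) : ℤ) ∣ P.freyCurveInt.Δ := by exact_mod_cast mzj_bs_two_dvd_Δ P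
  have h2 : ∀ A : ValuationSubring s58_Qb, A.LiesOverPrime 2 →
      P.freyCurveInt.InZeroComponentAt A Q := by
    intro A hA
    by_contra hn
    rcases hpm Nat.prime_two (by omega) h2Δ A hA hn with hd | hd
    · have := Nat.le_of_dvd (by norm_num) hd; omega
    · have := Nat.le_of_dvd (by norm_num) hd; omega
  -- `3 ∣ Δ` and the places over `3`
  have h3Δ : ((3 : ℕ) : ℤ) ∣ P.freyCurveInt.Δ := by
    by_contra hn
    have := hGood _ hΔ hpp hp2 N hc hco Nat.prime_three (by omega) hn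
    omega
  have h3 : ∀ A : ValuationSubring s58_Qb, A.LiesOverPrime 3 →
      P.freyCurveInt.InZeroComponentAt A Q := by
    intro A hA
    by_contra hn
    rcases hpm Nat.prime_three (by omega) h3Δ A hA hn with hd | hd
    · have := Nat.le_of_dvd (by norm_num) hd; omega
    · have := Nat.le_of_dvd (by norm_num) hd; omega
  -- every multiplicative `ℓ ≠ p`: the mirrored S15
  have hall : ∀ {ℓ : ℕ}, ℓ.Prime → ℓ ≠ P.p → (ℓ : ℤ) ∣ P.freyCurveInt.Δ →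
      ∀ A : ValuationSubring s58_Qb, A.LiesOverPrime ℓ →
        P.freyCurveInt.InZeroComponentAt A Q := by
    intro ℓ hℓ hℓp hd A hA
    by_contra hn
    have h1 := hpm hℓ hℓp hd A hA hn
    have hℓp1 : ¬ ℓ ∣ P.p - 1 := mzt_not_dvd_pred hpp (by omega) hℓ h1
    have hnot : P.p ∉ ({2, 3, 5, 7, 13} : Finset ℕ) := by
      simp only [Finset.mem_insert, Finset.mem_singleton]
      omega
    exact hn (hMir hpp hnot _ hΔ Q hQstab hQord (mzj_bs_two_dvd_Δ P) (mzj_bs_two_not_dvd_c₄ P) h2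
      (by exact_mod_cast h3Δ) (by exact_mod_cast hc4 Nat.prime_three h3Δ) h3 hℓ hℓp hd
      (hc4 hℓ hd) hℓp1 A hA)
  -- the places over `p`
  have hatp : ∀ A : ValuationSubring s58_Qb, A.LiesOverPrime P.p →
      Fermat.Agent.S05.InKerRed A Q := fun A hA => hAtP P N hc hst hco A hA Q hQN
  -- the three numbers
  have hr1 : (0 : ℚ) = 0 ∨ (0 : ℚ) = (P.a : ℚ) ^ P.p / 4 ∨ (0 : ℚ) = -(P.b : ℚ) ^ P.p / 4 :=
    Or.inl rfl
  have hr2 : (P.a : ℚ) ^ P.p / 4 = 0 ∨ (P.a : ℚ) ^ P.p / 4 = (P.a : ℚ) ^ P.p / 4 ∨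
      (P.a : ℚ) ^ P.p / 4 = -(P.b : ℚ) ^ P.p / 4 := Or.inr (Or.inl rfl)
  have hr3 : -(P.b : ℚ) ^ P.p / 4 = 0 ∨ -(P.b : ℚ) ^ P.p / 4 = (P.a : ℚ) ^ P.p / 4 ∨
      -(P.b : ℚ) ^ P.p / 4 = -(P.b : ℚ) ^ P.p / 4 := Or.inr (Or.inr rfl)
  have hR1 := mzj_bt_R_ne_zero P _ hr1 hpp hp2 Q hQord
  have hR2 := mzj_bt_R_ne_zero P _ hr2 hpp hp2 Q hQord
  have hR3 := mzj_bt_R_ne_zero P _ hr3 hpp hp2 Q hQord
  rw [_root_.map_zero] at hR1
  rw [mzj_bt_E2_eq] at hR2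
  rw [mzj_bt_E3_eq] at hR3
  have hf1 : ∀ σ : s58_G, σ (mzj_tb_R _ P.p Q 0) = mzj_tb_R _ P.p Q 0 := fun σ =>
    mzj_bt_R_fixed P.freyCurveInt hpp Q hQord hQstab 0 σ (_root_.map_zero σ)
  have hf2 : ∀ σ : s58_G, σ (mzj_tb_R _ P.p Q (mzj_tb_E2 P)) = mzj_tb_R _ P.p Q (mzj_tb_E2 P) :=
    fun σ => mzj_bt_R_fixed P.freyCurveInt hpp Q hQord hQstab _ σ (by
      rw [← mzj_bt_E2_eq]; exact σ.commutes _)
  have hf3 : ∀ σ : s58_G, σ (mzj_tb_R _ P.p Q (mzj_tb_E3 P)) = mzj_tb_R _ P.p Q (mzj_tb_E3 P) :=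
    fun σ => mzj_bt_R_fixed P.freyCurveInt hpp Q hQord hQstab _ σ (by
      rw [← mzj_bt_E3_eq]; exact σ.commutes _)
  -- the `2`-torsion identity
  have ha0 : (P.a : s58_Qb) ^ P.p ≠ 0 := pow_ne_zero _ (by exact_mod_cast P.ha0)
  have hb0 : (P.b : s58_Qb) ^ P.p ≠ 0 := pow_ne_zero _ (by exact_mod_cast P.hb0)
  have hcc : (P.a : s58_Qb) ^ P.p + (P.b : s58_Qb) ^ P.p ≠ 0 := by
    have h1 : (P.a : s58_Qb) ^ P.p + (P.b : s58_Qb) ^ P.p = (P.c : s58_Qb) ^ P.p := by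
      exact_mod_cast congrArg (Int.cast : ℤ → s58_Qb) P.hFLT
    rw [h1]
    exact pow_ne_zero _ (by exact_mod_cast P.hc0)
  have h12 : (0 : s58_Qb) ≠ mzj_tb_E2 P := by
    unfold mzj_tb_E2
    exact (div_ne_zero ha0 (by norm_num)).symm
  have h13 : (0 : s58_Qb) ≠ mzj_tb_E3 P := by
    unfold mzj_tb_E3
    exact (div_ne_zero (neg_ne_zero.mpr hb0) (by norm_num)).symm
  have h23 : mzj_tb_E2 P ≠ mzj_tb_E3 P := by
    unfold mzj_tb_E2 mzj_tb_E3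
    intro he
    apply hcc
    field_simp at he
    linear_combination he
  have hident := hId ((s58_WQ P.freyCurveInt)⁄s58_Qb) (mzj_bs_Δ_Qb _ hΔ) hpp hp2 Q hQord
    0 (mzj_tb_E2 P) (mzj_tb_E3 P) (mzj_bt_root1 P) (mzj_bt_root2 P) (mzj_bt_root3 P) h12 h13 h23
  have hodd : Odd P.p := P.hp_odd
  refine mzj_be_seam P.p hodd (by omega) (P.a ^ P.p) (P.b ^ P.p)
    (Int.not_even_iff_odd.mp fun he => mzj_bs_A_odd P (even_iff_two_dvd.mp he))
    (mzj_bs_32_dvd_B P) (pow_ne_zero _ P.hb0) _ _ _ hR1 hR2 hR3 hf1 hf2 hf3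
    (fun ℓ hℓ A hA => hUnit P Q hQord hℓ A hA (fun hℓp hd => hall hℓ hℓp hd A hA)
      (fun hℓp => hatp A (hℓp ▸ hA))) ?_
  -- multiply the identity by `4 ^ p`
  push_cast
  generalize mzj_tb_R ((s58_WQ P.freyCurveInt)⁄s58_Qb) P.p Q 0 = X1 at hident ⊢
  generalize mzj_tb_R ((s58_WQ P.freyCurveInt)⁄s58_Qb) P.p Q (mzj_tb_E2 P) = X2 at hident ⊢
  generalize mzj_tb_R ((s58_WQ P.freyCurveInt)⁄s58_Qb) P.p Q (mzj_tb_E3 P) = X3 at hident ⊢
  unfold mzj_tb_E2 mzj_tb_E3 at hident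
  generalize (P.a : s58_Qb) ^ P.p = A at hident ⊢
  generalize (P.b : s58_Qb) ^ P.p = B at hident ⊢
  have e1 : (A / 4 - 0) ^ P.p = A ^ P.p / 4 ^ P.p := by rw [sub_zero, div_pow]
  have e2 : (-B / 4 - A / 4) ^ P.p = -((A + B) ^ P.p / 4 ^ P.p) := by
    have : -B / 4 - A / 4 = -((A + B) / 4) := by ring
    rw [this, hodd.neg_pow, div_pow]
  have e3 : (0 - -B / 4) ^ P.p = B ^ P.p / 4 ^ P.p := by
    have : 0 - -B / 4 = B / 4 := by ring
    rw [this, div_pow]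
  rw [e1, e2, e3] at hident
  have h4 : (4 : s58_Qb) ^ P.p ≠ 0 := pow_ne_zero _ (by norm_num)
  field_simp at hident
  linear_combination hident

/-- **S12 from the mirrored S15 alone**: every other cell of Track B is closed. -/
theorem mzj_btb_S12 (hMir : mzj_tb_Mirror_stmt) (P : FreyPackage) (hp17 : 17 ≤ P.p) :
    ¬ HasGaloisStableCofixedLine (K := AlgebraicClosure ℚ) ℚ P.freyCurve P.p :=
  mzj_btb_S12' hMir mzj_b1_pm1 mzj_bg_main mzj_bt_AtP mzj_bu_unit mzj_biq_main P hp17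

end Fermat.Agent.MZ
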