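/-
MAZUR project, node **[MZ-J]**, TRACK B, local pieces of **[B-UNIT]**.  Author helper24.
Prefix `mzj_bl_`.

The two "special" places of `mzj_tb_Unit_stmt` (`MZ/J/TB/Seams.lean`) for the Frey model
`W = P.freyCurveInt`, `R e = ∏_{k=1}^{p-1} (e - x(k • Q))`, `E₁ = 0`, `E₂ = a^p/4`, `E₃ = -b^p/4`:

* `mzj_bl_atp`  : `A ∣ p` (any place at which `4` is a unit), `Q` in the kernel of reduction:
  every factor has `v(e - x(kQ)) = v(x(kQ))` for `e ∈ A`, so the three products have the same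
  valuation;
* `mzj_bl_two`  : `A ∣ 2`, `Q` of odd order `p` in the identity component: `x(kQ)` is a unit
  (the node of `y² + xy = x³ + a₂x²` is `(0,0)`), `E₃ ∈ 𝔪`, `v(E₂) = v(4)⁻¹`.
-/
import Mathlib
import Fermat.Agent.MZ.J.TB.Seams
import Fermat.Agent.MZ.J.Base
import Fermat.Agent.MZ.J.SS.Int
import Fermat.Agent.MZ.J.AtPAsm
import Fermat.Agent.S58.Mult.ZeroComp
import Fermat.Agent.S05.IntVal
import Fermat.Agent.JT3.S18.ConstRed

set_option autoImplicit false

namespace Fermat.Agent.MZ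

open WeierstrassCurve WeierstrassCurve.Affine WeierstrassCurve.Affine.Point
open Fermat.Agent.S58 Fermat.Agent.S05

/-! ### generalities -/

/-- the kernel of reduction is closed under `k • ·`. -/
theorem mzj_bl_inKerRed_nsmul (W : WeierstrassCurve ℤ) (A : ValuationSubring s58_Qb)
    {x : s58_E W} (hx : InKerRed A x) (k : ℕ) : InKerRed A (k • x) := by
  induction k with
  | zero => rw [zero_nsmul]; exact inKerRed_zero
  | succ k ih => rw [succ_nsmul]; exact mzj_aa_inKerRed_add W A ih hx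

/-- the proper multiples of a point of order `p` are nonzero. -/
theorem mzj_bl_nsmul_ne_zero {G : Type*} [AddGroup G] {Q : G} {p : ℕ} (hQ : addOrderOf Q = p)
    {k : ℕ} (hk : k ∈ Finset.Ico 1 p) : k • Q ≠ 0 := by
  rw [Finset.mem_Ico] at hk
  intro h
  have := addOrderOf_dvd_of_nsmul_eq_zero h
  rw [hQ] at this
  exact absurd (Nat.le_of_dvd (by omega) this) (by omega)

/-- valuation of `R e` as a product. -/
theorem mzj_bl_val_R (A : ValuationSubring s58_Qb) (W' : WeierstrassCurve.Affine s58_Qb) (p : ℕ)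
    (Q : W'.Point) (e : s58_Qb) :
    A.valuation (mzj_tb_R W' p Q e) =
      ∏ k ∈ Finset.Ico 1 p, A.valuation (e - mzj_ds_x W' (k • Q)) := by
  unfold mzj_tb_R
  exact map_prod A.valuation _ _

/-- ultrametric: `v(e - x) = v(x)` for `e ∈ A`, `x ∉ A`. -/
theorem mzj_bl_val_sub_of_not_mem (A : ValuationSubring s58_Qb) {e x : s58_Qb} (he : e ∈ A)
    (hx : x ∉ A) : A.valuation (e - x) = A.valuation x := by
  have h1 : A.valuation e ≤ 1 := (A.valuation_le_one_iff e).mpr he
  have h2 : 1 < A.valuation x := by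
    rw [← not_le]; exact fun h => hx ((A.valuation_le_one_iff x).mp h)
  exact Valuation.map_sub_eq_of_lt_right _ (lt_of_le_of_lt h1 h2)

/-! ### the place `p` -/

/-- **`A ∣ p`**: if `Q` (of order `p`) lies in the kernel of reduction at `A`, then `R e` has the
same valuation for every `e ∈ A`. -/
theorem mzj_bl_atp (W : WeierstrassCurve ℤ) {p : ℕ} (Q : s58_E W) (hQ : addOrderOf Q = p)
    (A : ValuationSubring s58_Qb) (hker : InKerRed A Q) {e : s58_Qb} (he : e ∈ A) :
    A.valuation (mzj_tb_R ((s58_WQ W)⁄s58_Qb) p Q e) =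
      ∏ k ∈ Finset.Ico 1 p, A.valuation (mzj_ds_x ((s58_WQ W)⁄s58_Qb) (k • Q)) := by
  rw [mzj_bl_val_R]
  refine Finset.prod_congr rfl fun k hk => ?_
  have hne := mzj_bl_nsmul_ne_zero hQ hk
  have hk' := mzj_bl_inKerRed_nsmul W A hker k
  obtain ⟨h, hS⟩ := mzj_ds_eq_some ((s58_WQ W)⁄s58_Qb) hne
  rw [hS, inKerRed_some] at hk'
  exact mzj_bl_val_sub_of_not_mem A he hk'

/-! ### the place `2` -/

section two

variable (P : FreyPackage)

/-- over a place `A ∣ 2`, a point of the identity component of the Frey model with integral `x`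
has a unit `x`-coordinate (the node of the reduction `y² + xy = x³ + a₂x²` is `(0,0)`). -/
theorem mzj_bl_two_unit (A : ValuationSubring s58_Qb) (hA : A.LiesOverPrime 2) {x y : s58_Qb}
    (h : ((s58_WQ P.freyCurveInt)⁄s58_Qb).Nonsingular x y)
    (h0 : P.freyCurveInt.InZeroComponentAt A (Point.some x y h)) (hx : x ∈ A) :
    A.valuation x = 1 := by
  rcases h0 with h0 | ⟨x', y', h', heq, hcase⟩
  · exact absurd h0 (Point.some_ne_zero h)
  · have hxx : x = x' := by injection heq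
    have hyy : y = y' := by injection heq
    subst hxx; subst hyy
    rcases hcase with hnx | ⟨hx', hy', hns⟩
    · exact absurd hx hnx
    · have : Fact (Nat.Prime 2) := ⟨Nat.prime_two⟩
      have hchar : CharP (IsLocalRing.ResidueField A) 2 := Fermat.Agent.JT3.jcr_charP A hA
      by_contra hv
      have hlt : A.valuation x < 1 := lt_of_le_of_ne ((A.valuation_le_one_iff x).mpr hx) hv
      have hres : IsLocalRing.residue A ⟨x, hx'⟩ = 0 := by
        rw [IsLocalRing.residue_eq_zero_iff, ValuationSubring.valuation_lt_one_iff]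
        exact hlt
      have h2 : (2 : IsLocalRing.ResidueField A) = 0 := by
        have := CharP.cast_eq_zero (IsLocalRing.ResidueField A) 2
        exact_mod_cast this
      have ha4 : (Int.castRingHom (IsLocalRing.ResidueField A)) P.freyCurveInt.a₄ = 0 := by
        obtain ⟨t, ht⟩ := mzj_bs_two_dvd_a₄ P
        rw [ht, map_mul]
        have : (Int.castRingHom (IsLocalRing.ResidueField A)) 2 = 2 := by simp
        rw [this, h2, zero_mul]
      rw [Affine.nonsingular_iff, Affine.equation_iff] at hns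
      simp only [WeierstrassCurve.map_a₁, WeierstrassCurve.map_a₂, WeierstrassCurve.map_a₃,
        WeierstrassCurve.map_a₄, WeierstrassCurve.map_a₆, mzj_bs_a₁, mzj_bs_a₃, mzj_bs_a₆, hres,
        ha4, _root_.map_one, _root_.map_zero] at hns
      obtain ⟨heq, hsing⟩ := hns
      have hY : IsLocalRing.residue A ⟨y, hy'⟩ = 0 := by
        have : IsLocalRing.residue A ⟨y, hy'⟩ ^ 2 = 0 := by linear_combination heq
        exact pow_eq_zero_iff (two_ne_zero) |>.mp this
      rw [hY] at hsing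
      rcases hsing with h1 | h1
      · exact h1 (by ring)
      · exact h1 (by ring)

/-- `E₃ = -b^p/4` lies in the maximal ideal of every place over `2`. -/
theorem mzj_bl_val_E3 (A : ValuationSubring s58_Qb) (hA : A.LiesOverPrime 2) :
    A.valuation (mzj_tb_E3 P) < 1 := by
  obtain ⟨t, ht⟩ := mzj_bs_32_dvd_B P
  have e : mzj_tb_E3 P = ((-8 * t : ℤ) : s58_Qb) := by
    unfold mzj_tb_E3
    have : ((P.b : s58_Qb)) ^ P.p = ((P.b ^ P.p : ℤ) : s58_Qb) := by push_cast; rfl
    rw [this, ht]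
    push_cast
    ring
  rw [e]
  exact intVal_lt_one_of_dvd A hA ⟨-4 * t, by push_cast; ring⟩

/-- `v(4)` at a place over `2`. -/
theorem mzj_bl_val_four (A : ValuationSubring s58_Qb) (hA : A.LiesOverPrime 2) :
    A.valuation (4 : s58_Qb) < 1 ∧ A.valuation (4 : s58_Qb) ≠ 0 := by
  refine ⟨?_, ?_⟩
  · have := intVal_lt_one_of_dvd A hA (n := 4) ⟨2, by norm_num⟩
    simpa using this
  · rw [Ne, map_eq_zero]; norm_num

/-- `v(E₂) = v(4)⁻¹` at a place over `2` (`a` is odd). -/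
theorem mzj_bl_val_E2 (A : ValuationSubring s58_Qb) (hA : A.LiesOverPrime 2) :
    A.valuation (mzj_tb_E2 P) = (A.valuation (4 : s58_Qb))⁻¹ := by
  unfold mzj_tb_E2
  have h1 : A.valuation (((P.a ^ P.p : ℤ)) : s58_Qb) = 1 :=
    intVal_eq_one_of_not_dvd A hA Nat.prime_two (by exact_mod_cast mzj_bs_A_odd P)
  have : ((P.a : s58_Qb)) ^ P.p = ((P.a ^ P.p : ℤ) : s58_Qb) := by push_cast; rfl
  rw [map_div₀, this, h1, one_div]

/-- at a place over `2`, the `x`-coordinates of the nonzero multiples of a point of order `p` of the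
identity component are units. -/
theorem mzj_bl_two_x (Q : s58_E P.freyCurveInt) (hQ : addOrderOf Q = P.p)
    (A : ValuationSubring s58_Qb) (hA : A.LiesOverPrime 2)
    (h0 : P.freyCurveInt.InZeroComponentAt A Q) {k : ℕ} (hk : k ∈ Finset.Ico 1 P.p) :
    A.valuation (mzj_ds_x ((s58_WQ P.freyCurveInt)⁄s58_Qb) (k • Q)) = 1 := by
  classical
  have hne := mzj_bl_nsmul_ne_zero hQ hk
  obtain ⟨h, hS⟩ := mzj_ds_eq_some ((s58_WQ P.freyCurveInt)⁄s58_Qb) hne
  have hk0 : P.freyCurveInt.InZeroComponentAt A (k • Q) :=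
    s58m_inZeroComponentAt_nsmul (W := P.freyCurveInt) (A := A) h0 k
  have hT : P.p • (k • Q) = 0 := by
    rw [smul_comm, ← hQ, addOrderOf_nsmul_eq_zero, smul_zero]
  rw [hS] at hk0 hT
  have h2p : ¬ 2 ∣ P.p := by
    intro h2
    have := (Nat.prime_dvd_prime_iff_eq Nat.prime_two P.pp).mp h2
    have := P.hp5
    omega
  have hx := (mzj_ss_i_coord_mem_prime P.freyCurveInt Nat.prime_two h2p A hA h hT).1
  exact mzj_bl_two_unit P A hA h hk0 hx

/-- **`A ∣ 2`**: for `Q` of order `p` in the identity component at `A`, the products `R 0`, `R E₃`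
and `R E₂ * 4^(p-1)` are units of `A`. -/
theorem mzj_bl_two (Q : s58_E P.freyCurveInt) (hQ : addOrderOf Q = P.p)
    (A : ValuationSubring s58_Qb) (hA : A.LiesOverPrime 2)
    (h0 : P.freyCurveInt.InZeroComponentAt A Q) :
    A.valuation (mzj_tb_R ((s58_WQ P.freyCurveInt)⁄s58_Qb) P.p Q 0) = 1 ∧
    A.valuation (mzj_tb_R ((s58_WQ P.freyCurveInt)⁄s58_Qb) P.p Q (mzj_tb_E3 P)) = 1 ∧
    A.valuation (mzj_tb_R ((s58_WQ P.freyCurveInt)⁄s58_Qb) P.p Q (mzj_tb_E2 P) * 4 ^ (P.p - 1))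
      = 1 := by
  obtain ⟨h4lt, h4ne⟩ := mzj_bl_val_four A hA
  refine ⟨?_, ?_, ?_⟩
  · rw [mzj_bl_val_R]
    refine Finset.prod_eq_one fun k hk => ?_
    rw [zero_sub, Valuation.map_neg]
    exact mzj_bl_two_x P Q hQ A hA h0 hk
  · rw [mzj_bl_val_R]
    refine Finset.prod_eq_one fun k hk => ?_
    have hx := mzj_bl_two_x P Q hQ A hA h0 hk
    rw [Valuation.map_sub_eq_of_lt_right _ (by rw [hx]; exact mzj_bl_val_E3 P A hA), hx]
  · rw [map_mul, mzj_bl_val_R, map_pow]
    have hfac : ∀ k ∈ Finset.Ico 1 P.p,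
        A.valuation (mzj_tb_E2 P - mzj_ds_x ((s58_WQ P.freyCurveInt)⁄s58_Qb) (k • Q)) =
          (A.valuation (4 : s58_Qb))⁻¹ := by
      intro k hk
      have hx := mzj_bl_two_x P Q hQ A hA h0 hk
      have hE2 := mzj_bl_val_E2 P A hA
      have hlt : A.valuation (mzj_ds_x ((s58_WQ P.freyCurveInt)⁄s58_Qb) (k • Q)) <
          A.valuation (mzj_tb_E2 P) := by
        rw [hx, hE2]
        exact (one_lt_inv₀ (zero_lt_iff.mpr h4ne)).mpr h4lt
      rw [Valuation.map_sub_eq_of_lt_left _ hlt, hE2]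
    rw [Finset.prod_congr rfl hfac, Finset.prod_const, Nat.card_Ico, inv_pow,
      inv_mul_cancel₀ (pow_ne_zero _ h4ne)]

/-- at a place where `4` is a unit (every place over an odd prime), `E₂` and `E₃` are integral. -/
theorem mzj_bl_E_mem (A : ValuationSubring s58_Qb) (h4 : A.valuation (4 : s58_Qb) = 1) :
    mzj_tb_E2 P ∈ A ∧ mzj_tb_E3 P ∈ A := by
  have ha : A.valuation (((P.a ^ P.p : ℤ)) : s58_Qb) ≤ 1 := intVal_intCast_le_one A _
  have hb : A.valuation (((P.b ^ P.p : ℤ)) : s58_Qb) ≤ 1 := intVal_intCast_le_one A _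
  have ea : ((P.a : s58_Qb)) ^ P.p = ((P.a ^ P.p : ℤ) : s58_Qb) := by push_cast; rfl
  have eb : ((P.b : s58_Qb)) ^ P.p = ((P.b ^ P.p : ℤ) : s58_Qb) := by push_cast; rfl
  refine ⟨?_, ?_⟩
  · rw [← A.valuation_le_one_iff]
    unfold mzj_tb_E2
    rw [map_div₀, h4, div_one, ea]; exact ha
  · rw [← A.valuation_le_one_iff]
    unfold mzj_tb_E3
    rw [map_div₀, h4, div_one, Valuation.map_neg, eb]; exact hb

/-- **`A ∣ 2` in the shape of `mzj_tb_Unit_stmt`.** -/
theorem mzj_bl_two_seam (Q : s58_E P.freyCurveInt) (hQ : addOrderOf Q = P.p)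
    (A : ValuationSubring s58_Qb) (hA : A.LiesOverPrime 2)
    (h0 : P.freyCurveInt.InZeroComponentAt A Q) :
    A.valuation (mzj_tb_R _ P.p Q 0) = A.valuation (mzj_tb_R _ P.p Q (mzj_tb_E3 P)) ∧
      A.valuation (mzj_tb_R _ P.p Q (mzj_tb_E2 P) * 4 ^ (P.p - 1)) =
        A.valuation (mzj_tb_R _ P.p Q (mzj_tb_E3 P)) := by
  obtain ⟨h1, h2, h3⟩ := mzj_bl_two P Q hQ A hA h0
  exact ⟨h1.trans h2.symm, h3.trans h2.symm⟩

/-- **`A ∣ p` (more generally any place where `4` is a unit) in the shape of `mzj_tb_Unit_stmt`**: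
`Q` of order `p` in the kernel of reduction at `A`. -/
theorem mzj_bl_atp_seam (Q : s58_E P.freyCurveInt) (hQ : addOrderOf Q = P.p)
    (A : ValuationSubring s58_Qb) (h4 : A.valuation (4 : s58_Qb) = 1) (hker : InKerRed A Q) :
    A.valuation (mzj_tb_R _ P.p Q 0) = A.valuation (mzj_tb_R _ P.p Q (mzj_tb_E3 P)) ∧
      A.valuation (mzj_tb_R _ P.p Q (mzj_tb_E2 P) * 4 ^ (P.p - 1)) =
        A.valuation (mzj_tb_R _ P.p Q (mzj_tb_E3 P)) := by
  obtain ⟨hE2, hE3⟩ := mzj_bl_E_mem P A h4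
  have e0 := mzj_bl_atp P.freyCurveInt Q hQ A hker (e := 0) A.zero_mem
  have e2 := mzj_bl_atp P.freyCurveInt Q hQ A hker hE2
  have e3 := mzj_bl_atp P.freyCurveInt Q hQ A hker hE3
  refine ⟨e0.trans e3.symm, ?_⟩
  rw [map_mul, map_pow, h4, one_pow, mul_one]
  exact e2.trans e3.symm

/-- `4` is a unit at every place over an odd prime. -/
theorem mzj_bl_val_four_odd (A : ValuationSubring s58_Qb) {ℓ : ℕ} (hℓ : ℓ.Prime) (hℓ2 : ℓ ≠ 2)
    (hA : A.LiesOverPrime ℓ) : A.valuation (4 : s58_Qb) = 1 := by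
  have h : ¬ (ℓ : ℤ) ∣ 4 := by
    intro h4
    have h4' : ℓ ∣ 4 := by exact_mod_cast h4
    have h2 : ℓ ∣ 2 ^ 2 := by norm_num; exact h4'
    exact hℓ2 ((Nat.prime_dvd_prime_iff_eq hℓ Nat.prime_two).mp (hℓ.dvd_of_dvd_pow h2))
  have := intVal_eq_one_of_not_dvd A hA hℓ h
  simpa using this

end two

end Fermat.Agent.MZ
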